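import Fermat.Agent.BadRed.Ordinary.Inertia

/-!
# Inertia symmetries compose
-/

set_option autoImplicit false

noncomputable section

open AlgebraicCurve FLTA.Curves

namespace FLTA.BadRed.Ordinary

variable {K : Type*} [Field K] {A : ValuationSubring K} {k : Type*} [Field k] {π : A →+* k}
  {q : ℕ} [NeZero q] {F : Type*} [Field F] [Algebra K F] {F' : Type*} [Field F'] [Algebra K F']
  {Fk : Type*} [Field Fk] [Algebra k Fk] {g gF : ℕ} {B : BadFibre A π q F F' Fk g gF}
  {G : Type*} [Group G] [MulSemiringAction G K] (I : InertiaData B G)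

namespace InertiaData

include I

theorem sy_mul (σ τ : G) : (I.sy (σ * τ)).σ = (I.sy σ).σ * (I.sy τ).σ := by
  refine Subtype.ext (Prod.ext (RingEquiv.ext fun x => ?_) (RingEquiv.ext fun c => ?_))
  · refine (B.e 0).injective (HahnSeries.ext (funext fun j => ?_))
    have h1 := I.coeff_e (σ * τ) 0 x j
    have h2 := I.coeff_e σ 0 ((I.sy τ).σ • x) j
    rw [I.coeff_e τ 0 x j] at h2
    rw [mul_smul σ τ] at h1
    exact h1.trans h2.symm
  · show SemilinearAut.baseAut (I.sy (σ * τ)).σ c =
      SemilinearAut.baseAut (I.sy σ).σ (SemilinearAut.baseAut (I.sy τ).σ c)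
    rw [I.base, I.base, I.base, mul_smul]

theorem sy_one : (I.sy 1).σ = 1 := by
  have h := I.sy_mul 1 1
  rw [mul_one] at h
  exact mul_left_cancel (h.symm.trans (mul_one _).symm)

/-- The action on the divisor class group. -/
@[implicit_reducible]
def classAction : DistribMulAction G (Pic0 K F) where
  smul σ x := (I.sy σ).σ • x
  one_smul x := by show (I.sy 1).σ • x = x; rw [I.sy_one, one_smul]
  mul_smul σ τ x := by
    show (I.sy (σ * τ)).σ • x = (I.sy σ).σ • (I.sy τ).σ • x
    rw [I.sy_mul, mul_smul]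
  smul_zero σ := smul_zero (A := Pic0 K F) (I.sy σ).σ
  smul_add σ x y := smul_add (I.sy σ).σ x y

end InertiaData

end FLTA.BadRed.Ordinary

end
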