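import Fermat.Agent.BadRed.Ordinary.Fixed

/-!
# Fixed approximations by averaging over a finite orbit
-/

set_option autoImplicit false

noncomputable section

namespace FLTA.BadRed.Ordinary

variable {K : Type*} [Field K] [CharZero K] {A : ValuationSubring K}
  {G : Type*} [Group G] [MulSemiringAction G K]

/-- If `a` is almost fixed by `H` and its orbit has at most `D` elements, it is close to a fixed
element, with a loss of `q ^ D`. -/
theorem exists_fixed_approx {q : ℕ} (hq : q.Prime)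
    (hunit : ∀ m : ℕ, ¬ q ∣ m → ((m : K))⁻¹ ∈ A) (H : Subgroup G) (a : K) (D M : ℕ)
    (hfin : (Set.range fun σ : H => σ • a).Finite) (hcard : hfin.toFinset.card ≤ D)
    (hfix : ∀ σ : H, ∃ b ∈ A, σ • a - a = (q : K) ^ M * b) :
    ∃ a' : K, (∀ σ : H, σ • a' = a') ∧ ∃ b ∈ A, (q : K) ^ D * (a' - a) = (q : K) ^ M * b := by
  classical
  set O := hfin.toFinset
  have ha : a ∈ O := hfin.mem_toFinset.mpr ⟨1, one_smul _ a⟩
  set n := O.card
  have hn : n ≠ 0 := (Finset.card_pos.mpr ⟨a, ha⟩).ne'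
  obtain ⟨e, m, hm, hnem⟩ := Nat.exists_eq_pow_mul_and_not_dvd hn q hq.ne_one
  have hmem : ∀ x : K, x ∈ O ↔ ∃ σ : H, σ • a = x := fun x => hfin.mem_toFinset
  refine ⟨(∑ x ∈ O, x) / n, fun σ => ?_, ?_⟩
  · have hn' : σ • (n : K) = n := map_natCast (MulSemiringAction.toRingHom H K σ) n
    rw [div_eq_mul_inv, smul_mul', smul_inv'', hn', Finset.smul_sum]
    congr 1
    refine Finset.sum_bij' (fun x _ => σ • x) (fun x _ => σ⁻¹ • x) ?_ ?_ ?_ ?_ ?_
    · intro x hx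
      obtain ⟨τ, rfl⟩ := (hmem x).mp hx
      exact (hmem _).mpr ⟨σ * τ, mul_smul _ _ _⟩
    · intro x hx
      obtain ⟨τ, rfl⟩ := (hmem x).mp hx
      exact (hmem _).mpr ⟨σ⁻¹ * τ, mul_smul _ _ _⟩
    · intro x _; exact inv_smul_smul σ x
    · intro x _; exact smul_inv_smul σ x
    · intro x _; rfl
  choose b hb e' using hfix
  have hd : ∀ x ∈ O, ∃ c ∈ A, x - a = (q : K) ^ M * c := fun x hx => by
    obtain ⟨σ, rfl⟩ := (hmem x).mp hx
    exact ⟨b σ, hb σ, e' σ⟩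
  choose c hc ec using hd
  have he : e ≤ D := by
    refine le_trans ?_ hcard
    change e ≤ n
    rw [hnem]
    exact (Nat.lt_pow_self hq.one_lt).le.trans (Nat.le_mul_of_pos_right _ (Nat.pos_of_ne_zero
      fun h => hm (h ▸ dvd_zero q)))
  refine ⟨(q : K) ^ (D - e) * (m : K)⁻¹ * ∑ x ∈ O.attach, c x.1 x.2,
    mul_mem (mul_mem (pow_mem (natCast_mem A q) _) (hunit m hm)) (sum_mem fun x _ => hc _ _), ?_⟩
  have hm0 : (m : K) ≠ 0 := Nat.cast_ne_zero.mpr fun h => hm (h ▸ dvd_zero q)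
  have hq0 : (q : K) ≠ 0 := Nat.cast_ne_zero.mpr hq.ne_zero
  have hn0 : (n : K) ≠ 0 := Nat.cast_ne_zero.mpr hn
  have hsum : ∑ x ∈ O, x - n * a = (q : K) ^ M * ∑ x ∈ O.attach, c x.1 x.2 := by
    rw [Finset.mul_sum, ← Finset.sum_congr rfl fun x (_ : x ∈ O.attach) => ec x.1 x.2,
      Finset.sum_sub_distrib, Finset.sum_attach O fun x => x, Finset.sum_const, Finset.card_attach,
      nsmul_eq_mul]
  have hdiv : (∑ x ∈ O, x) / (n : K) - a = ((q : K) ^ M * ∑ x ∈ O.attach, c x.1 x.2) / n := by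
    rw [← hsum, sub_div, mul_div_cancel_left₀ _ hn0]
  rw [hdiv, show (q : K) ^ D = (q : K) ^ (D - e) * (q : K) ^ e by
    rw [← pow_add, Nat.sub_add_cancel he], hnem]
  push_cast
  field_simp

end FLTA.BadRed.Ordinary

end
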