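import Fermat.Agent.BadRed.Ordinary.NormalForm

/-!
# Normal forms for pairs congruent to `1` modulo some nilpotent ideal
-/

set_option autoImplicit false

noncomputable section

open ModularCurve

namespace FLTA.BadRed.Ordinary

namespace Frame

variable {W : Type*} [CommRing W] (Φ : Frame W) {R : Type*} [CommRing R] (φ : W →+* R)

/-- Congruent to `1` modulo a nilpotent ideal. -/
def Small (z : LPair R) : Prop := ∃ I : Ideal R, IsNilpotent I ∧ CoeffIn I (z - 1)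

/-- Trivial modulo some nilpotent ideal. -/
def TrivN (t : LPair R) : Prop := ∃ I : Ideal R, IsNilpotent I ∧ Φ.Triv φ I t

/-- `a` is a normal form of `z`. -/
def IsNF (z : LPair R) (a : Φ.Γ → R) : Prop :=
  (∀ γ, IsNilpotent (a γ)) ∧ ∃ t, Φ.TrivN φ t ∧ z = Φ.nf a * t

variable {Φ φ}

theorem isNilpotent_span_range {ι : Type*} [Finite ι] {a : ι → R} (ha : ∀ i, IsNilpotent (a i)) :
    IsNilpotent (Ideal.span (Set.range a)) :=
  (Ideal.FG.isNilpotent_iff_le_nilradical (Submodule.fg_span (Set.finite_range a))).mpr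
    (Ideal.span_le.mpr (by rintro _ ⟨i, rfl⟩; exact ha i))

theorem isNilpotent_sup {I J : Ideal R} (hI : IsNilpotent I) (hJ : IsNilpotent J) :
    IsNilpotent (I ⊔ J) :=
  (Commute.all I J).isNilpotent_add hI hJ

theorem Triv.mono {I J : Ideal R} (hle : I ≤ J) {t : LPair R} (h : Φ.Triv φ I t) :
    Φ.Triv φ J t := by
  obtain ⟨β, υ, hβ, hυ, hυI, rfl⟩ := h
  exact ⟨β, υ, Submodule.smul_mono_left hle hβ, hυ, hυI.mono hle, rfl⟩

theorem TrivN.mul {t t' : LPair R} (h : Φ.TrivN φ t) (h' : Φ.TrivN φ t') :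
    Φ.TrivN φ (t * t') := by
  obtain ⟨I, hI, hIt⟩ := h
  obtain ⟨J, hJ, hJt⟩ := h'
  exact ⟨I ⊔ J, isNilpotent_sup hI hJ, (hIt.mono le_sup_left).mul (hJt.mono le_sup_right)⟩

theorem trivN_one : Φ.TrivN φ 1 := ⟨⊥, IsNilpotent.zero (R := Ideal R), triv_one⟩

theorem TrivN.exists_inv {t : LPair R} (h : Φ.TrivN φ t) :
    ∃ t', Φ.TrivN φ t' ∧ t * t' = 1 := by
  obtain ⟨I, ⟨N, hN⟩, hIt⟩ := h
  obtain ⟨t', h', e⟩ := hIt.exists_inv hN
  exact ⟨t', ⟨I, ⟨N, hN⟩, h'⟩, e⟩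

theorem trivN_one_add_noPole {υ : LPair R} (h : NoPole υ) {I : Ideal R} (hI : IsNilpotent I)
    (hυ : CoeffIn I υ) : Φ.TrivN φ (1 + υ) :=
  ⟨I, hI, triv_one_add_noPole h hυ⟩

theorem Small.exists_isNF {z : LPair R} (h : Small z) : ∃ a, Φ.IsNF φ z a := by
  obtain ⟨I, ⟨N, hN⟩, hz⟩ := h
  obtain ⟨a, t, ha, ht, e⟩ := Φ.exists_nf φ hN hz
  exact ⟨a, fun γ => ⟨N, by simpa [hN] using Ideal.pow_mem_pow (ha γ) N⟩, t, ⟨I, ⟨N, hN⟩, ht⟩, e⟩

theorem IsNF.unique {z : LPair R} {a a' : Φ.Γ → R} (h : Φ.IsNF φ z a) (h' : Φ.IsNF φ z a') :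
    a' = a := by
  obtain ⟨ha, t, ⟨I, hI, ht⟩, e⟩ := h
  obtain ⟨ha', t', ⟨I', hI', ht'⟩, e'⟩ := h'
  set J := (I ⊔ I') ⊔ (Ideal.span (Set.range a) ⊔ Ideal.span (Set.range a'))
  obtain ⟨N, hN⟩ : IsNilpotent J := isNilpotent_sup (isNilpotent_sup hI hI')
    (isNilpotent_sup (isNilpotent_span_range ha) (isNilpotent_span_range ha'))
  exact nf_unique' hN
    (fun γ => le_sup_of_le_right (le_sup_left (b := Ideal.span (Set.range a')))
      (Ideal.subset_span ⟨γ, rfl⟩))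
    (fun γ => le_sup_of_le_right (le_sup_right (a := Ideal.span (Set.range a)))
      (Ideal.subset_span ⟨γ, rfl⟩))
    (ht.mono (le_sup_of_le_left le_sup_left)) (ht'.mono (le_sup_of_le_left le_sup_right)) e e'

theorem IsNF.mul_trivN {z t : LPair R} {a : Φ.Γ → R} (h : Φ.IsNF φ z a) (ht : Φ.TrivN φ t) :
    Φ.IsNF φ (z * t) a := by
  obtain ⟨ha, t₁, ht₁, rfl⟩ := h
  exact ⟨ha, t₁ * t, ht₁.mul ht, mul_assoc _ _ _⟩

theorem isNF_nf {a : Φ.Γ → R} (ha : ∀ γ, IsNilpotent (a γ)) : Φ.IsNF φ (Φ.nf a) a :=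
  ⟨ha, 1, trivN_one, (mul_one _).symm⟩

theorem nf_zero : Φ.nf (0 : Φ.Γ → R) = 1 := by
  simp [nf]

theorem isNF_one : Φ.IsNF φ 1 0 := by
  simpa [nf_zero] using isNF_nf (Φ := Φ) (φ := φ) (a := 0) fun _ => IsNilpotent.zero

theorem isNF_of_trivN {t : LPair R} (ht : Φ.TrivN φ t) : Φ.IsNF φ t 0 := by
  simpa using isNF_one.mul_trivN ht

theorem IsNF.trivN_of_zero {z : LPair R} (h : Φ.IsNF φ z 0) : Φ.TrivN φ z := by
  obtain ⟨-, t, ht, rfl⟩ := h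
  rwa [nf_zero, one_mul]

section Map

variable {S : Type*} [CommRing S] (ψ : R →+* S)

theorem TrivN.map {t : LPair R} (h : Φ.TrivN φ t) : Φ.TrivN (ψ.comp φ) (mapPair ψ t) := by
  obtain ⟨I, ⟨N, hN⟩, hIt⟩ := h
  refine ⟨I.map ψ, ⟨N, ?_⟩, hIt.map ψ le_rfl⟩
  rw [← Ideal.map_pow, hN]
  exact Ideal.map_bot

theorem IsNF.map {z : LPair R} {a : Φ.Γ → R} (h : Φ.IsNF φ z a) :
    Φ.IsNF (ψ.comp φ) (mapPair ψ z) (ψ ∘ a) := by
  obtain ⟨ha, t, ht, rfl⟩ := h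
  exact ⟨fun γ => (ha γ).map ψ, _, ht.map ψ, by rw [map_mul, mapPair_nf]⟩

end Map

section Universal

variable (Φ)

/-- Polynomials computing products of normal forms, for bounded nilpotency. -/
theorem exists_polynomials (N : ℕ) :
    ∃ P : Φ.Γ → MvPolynomial (Φ.Γ ⊕ Φ.Γ) W, ∀ (S : Type*) [CommRing S] (φ' : W →+* S)
      (a b : Φ.Γ → S), (∀ γ, IsNilpotent (a γ)) → (∀ γ, IsNilpotent (b γ)) →
      Ideal.span (Set.range (Sum.elim a b)) ^ N = ⊥ →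
      Φ.IsNF φ' (Φ.nf a * Φ.nf b)
        fun γ => MvPolynomial.eval₂ φ' (Sum.elim a b) (P γ) := by
  classical
  set I₀ : Ideal (MvPolynomial (Φ.Γ ⊕ Φ.Γ) W) := Ideal.span (Set.range MvPolynomial.X) with hI₀
  let mk := Ideal.Quotient.mk (I₀ ^ N)
  set I := I₀.map mk
  have hN : I ^ N = ⊥ := by
    rw [← Ideal.map_pow, Ideal.map_quotient_self]
  let φ₀ := mk.comp (MvPolynomial.C : W →+* _)
  have hmem : ∀ v : Φ.Γ ⊕ Φ.Γ, mk (MvPolynomial.X v) ∈ I := fun v =>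
    Ideal.mem_map_of_mem _ (Ideal.subset_span ⟨v, rfl⟩)
  have hsmall : CoeffIn I (Φ.nf (fun γ => mk (MvPolynomial.X (Sum.inl γ))) *
      Φ.nf (fun γ => mk (MvPolynomial.X (Sum.inr γ))) - 1) := by
    set u := Φ.nf (fun γ => mk (MvPolynomial.X (Sum.inl γ)))
    set v := Φ.nf (fun γ => mk (MvPolynomial.X (Sum.inr γ)))
    rw [show u * v - 1 = (u - 1) * v + (v - 1) by ring]
    exact ((Φ.coeffIn_nf_sub_one fun γ => hmem _).mul_right _).add
      (Φ.coeffIn_nf_sub_one fun γ => hmem _)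
  obtain ⟨c, hc⟩ := Small.exists_isNF (Φ := Φ) (φ := φ₀) ⟨I, ⟨N, hN⟩, hsmall⟩
  choose P hP using fun γ => Ideal.Quotient.mk_surjective (c γ)
  refine ⟨P, fun S _ φ' a b ha hb hab => ?_⟩
  let ev : MvPolynomial (Φ.Γ ⊕ Φ.Γ) W →+* S := MvPolynomial.eval₂Hom φ' (Sum.elim a b)
  have hker : ∀ x ∈ I₀ ^ N, ev x = 0 := fun x hx => by
    have h1 : ev x ∈ (I₀ ^ N).map ev := Ideal.mem_map_of_mem _ hx
    have h2 : I₀.map ev = Ideal.span (Set.range (Sum.elim a b)) := by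
      rw [hI₀, Ideal.map_span, ← Set.range_comp]
      congr 2
      funext v
      simp [ev]
    rw [Ideal.map_pow, h2, hab] at h1
    simpa using h1
  let ψ := Ideal.Quotient.lift (I₀ ^ N) ev hker
  have hφ : ψ.comp φ₀ = φ' := RingHom.ext fun w => by simp [ψ, φ₀, mk, ev]
  have h := hc.map ψ
  rw [map_mul, mapPair_nf, mapPair_nf, hφ] at h
  have hl : (ψ ∘ fun γ => mk (MvPolynomial.X (Sum.inl γ))) = a := by
    funext γ; simp [ψ, mk, ev]
  have hr : (ψ ∘ fun γ => mk (MvPolynomial.X (Sum.inr γ))) = b := by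
    funext γ; simp [ψ, mk, ev]
  have hc' : ψ ∘ c = fun γ => MvPolynomial.eval₂ φ' (Sum.elim a b) (P γ) := by
    funext γ
    rw [Function.comp_apply, ← hP]
    simp [ψ, ev]
  rw [hl, hr, hc'] at h
  exact h

end Universal

end Frame

end FLTA.BadRed.Ordinary

end
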