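import Fermat.Agent.BadRed.Ordinary.Sections
import Fermat.Agent.BadRed.Ordinary.NormalNil

/-!
# Reduction of expansions modulo a power of `q`

For a subgroup `H` of inertia, functions whose expansions have coefficients in
`intFixed A H` have reductions in pairs over `intFixed A H ⧸ (q ^ M)`.
-/

set_option autoImplicit false
set_option linter.unusedSectionVars false

noncomputable section

open AlgebraicCurve FLTA.Curves

namespace FLTA.BadRed.Ordinary

variable {K : Type*} [Field K] {G : Type*} [Group G] [MulSemiringAction G K]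

/-- Standing hypotheses on the action of `G` on `K`, with rank one. -/
structure RankOneAt (A : ValuationSubring K) (q : ℕ) : Prop where
  ne_zero : (q : K) ≠ 0
  pow_dvd : ∀ ε ∈ A.nonunits, ∀ M : ℕ, ∃ N : ℕ, ∃ a ∈ A, ε ^ N = (q : K) ^ M * a

section Ring

variable (A : ValuationSubring K) (H : Subgroup G)

theorem intFixed_le {H H' : Subgroup G} (h : H ≤ H') : intFixed A H' ≤ intFixed A H :=
  fun _ hx => ⟨hx.1, fun g => hx.2 ⟨g, h g.2⟩⟩

theorem intFixed_le_sub : intFixed A G ≤ intFixed A H := fun _ hx => ⟨hx.1, fun g => hx.2 g⟩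

theorem mem_intFixed_bot {x : K} : x ∈ intFixed A (⊥ : Subgroup G) ↔ x ∈ A :=
  ⟨fun h => h.1, fun h => ⟨h, fun g => by
    rw [show g = 1 from Subtype.ext (Subgroup.mem_bot.mp g.2), one_smul]⟩⟩

/-- The element `q`. -/
def qElem (q : ℕ) : intFixed A H := ⟨q, natCast_mem _ q⟩

/-- The ideal generated by `q ^ M`. -/
def qIdeal (q M : ℕ) : Ideal (intFixed A H) := Ideal.span {qElem A H q ^ M}

/-- Integers fixed by `H`, modulo `q ^ M`. -/
abbrev TRing (q M : ℕ) := intFixed A H ⧸ qIdeal A H q M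

/-- The map from the fixed integers. -/
def toTRing (q M : ℕ) : intFixed A G →+* TRing A H q M :=
  (Ideal.Quotient.mk _).comp (Subring.inclusion (intFixed_le_sub A H))

variable {A H}

theorem mk_eq_zero_iff {q M : ℕ} {x : intFixed A H} (hq : (q : K) ≠ 0) :
    (Ideal.Quotient.mk (qIdeal A H q M) x) = 0 ↔ ∃ a ∈ A, (x : K) = (q : K) ^ M * a := by
  rw [Ideal.Quotient.eq_zero_iff_mem, qIdeal, Ideal.mem_span_singleton]
  constructor
  · rintro ⟨c, rfl⟩
    exact ⟨c, c.2.1, by simp [qElem]⟩
  · rintro ⟨a, ha, hx⟩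
    refine ⟨⟨a, ha, fun g => ?_⟩, Subtype.ext (by simpa [qElem] using hx)⟩
    have h1 := x.2.2 g
    rw [hx, smul_mul', smul_pow',
      show g • (q : K) = q from map_natCast (MulSemiringAction.toRingHom H K g) q] at h1
    exact mul_left_cancel₀ (pow_ne_zero M hq) h1

theorem isNilpotent_mk {q M : ℕ} (hA : RankOneAt A q) {x : intFixed A H}
    (hx : (x : K) ∈ A.nonunits) : IsNilpotent (Ideal.Quotient.mk (qIdeal A H q M) x) := by
  obtain ⟨N, a, ha, hN⟩ := hA.pow_dvd _ hx M
  refine ⟨N, ?_⟩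
  rw [← map_pow]
  exact (mk_eq_zero_iff hA.ne_zero).mpr ⟨a, ha, by simpa using hN⟩

variable (A) in
/-- Enlarging the ring of coefficients. -/
def restrictT {H H' : Subgroup G} (h : H ≤ H') (q M : ℕ) :
    TRing A H' q M →+* TRing A H q M :=
  Ideal.quotientMap _ (Subring.inclusion (intFixed_le A h)) (by
    rw [qIdeal, Ideal.span_le, Set.singleton_subset_iff]
    exact Ideal.subset_span rfl)

theorem restrictT_comp {H H' : Subgroup G} (h : H ≤ H') (q M : ℕ) :
    (restrictT A h q M).comp (toTRing A H' q M) = toTRing A H q M :=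
  RingHom.ext fun _ => rfl

variable (A H) in
/-- Lowering the exponent. -/
def projT {q M M' : ℕ} (h : M ≤ M') : TRing A H q M' →+* TRing A H q M :=
  Ideal.Quotient.factor (Ideal.span_singleton_le_span_singleton.mpr (pow_dvd_pow _ h))

theorem projT_comp {q M M' : ℕ} (h : M ≤ M') :
    (projT A H h).comp (toTRing A H q M') = toTRing A H q M :=
  RingHom.ext fun _ => rfl

end Ring

variable [IsAlgClosed K] [CharZero K] {A : ValuationSubring K}
  {k : Type*} [Field k] [IsAlgClosed k] {π : A →+* k}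
  {q : ℕ} [NeZero q] [Fact q.Prime] [CharP k q]
  {F : Type*} [Field F] [Algebra K F] {F' : Type*} [Field F'] [Algebra K F']
  {Fk : Type*} [Field Fk] [Algebra k Fk] {g gF : ℕ} {B : BadFibre A π q F F' Fk g gF}
  {S : Finset (Place k Fk)} {m₀ : ℕ} {H : Subgroup G}

/-- The coefficients of `x` are integral and fixed by `H`. -/
def Good (B : BadFibre A π q F F' Fk g gF) (H : Subgroup G) (x : F) : Prop :=
  ∀ i j, (B.e i x).coeff j ∈ intFixed A H

theorem good_bot {x : F} (h : IntPair A (B.pair x)) : Good B (⊥ : Subgroup G) x :=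
  fun i j => (mem_intFixed_bot A).mpr (h i j)

theorem Good.int {x : F} (h : Good B H x) : IntPair A (B.pair x) := fun i j => (h i j).1

/-- The lift of the expansions. -/
def Good.lift {x : F} (h : Good B H x) : LPair (intFixed A H) := fun i =>
  { coeff := fun j => ⟨(B.e i x).coeff j, h i j⟩
    isPWO_support' := (B.e i x).isPWO_support'.mono fun _ hj h0 => hj (Subtype.ext h0) }

theorem Good.mapPair_lift {x : F} (h : Good B H x) :
    mapPair (intFixed A H).subtype h.lift = B.pair x := rfl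

theorem good_of_eq {x : F} (Z : LPair (intFixed A H))
    (e : mapPair (intFixed A H).subtype Z = B.pair x) : Good B H x := fun i j => by
  rw [← B.pair_apply, ← e]
  exact SetLike.coe_mem _

theorem mapPair_subtype_injective :
    Function.Injective (mapPair (intFixed A H).subtype) := fun _ _ h =>
  ext_cf fun γ => Subtype.ext (congrArg (fun z : LPair K => cf z γ) h)

theorem Good.lift_eq {x : F} (h : Good B H x) (Z : LPair (intFixed A H))
    (e : mapPair (intFixed A H).subtype Z = B.pair x) : h.lift = Z :=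
  mapPair_subtype_injective (h.mapPair_lift.trans e.symm)

theorem pair_mul (x y : F) : B.pair (x * y) = B.pair x * B.pair y :=
  funext fun i => map_mul (B.e i) x y

theorem pair_one : B.pair 1 = 1 := funext fun i => map_one (B.e i)

theorem Good.mul {x y : F} (hx : Good B H x) (hy : Good B H y) : Good B H (x * y) :=
  good_of_eq (hx.lift * hy.lift) (by
    rw [map_mul, hx.mapPair_lift, hy.mapPair_lift, pair_mul])

theorem Good.add {x y : F} (hx : Good B H x) (hy : Good B H y) : Good B H (x + y) :=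
  good_of_eq (hx.lift + hy.lift) (by
    rw [map_add, hx.mapPair_lift, hy.mapPair_lift, map_add])

theorem Good.sub {x y : F} (hx : Good B H x) (hy : Good B H y) : Good B H (x - y) :=
  good_of_eq (hx.lift - hy.lift) (by
    rw [map_sub, hx.mapPair_lift, hy.mapPair_lift, map_sub])

theorem good_one : Good B H 1 := good_of_eq 1 (by rw [map_one, pair_one])

theorem good_zero : Good B H (0 : F) := good_of_eq 0 (by rw [map_zero, map_zero])

theorem Good.smul {x : F} (hx : Good B H x) {c : K} (hc : c ∈ intFixed A H) :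
    Good B H (c • x) :=
  good_of_eq ((⟨c, hc⟩ : intFixed A H) • hx.lift) (by
    rw [mapPair_smul, hx.mapPair_lift, map_smul]
    rfl)

open Classical in
/-- The expansions modulo `q ^ M`. -/
def trunc (B : BadFibre A π q F F' Fk g gF) (H : Subgroup G) (M : ℕ) (x : F) :
    LPair (TRing A H q M) :=
  if h : Good B H x then mapPair (Ideal.Quotient.mk _) h.lift else 0

variable {M : ℕ}

theorem trunc_eq {x : F} (h : Good B H x) :
    trunc B H M x = mapPair (Ideal.Quotient.mk _) h.lift := dif_pos h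

theorem trunc_mul {x y : F} (hx : Good B H x) (hy : Good B H y) :
    trunc B H M (x * y) = trunc B H M x * trunc B H M y := by
  rw [trunc_eq (hx.mul hy), trunc_eq hx, trunc_eq hy, ← map_mul]
  exact congrArg _ ((hx.mul hy).lift_eq _ (by
    rw [map_mul, hx.mapPair_lift, hy.mapPair_lift, pair_mul]))

theorem trunc_add {x y : F} (hx : Good B H x) (hy : Good B H y) :
    trunc B H M (x + y) = trunc B H M x + trunc B H M y := by
  rw [trunc_eq (hx.add hy), trunc_eq hx, trunc_eq hy, ← map_add]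
  exact congrArg _ ((hx.add hy).lift_eq _ (by
    rw [map_add, hx.mapPair_lift, hy.mapPair_lift, map_add]))

theorem trunc_sub {x y : F} (hx : Good B H x) (hy : Good B H y) :
    trunc B H M (x - y) = trunc B H M x - trunc B H M y := by
  rw [eq_sub_iff_add_eq, ← trunc_add (hx.sub hy) hy, sub_add_cancel]

theorem trunc_one : trunc B H M (1 : F) = 1 := by
  rw [trunc_eq good_one, (good_one (B := B) (H := H)).lift_eq 1 (by rw [map_one, pair_one]),
    map_one]

theorem trunc_zero : trunc B H M (0 : F) = 0 := by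
  rw [trunc_eq good_zero, (good_zero (B := B) (H := H)).lift_eq 0 (by rw [map_zero, map_zero]),
    map_zero]

theorem trunc_smul {x : F} (hx : Good B H x) {c : K} (hc : c ∈ intFixed A H) :
    trunc B H M (c • x) = Ideal.Quotient.mk (qIdeal A H q M) ⟨c, hc⟩ • trunc B H M x := by
  rw [trunc_eq (hx.smul hc), trunc_eq hx, ← mapPair_smul]
  exact congrArg _ ((hx.smul hc).lift_eq _ (by
    rw [mapPair_smul, hx.mapPair_lift, map_smul]
    rfl))

theorem cf_trunc {x : F} (h : Good B H x) (γ : Fin 2 × ℤ) :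
    cf (trunc B H M x) γ =
      Ideal.Quotient.mk (qIdeal A H q M) ⟨(B.e γ.1 x).coeff γ.2, h γ.1 γ.2⟩ := by
  rw [trunc_eq h]
  rfl

theorem Good.mono {H' : Subgroup G} (hle : H ≤ H') {x : F} (h : Good B H' x) : Good B H x :=
  fun i j => intFixed_le A hle (h i j)

theorem mapPair_restrictT {H' : Subgroup G} (hle : H ≤ H') {x : F} (h : Good B H' x) :
    mapPair (restrictT A hle q M) (trunc B H' M x) = trunc B H M x := by
  rw [trunc_eq h, trunc_eq (h.mono hle)]
  rfl

theorem mapPair_projT {M' : ℕ} (hle : M ≤ M') {x : F} (h : Good B H x) :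
    mapPair (projT A H hle) (trunc B H M' x) = trunc B H M x := by
  rw [trunc_eq h, trunc_eq h]
  rfl

/-- Integral functions with zero reduction have nilpotent truncations. -/
theorem exists_coeffIn_of_red_zero (hA : RankOneAt A q) {x : F} (hg : Good B H x)
    (h : B.IsRed x 0) :
    ∃ I : Ideal (TRing A H q M), IsNilpotent I ∧ CoeffIn I (trunc B H M x) := by
  classical
  rcases eq_or_ne x 0 with rfl | hx
  · exact ⟨⊥, IsNilpotent.zero (R := Ideal (TRing A H q M)), by rw [trunc_zero]; exact CoeffIn.zero⟩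
  choose s hs using fun i => B.fgSeries_e i x
  obtain ⟨x₀, ⟨⟨i₁, j₁⟩, hx₀⟩, hx0, hmax⟩ := B.discrete (Finset.univ.biUnion s)
    (Set.range fun γ : Fin 2 × ℤ => (B.e γ.1 x).coeff γ.2)
    (by
      rintro _ ⟨γ, rfl⟩
      exact Subfield.closure_mono
        (Finset.coe_subset.mpr (Finset.subset_biUnion_of_mem s (Finset.mem_univ γ.1))) (hs γ.1 γ.2))
    (by
      refine ⟨_, ⟨(0, (B.e 0 x).order), rfl⟩, ?_⟩
      exact mt HahnSeries.coeff_order_eq_zero.mp (B.e_ne_zero 0 hx))
    ⟨1, one_ne_zero, by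
      rintro _ ⟨γ, rfl⟩
      rw [div_one]
      exact (hg γ.1 γ.2).1⟩
  simp only at hx₀
  subst hx₀
  set x₀ := (B.e i₁ x).coeff j₁
  have hnu : x₀ ∈ A.nonunits := by
    have h0 := congrArg (fun z => HahnSeries.coeff z j₁) (h.2 i₁)
    simp only [Pi.zero_apply, map_zero, HahnSeries.coeff_zero, redSeries_coeff] at h0
    rw [show redCoeff A π x₀ = π ⟨x₀, (hg i₁ j₁).1⟩ from redCoeff_coe A π ⟨x₀, (hg i₁ j₁).1⟩]
      at h0
    by_contra hn
    rw [A.mem_nonunits_iff] at hn
    have hu : IsUnit (⟨x₀, (hg i₁ j₁).1⟩ : A) := (A.valuation_eq_one_iff _).mpr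
      (le_antisymm ((A.valuation_le_one_iff _).mpr (hg i₁ j₁).1) (not_lt.mp hn))
    exact (hu.map π).ne_zero h0.symm
  refine ⟨Ideal.span {Ideal.Quotient.mk _ ⟨x₀, hg i₁ j₁⟩}, ?_, fun γ => ?_⟩
  · rw [← Set.range_unique
      (f := fun _ : Unit => Ideal.Quotient.mk (qIdeal A H q M) ⟨x₀, hg i₁ j₁⟩)]
    exact Frame.isNilpotent_span_range fun _ => isNilpotent_mk hA hnu
  · rw [cf_trunc hg, Ideal.mem_span_singleton]
    have hmem := hmax _ ⟨γ, rfl⟩
    have h0 : x₀ ≠ 0 := hx0
    refine ⟨Ideal.Quotient.mk _ ⟨(B.e γ.1 x).coeff γ.2 / x₀, hmem, fun g => ?_⟩, ?_⟩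
    · rw [div_eq_mul_inv, smul_mul', smul_inv'', (hg γ.1 γ.2).2 g, (hg i₁ j₁).2 g]
    · rw [← map_mul]
      exact congrArg _ (Subtype.ext (mul_div_cancel₀ _ h0).symm)

section Frame

variable (hq2 : 2 ≤ q) (hS : B.IsGluing S m₀) (hne : S.Nonempty) (I : InertiaData B G)
  (D : SecData B m₀)

include hq2 hS hne I

theorem good_sec {γ : Fin 2 × ℤ} (hγ : D.NonGap γ) : Good B H (D.sec γ) :=
  fun i j => ⟨D.int γ i j, fun σ => D.coeff_sec_fixed I hS hne γ hγ i j σ⟩

theorem trunc_sec {γ : Fin 2 × ℤ} (hγ : D.NonGap γ) :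
    trunc B H M (D.sec γ) = (D.frame hq2 I hS hne).sR (toTRing A H q M) γ := by
  rw [trunc_eq (good_sec hq2 hS hne I D hγ)]
  refine ext_cf fun δ => ?_
  show Ideal.Quotient.mk _ _ = toTRing A H q M (cf (D.lift I hS hne γ) δ)
  exact congrArg (Ideal.Quotient.mk (qIdeal A H q M))
    (Subtype.ext (D.cf_lift I hS hne hγ δ).symm)

/-- Sections truncate to sections. -/
theorem trunc_mem_sections {l : ℕ} {x : F} (hx : x ∈ riemannRochSpace (B.cuspDiv l))
    (hg : Good B H x) {J : Ideal (TRing A H q M)} (hJ : CoeffIn J (trunc B H M x)) :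
    trunc B H M x ∈ J • (D.frame hq2 I hS hne).sections (toTRing A H q M) := by
  classical
  have hsec : ∀ γ ∈ poss l \ D.Γ, D.NonGap γ := fun γ hγ =>
    ⟨(mem_poss.mp (Finset.mem_sdiff.mp hγ).1).2, (Finset.mem_sdiff.mp hγ).2⟩
  suffices key : ∀ T : Finset (Fin 2 × ℤ), T ⊆ poss l \ D.Γ →
      Good B H ((B.e 0 x).coeff 0 • (1 : F) + ∑ γ ∈ T, (B.e γ.1 x).coeff γ.2 • D.sec γ) ∧
      trunc B H M ((B.e 0 x).coeff 0 • (1 : F) + ∑ γ ∈ T, (B.e γ.1 x).coeff γ.2 • D.sec γ) ∈
        J • (D.frame hq2 I hS hne).sections (toTRing A H q M) by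
    have := (key _ subset_rfl).2
    rwa [← D.eq_sum hq2 hS hne hx] at this
  intro T hT
  induction T using Finset.induction_on with
  | empty =>
    rw [Finset.sum_empty, add_zero, trunc_smul good_one (hg 0 0), trunc_one]
    refine ⟨good_one.smul (hg 0 0), Submodule.smul_mem_smul ?_ (Frame.one_mem_sections _ _)⟩
    have := hJ (0, 0)
    rwa [cf_trunc hg] at this
  | insert δ T hδ ih =>
    obtain ⟨ih1, ih2⟩ := ih ((Finset.subset_insert _ _).trans hT)
    have hδn := hsec δ (hT (Finset.mem_insert_self _ _))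
    have hgs := good_sec (H := H) hq2 hS hne I D hδn
    rw [Finset.sum_insert hδ, add_left_comm]
    refine ⟨(hgs.smul (hg δ.1 δ.2)).add ih1, ?_⟩
    rw [trunc_add (hgs.smul (hg δ.1 δ.2)) ih1, trunc_smul hgs (hg δ.1 δ.2),
      trunc_sec hq2 hS hne I D hδn]
    refine add_mem (Submodule.smul_mem_smul ?_ (Frame.sR_mem_sections _ _ hδn)) ih2
    have := hJ δ
    rwa [cf_trunc hg] at this

/-- Sections congruent to `1` are trivial. -/
theorem trivN_section (hA : RankOneAt A q) {l : ℕ} {c : F}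
    (hc : c ∈ riemannRochSpace (B.cuspDiv l)) (hg : Good B H c) (hr : B.IsRed c 1) :
    (D.frame hq2 I hS hne).TrivN (toTRing A H q M) (trunc B H M c) := by
  have hone : (1 : F) ∈ riemannRochSpace (B.cuspDiv l) := by
    rw [mem_riemannRochSpace_iff]
    intro v
    right
    rw [Place.ord_one]
    simp only [BadFibre.cuspDiv, Finsupp.add_apply, neg_add_rev]
    classical
    simp only [Finsupp.single_apply]
    split_ifs <;> simp
  have hr0 : B.IsRed (c - 1) 0 := ⟨(hg.sub good_one).int, fun i => by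
    rw [map_sub, map_one, redSeries_sub (y := (1 : LaurentSeries K))
      (show IntSeries A (B.e i c) from hr.1 i) IntSeries.one, redSeries_one,
      show redSeries A π (B.e i c) = B.exk ((1 : Fin 2 → Fk) i) from (hr.2 i).symm]
    simp⟩
  obtain ⟨J, hJ, hcJ⟩ := exists_coeffIn_of_red_zero (M := M) hA (hg.sub good_one) hr0
  refine ⟨J, hJ, ?_⟩
  have h := trunc_mem_sections hq2 hS hne I D (sub_mem hc hone) (hg.sub good_one) hcJ
  rw [show trunc B H M c = 1 + trunc B H M (c - 1) by
    rw [trunc_sub hg good_one, trunc_one, add_sub_cancel]]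
  exact Frame.triv_one_add_sections h

/-- Units congruent to `1` without poles are trivial. -/
theorem trivN_noPole (hA : RankOneAt A q) {u : F} (hg : Good B H u) (hr : B.IsRed u 1)
    (hp : ∀ i, ∀ j : ℤ, j < 0 → (B.e i u).coeff j = 0) :
    (D.frame hq2 I hS hne).TrivN (toTRing A H q M) (trunc B H M u) := by
  have hr0 : B.IsRed (u - 1) 0 := ⟨(hg.sub good_one).int, fun i => by
    rw [map_sub, map_one, redSeries_sub (y := (1 : LaurentSeries K))
      (show IntSeries A (B.e i u) from hr.1 i) IntSeries.one, redSeries_one,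
      show redSeries A π (B.e i u) = B.exk ((1 : Fin 2 → Fk) i) from (hr.2 i).symm]
    simp⟩
  obtain ⟨J, hJ, huJ⟩ := exists_coeffIn_of_red_zero (M := M) hA (hg.sub good_one) hr0
  rw [show trunc B H M u = 1 + trunc B H M (u - 1) by
    rw [trunc_sub hg good_one, trunc_one, add_sub_cancel]]
  refine Frame.trivN_one_add_noPole (fun γ hγ => ?_) hJ huJ
  rw [cf_trunc (hg.sub good_one)]
  refine (congrArg _ (Subtype.ext ?_)).trans (map_zero _)
  show (B.e γ.1 (u - 1)).coeff γ.2 = 0
  simp [map_sub, HahnSeries.coeff_one, hγ.ne, hp γ.1 γ.2 hγ]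

end Frame

end FLTA.BadRed.Ordinary

end
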