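import Fermat.Agent.BadRed.Ordinary.Rep
import Fermat.Agent.BadRed.Ordinary.Truncate

/-!
# The truncated class of a toric point does not depend on the representative
-/

set_option autoImplicit false
set_option linter.unusedSectionVars false

noncomputable section

open AlgebraicCurve FLTA.Curves

namespace FLTA.BadRed.Ordinary

variable {K : Type*} [Field K] [IsAlgClosed K] [CharZero K] {A : ValuationSubring K}
  {k : Type*} [Field k] [IsAlgClosed k] {π : A →+* k}
  {q : ℕ} [NeZero q] [Fact q.Prime] [CharP k q]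
  {F : Type*} [Field F] [Algebra K F] {F' : Type*} [Field F'] [Algebra K F']
  {Fk : Type*} [Field Fk] [Algebra k Fk] {g gF : ℕ} {B : BadFibre A π q F F' Fk g gF}
  {S : Finset (Place k Fk)} {m₀ : ℕ} {G : Type*} [Group G] [MulSemiringAction G K]

namespace RepData

variable {y : Pic0 K F}

theorem good_x (d : RepData B y) : Good B (⊥ : Subgroup G) d.x := good_bot d.x_isRed.1

/-- Change of the divisor and the Kummer function within the class. -/
theorem exists_rebase (d d' : RepData B y) :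
    ∃ e : RepData B y, e.x = d'.x ∧ e.D = d.D ∧ e.f = d.f := by
  have hprin : ((d'.D - d.D : Divisor.degZero (K := K) (F := F)) : Divisor K F) ∈
      Divisor.principal (K := K) (F := F) := by
    have h0 : Pic0.mk (d'.D - d.D) = 0 := by
      rw [show Pic0.mk (d'.D - d.D) = Pic0.mk d'.D - Pic0.mk d.D from rfl, d'.mk_eq, d.mk_eq,
        sub_self]
    exact (QuotientAddGroup.eq_zero_iff (d'.D - d.D)).mp h0
  obtain ⟨w, hw0, hw⟩ := hprin
  have hq := (Fact.out : q.Prime).pos
  have hu : d'.f * (d.f * w ^ q)⁻¹ ≠ 0 :=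
    mul_ne_zero d'.kummer.ne_zero (inv_ne_zero (mul_ne_zero d.kummer.ne_zero (pow_ne_zero _ hw0)))
  obtain ⟨c, hc⟩ := B.exists_eq_algebraMap_of_ord_eq_zero hu fun v => by
    rw [v.ord_mul d'.kummer.ne_zero
        (inv_ne_zero (mul_ne_zero d.kummer.ne_zero (pow_ne_zero _ hw0))),
      v.ord_inv, v.ord_mul d.kummer.ne_zero (pow_ne_zero _ hw0), FLTA.Curves.ord_pow,
      ← d'.kummer.ord_eq, ← d.kummer.ord_eq, ← hw v, AddSubgroupClass.coe_sub, Finsupp.sub_apply]
    ring
  obtain ⟨γ, hγ⟩ := IsAlgClosed.exists_pow_nat_eq c hq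
  set h : F := algebraMap K F γ * w with hh
  have hγ0 : γ ≠ 0 := by
    rintro rfl
    rw [zero_pow hq.ne'] at hγ
    exact hu (by rw [hc, ← hγ, map_zero])
  have hh0 : h ≠ 0 := mul_ne_zero ((map_ne_zero _).mpr hγ0) hw0
  have hf : d'.f = h ^ q * d.f := by
    rw [hh, mul_pow, ← map_pow, hγ]
    rw [mul_inv_eq_iff_eq_mul₀ (mul_ne_zero d.kummer.ne_zero (pow_ne_zero _ hw0))] at hc
    rw [hc]
    ring
  have hord : ∀ v : Place K F, v.ord h = (d'.D : Divisor K F) v - (d.D : Divisor K F) v := fun v => by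
    rw [hh, v.ord_mul ((map_ne_zero _).mpr hγ0) hw0, FLTA.Curves.ord_algebraMap, ← hw v,
      AddSubgroupClass.coe_sub, Finsupp.sub_apply, zero_add]
  have hmem : ∀ {E : Divisor K F} {x : F}, x ∈ riemannRochSpace ((d'.D : Divisor K F) + E) →
      h * x ∈ riemannRochSpace ((d.D : Divisor K F) + E) := fun {E x} hx => by
    rw [mem_riemannRochSpace_iff] at hx ⊢
    intro v
    rcases eq_or_ne x 0 with h0 | h0
    · exact Or.inl (by rw [h0, mul_zero])
    refine Or.inr ?_
    have h1 := (hx v).resolve_left h0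
    rw [v.ord_mul hh0 h0, hord]
    rw [Finsupp.add_apply] at h1 ⊢
    omega
  refine ⟨⟨d.D, d.f, h * d'.G₁, h * d'.G₂, d'.G₃, d'.m, d'.H, d.mk_eq, d.kummer, hmem d'.mem₁,
    hmem d'.mem₂, d'.mem₃, ?_, ?_, d'.red₃, d'.exact⟩, ?_, rfl, rfl⟩
  · rw [show (h * d'.G₁) ^ q * d.f = d'.G₁ ^ q * (h ^ q * d.f) by ring, ← hf]
    exact d'.red₁
  · rw [show (h * d'.G₂) ^ q * d.f = d'.G₂ ^ q * (h ^ q * d.f) by ring, ← hf]
    exact d'.red₂
  · simp only [x]
    have := d'.G₂_ne
    field_simp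

section Frame

variable (hq2 : 2 ≤ q) (hS : B.IsGluing S m₀) (hne : S.Nonempty) (I : InertiaData B G)
  (D : SecData B m₀) (hA : RankOneAt A q) {M : ℕ}

include hq2 hS hne I hA

/-- Two representatives have truncations differing by a trivial pair. -/
theorem exists_trivN (d d' : RepData B y) :
    ∃ t, (D.frame hq2 I hS hne).TrivN (toTRing A (⊥ : Subgroup G) q M) t ∧
      trunc B ⊥ M d'.x = trunc B ⊥ M d.x * t := by
  obtain ⟨e, hex, heD, hef⟩ := d.exists_rebase d'
  rw [← hex]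
  clear hex d'
  have hq := (Fact.out : q.Prime).one_le
  set N := max d.m e.m
  have hm : d.m ≤ N := le_max_left _ _
  have hm' : e.m ≤ N := le_max_right _ _
  have lift : ∀ {l : ℕ} {x : F}, l ≤ N →
      x ∈ riemannRochSpace ((d.D : Divisor K F) + B.cuspDiv l) →
      x ∈ riemannRochSpace ((d.D : Divisor K F) + B.cuspDiv N) := fun hl hx =>
    riemannRochSpace_mono (add_le_add le_rfl (B.cuspDiv_mono hl)) hx
  have hf : BadFibre.KummerFn q (d.D : Divisor K F) d.f := d.kummer
  have h1 := lift hm d.mem₁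
  have h2 := lift hm d.mem₂
  have h1' := lift hm' (heD ▸ e.mem₁)
  have r1' : B.IsRed (e.G₁ ^ q * d.f) fun i => (1 : Fin 2 → Fk) i ^ q := hef ▸ e.red₁'
  have r2' : B.IsRed (e.G₂ ^ q * d.f) fun i => e.H i ^ q := hef ▸ e.red₂
  -- the two sections congruent to one
  set c := e.G₁ * (d.G₁ ^ (q - 1) * d.f) with hc
  set c₀ := d.G₁ ^ q * d.f with hc₀
  have hcr : B.IsRed c 1 := by
    have := isRed_mixed hf h1 h1' d.red₁' r1'
    simpa [← Pi.one_def] using this
  have hc₀m : c₀ ∈ riemannRochSpace (B.cuspDiv (q * N)) := by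
    have := mixed_mem hf h1 h1
    rwa [← mul_assoc, ← pow_succ', Nat.sub_add_cancel hq] at this
  -- the unit
  set z := d.G₂ * (e.G₂ ^ (q - 1) * d.f) with hz
  set u := e.G₃ * z / (d.G₃ * (e.G₂ ^ q * d.f)) with hu
  have hzr := isRed_mixed hf (lift hm' (heD ▸ e.mem₂)) h2 r2' d.red₂
  have hze : ∀ i, ExactRed π (B.e i z) (B.exk (d.H i * e.H i ^ (q - 1))) := fun i => by
    have he₂ := e.exact₂ i
    rw [hef] at he₂
    have hpow : z ^ q = (d.G₂ ^ q * d.f) * (e.G₂ ^ q * d.f) ^ (q - 1) := by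
      rw [hz]
      obtain ⟨j, hj⟩ : ∃ j, q = j + 1 := ⟨q - 1, by omega⟩
      subst hj
      simp only [Nat.add_sub_cancel]
      ring
    refine ExactRed.of_pow (n := q) (by omega) (int_e hzr i) (red_e hzr i) ?_
    have := (d.exact₂ i).mul (he₂.pow (q - 1))
    rw [← map_pow, ← map_pow, ← map_mul, ← map_mul, ← hpow] at this
    rw [← map_pow, ← map_pow]
    convert this using 2
    rw [mul_pow, ← pow_mul, ← pow_mul, mul_comm (q - 1) q]
  have hue : ∀ i, ExactRed π (B.e i u) (B.exk 1) := fun i => by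
    have he₂ := e.exact₂ i
    rw [hef] at he₂
    have := ((e.exact₃ i).mul (hze i)).div B.R.π_surjective ((d.exact₃ i).mul he₂)
    rw [← map_mul, ← map_mul, ← map_mul, ← map_mul, ← map_div₀, ← map_div₀, ← hu] at this
    convert this using 2
    have := (d.exact i).1
    have := (e.exact i).1
    obtain ⟨j, hj⟩ : ∃ j, q = j + 1 := ⟨q - 1, by omega⟩
    subst hj
    simp only [Nat.add_sub_cancel, pow_succ]
    field_simp
  have hur : B.IsRed u 1 := ⟨fun i => (hue i).int, fun i => (hue i).red.symm⟩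
  have hup : ∀ i, ∀ j : ℤ, j < 0 → (B.e i u).coeff j = 0 := fun i j hj =>
    HahnSeries.coeff_eq_zero_of_lt_order (by
      rw [(hue i).order_eq, map_one, HahnSeries.order_one]; exact hj)
  have key : e.x * c₀ = d.x * c * u := by
    simp only [x, hc, hc₀, hu, hz]
    have := d.G₂_ne
    have := e.G₂_ne
    have := d.G₃_ne
    have := d.kummer.ne_zero
    obtain ⟨j, hj⟩ : ∃ j, q = j + 1 := ⟨q - 1, by omega⟩
    subst hj
    simp only [Nat.add_sub_cancel, pow_succ]
    field_simp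
  have ht₀ := trivN_section (H := (⊥ : Subgroup G)) (M := M) hq2 hS hne I D hA hc₀m
    (good_bot d.red₁.1) d.red₁
  have htc := trivN_section (H := (⊥ : Subgroup G)) (M := M) hq2 hS hne I D hA (mixed_mem hf h1 h1')
    (good_bot hcr.1) hcr
  have htu := trivN_noPole (H := (⊥ : Subgroup G)) (M := M) hq2 hS hne I D hA (good_bot hur.1) hur hup
  obtain ⟨t', ht', e₀⟩ := ht₀.exists_inv
  refine ⟨trunc B ⊥ M c * trunc B ⊥ M u * t', (htc.mul htu).mul ht', ?_⟩
  have h' := congrArg (trunc B (⊥ : Subgroup G) M) key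
  rw [trunc_mul e.good_x (good_bot d.red₁.1), trunc_mul (d.good_x.mul (good_bot hcr.1))
    (good_bot hur.1), trunc_mul d.good_x (good_bot hcr.1)] at h'
  calc trunc B ⊥ M e.x = trunc B ⊥ M e.x * (trunc B ⊥ M c₀ * t') := by rw [e₀, mul_one]
    _ = trunc B ⊥ M e.x * trunc B ⊥ M c₀ * t' := (mul_assoc _ _ _).symm
    _ = _ := by rw [h']; ring

/-- Normal forms do not depend on the representative. -/
theorem isNF_of_rep (d d' : RepData B y) {a : (D.frame hq2 I hS hne).Γ → _}
    (h : (D.frame hq2 I hS hne).IsNF (toTRing A (⊥ : Subgroup G) q M) (trunc B ⊥ M d.x) a) :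
    (D.frame hq2 I hS hne).IsNF (toTRing A (⊥ : Subgroup G) q M) (trunc B ⊥ M d'.x) a := by
  obtain ⟨t, ht, e⟩ := exists_trivN hq2 hS hne I D hA (M := M) d d'
  rw [e]
  exact h.mul_trivN ht

end Frame

end RepData

end FLTA.BadRed.Ordinary

end
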