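import Fermat.Agent.BadRed.Ordinary.Fixed

/-!
# Connected coordinates admit no quotient with trivial action

`X` is a finite `G`-group with equivariant separating coordinates `t` in the maximal ideal of `A`
for which addition is polynomial over `W = intFixed A G` modulo a large power of `p ≠ 2`.
Then `X` has no surjection to `ZMod p` invariant under `G`.
-/

set_option autoImplicit false

noncomputable section

namespace FLTA.BadRed.Ordinary

section ValueLemmas

variable {K : Type*} [Field K] {A : ValuationSubring K}

theorem div_mem_of_dvd {a b : K} (ha : ∃ c ∈ A, a = b * c) : a ∈ Submodule.span A ({b} : Set K) := by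
  obtain ⟨c, hc, rfl⟩ := ha
  exact Submodule.mem_span_singleton.mpr ⟨⟨c, hc⟩, mul_comm _ _⟩

theorem eval_mem {σ : Type*} (P : MvPolynomial σ A) {v : σ → K} (hv : ∀ i, v i ∈ A) :
    MvPolynomial.aeval v P ∈ A := by
  have h : MvPolynomial.aeval v P =
      ((MvPolynomial.aeval fun i => (⟨v i, hv i⟩ : A)) P : A) := by
    rw [MvPolynomial.aeval_def, MvPolynomial.aeval_def, ← A.subtype_apply,
      MvPolynomial.eval₂_comp_left]
    rfl
  rw [h]
  exact SetLike.coe_mem _

end ValueLemmas

variable {K : Type*} [Field K] (A : ValuationSubring K) (G : Type*) [Group G]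
  [MulSemiringAction G K] (X : Type*) [AddCommGroup X] [DistribMulAction G X]

/-- Coordinates for which addition is polynomial over `W` modulo `p ^ M`. -/
structure Coords (p : ℕ) (d c : ℕ) where
  /-- the coordinates -/
  t : X → Fin d → K
  nonunit : ∀ x j, t x j ∈ A.nonunits
  t_zero : t 0 = 0
  equivariant : ∀ (g : G) x j, t (g • x) j = g • t x j
  separated : ∀ x y : X, x ≠ y → ∃ j, ∃ a ∈ A, (p : K) ^ c = (t x j - t y j) * a
  add_poly : ∀ j, ∃ P : MvPolynomial (Fin d ⊕ Fin d) (intFixed A G), ∀ x y : X,
    ∃ a ∈ A, t (x + y) j - MvPolynomial.aeval (Sum.elim (t x) (t y)) P =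
      (p : K) ^ (2 * (c * Nat.card X)) * a

namespace Coords

variable {A G X} {p d c : ℕ} (T : Coords A G X p d c)

theorem mem (x : X) (j : Fin d) : T.t x j ∈ A :=
  (A.valuation_le_one_iff _).mp (T.nonunit x j).le

/-- The algebra of functions generated by the coordinates. -/
def alg : Subalgebra (intFixed A G) (X → K) :=
  Algebra.adjoin (intFixed A G) (Set.range fun j x => T.t x j)

theorem aeval_mem_alg (P : MvPolynomial (Fin d) (intFixed A G)) :
    (fun x => MvPolynomial.aeval (T.t x) P) ∈ T.alg := by
  have e : (fun x => MvPolynomial.aeval (T.t x) P) =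
      MvPolynomial.aeval (fun j x => T.t x j) P := by
    funext x
    rw [← Pi.evalAlgHom_apply (intFixed A G) (fun _ : X => K) x
      (MvPolynomial.aeval (fun j x => T.t x j) P), MvPolynomial.aeval_def,
      MvPolynomial.aeval_def]
    show _ = (Pi.evalAlgHom (intFixed A G) (fun _ : X => K) x).toRingHom _
    rw [MvPolynomial.eval₂_comp_left]
    rfl
  rw [e, alg, Algebra.adjoin_range_eq_range_aeval]
  exact ⟨P, rfl⟩

theorem exists_of_mem_alg {f : X → K} (hf : f ∈ T.alg) :
    ∃ P : MvPolynomial (Fin d) (intFixed A G), ∀ x, f x = MvPolynomial.aeval (T.t x) P := by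
  rw [alg, Algebra.adjoin_range_eq_range_aeval] at hf
  obtain ⟨P, rfl⟩ := hf
  refine ⟨P, fun x => ?_⟩
  show (Pi.evalAlgHom (intFixed A G) (fun _ : X => K) x).toRingHom (MvPolynomial.aeval _ P) = _
  rw [MvPolynomial.aeval_def, MvPolynomial.eval₂_comp_left]
  rfl

theorem alg_equivariant {f : X → K} (hf : f ∈ T.alg) (g : G) (x : X) :
    f (g • x) = g • f x := by
  induction hf using Algebra.adjoin_induction with
  | mem y hy => obtain ⟨j, rfl⟩ := hy; exact T.equivariant g x j
  | algebraMap r => exact (r.2.2 g).symm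
  | add a b _ _ ha hb => simp only [Pi.add_apply, smul_add, ha, hb]
  | mul a b _ _ ha hb => simp only [Pi.mul_apply, smul_mul', ha, hb]

theorem alg_mem {f : X → K} (hf : f ∈ T.alg) (x : X) : f x ∈ A := by
  induction hf using Algebra.adjoin_induction with
  | mem y hy => obtain ⟨j, rfl⟩ := hy; exact T.mem x j
  | algebraMap r => exact r.2.1
  | add a b _ _ ha hb => exact add_mem ha hb
  | mul a b _ _ ha hb => exact mul_mem ha hb

theorem alg_sub_zero_nonunit {f : X → K} (hf : f ∈ T.alg) (x : X) :
    f x - f 0 ∈ A.nonunits := by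
  have key : ∀ a b : K, a ∈ A.nonunits → b ∈ A.nonunits → a + b ∈ A.nonunits := fun a b ha hb =>
    lt_of_le_of_lt (A.valuation.map_add a b) (max_lt ha hb)
  have keym : ∀ a b : K, a ∈ A → b ∈ A.nonunits → a * b ∈ A.nonunits := fun a b ha hb => by
    show A.valuation (a * b) < 1
    rw [map_mul]
    exact lt_of_le_of_lt (mul_le_of_le_one_left' ((A.valuation_le_one_iff a).mpr ha)) hb
  induction hf using Algebra.adjoin_induction with
  | mem y hy => obtain ⟨j, rfl⟩ := hy; simpa [T.t_zero] using T.nonunit x j
  | algebraMap r => simp [ValuationSubring.mem_nonunits_iff]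
  | add a b _ _ ha hb =>
    have := key _ _ ha hb
    rwa [show a x - a 0 + (b x - b 0) = (a + b) x - (a + b) 0 by simp; ring] at this
  | mul a b hfa hfb ha hb =>
    have := key _ _ (keym _ _ (T.alg_mem hfa x) hb) (keym _ _ (T.alg_mem hfb 0) ha)
    rwa [show a x * (b x - b 0) + b 0 * (a x - a 0) = (a * b) x - (a * b) 0 by simp; ring] at this

variable [Finite X]

theorem alg_fg (h : Unramified A G p) : T.alg.toSubmodule.FG := by
  classical
  cases nonempty_fintype X
  refine fg_adjoin_of_finite (Set.finite_range _) ?_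
  rintro _ ⟨j, rfl⟩
  let P : Polynomial K := ∏ x : X, (Polynomial.X - Polynomial.C (T.t x j))
  have hcA : ∀ n, P.coeff n ∈ intFixed A G := by
    intro n
    refine ⟨?_, fun g => ?_⟩
    · let PA : Polynomial A := ∏ x : X, (Polynomial.X - Polynomial.C ⟨T.t x j, T.mem x j⟩)
      have e : PA.map A.subtype = P := by simp [PA, P, Polynomial.map_prod]
      rw [← e, Polynomial.coeff_map]
      exact SetLike.coe_mem _
    · have e : P.map (MulSemiringAction.toRingHom G K g) = P := by
        simp only [P, Polynomial.map_prod, Polynomial.map_sub, Polynomial.map_X, Polynomial.map_C,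
          MulSemiringAction.toRingHom_apply, ← T.equivariant]
        exact Fintype.prod_equiv (MulAction.toPerm g) _ _ fun x => rfl
      conv_rhs => rw [← e, Polynomial.coeff_map]
      rfl
  obtain ⟨Q, hQ⟩ : ∃ Q : Polynomial (intFixed A G), Q.map (intFixed A G).subtype = P := by
    refine (Polynomial.mem_lifts P).mp ((Polynomial.lifts_iff_coeff_lifts P).mpr fun n => ?_)
    exact ⟨⟨_, hcA n⟩, rfl⟩
  have hPm : P.Monic := Polynomial.monic_prod_of_monic _ _ fun x _ => Polynomial.monic_X_sub_C _
  refine ⟨Q, Polynomial.monic_of_injective (f := (intFixed A G).subtype) Subtype.val_injective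
    (hQ ▸ hPm), ?_⟩
  funext x
  show (Pi.evalRingHom (fun _ : X => K) x) (Polynomial.eval₂ _ _ Q) = 0
  rw [Polynomial.hom_eval₂]
  show Polynomial.eval₂ (intFixed A G).subtype (T.t x j) Q = 0
  rw [← Polynomial.eval_map, hQ, Polynomial.eval_prod]
  exact Finset.prod_eq_zero (Finset.mem_univ x) (by simp)

open scoped Classical in
/-- `p ^ (c card X)` times an indicator is in the `A`-span of the algebra. -/
theorem delta_mem_span (h : Unramified A G p) (x : X) :
    (fun z => if z = x then (p : K) ^ (c * Nat.card X) else 0) ∈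
      Submodule.span A (T.alg : Set (X → K)) := by
  cases nonempty_fintype X
  choose jf af haf hsep using fun y (hy : x ≠ y) => T.separated x y hy
  let fac : X → X → K := fun y z =>
    if hy : x ≠ y then (T.t z (jf y hy) - T.t y (jf y hy)) * af y hy else (p : K) ^ c
  have hfac : ∀ y, fac y ∈ Submodule.span A (T.alg : Set (X → K)) := fun y => by
    by_cases hy : x ≠ y
    · have e : fac y = (⟨af y hy, haf y hy⟩ : A) • (fun z => T.t z (jf y hy)) +
          (⟨-(T.t y (jf y hy)) * af y hy, mul_mem (neg_mem (T.mem _ _)) (haf y hy)⟩ : A) •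
            (1 : X → K) := by
        funext z
        simp [fac, hy, Subring.smul_def, Algebra.smul_def]
        ring
      rw [e]
      exact add_mem
        (Submodule.smul_mem _ _ (Submodule.subset_span (Algebra.subset_adjoin ⟨_, rfl⟩)))
        (Submodule.smul_mem _ _ (Submodule.subset_span (one_mem T.alg)))
    · have e : fac y = (⟨(p : K) ^ c, pow_mem h.p_mem c⟩ : A) • (1 : X → K) := by
        funext z
        simp [fac, hy, Algebra.smul_def]
      rw [e]
      exact Submodule.smul_mem _ _ (Submodule.subset_span (one_mem T.alg))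
  have hmul : ∀ f g : X → K, f ∈ Submodule.span A (T.alg : Set (X → K)) →
      g ∈ Submodule.span A (T.alg : Set (X → K)) → f * g ∈ Submodule.span A (T.alg : Set (X → K)) := by
    intro f g hf hg
    refine Submodule.span_induction (p := fun u _ => u * g ∈ Submodule.span A (T.alg : Set (X → K)))
      (fun u hu => ?_) (by rw [zero_mul]; exact zero_mem _)
      (fun a b _ _ ha hb => by rw [add_mul]; exact add_mem ha hb)
      (fun a u _ ha => by rw [smul_mul_assoc]; exact Submodule.smul_mem _ a ha) hf
    refine Submodule.span_induction (p := fun v _ => u * v ∈ Submodule.span A (T.alg : Set (X → K)))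
      (fun v hv => Submodule.subset_span (T.alg.mul_mem hu hv)) (by rw [mul_zero]; exact zero_mem _)
      (fun a b _ _ ha hb => by rw [mul_add]; exact add_mem ha hb)
      (fun a v _ ha => by rw [mul_smul_comm]; exact Submodule.smul_mem _ a ha) hg
  have e : (fun z => if z = x then (p : K) ^ (c * Nat.card X) else 0) = ∏ y, fac y := by
    funext z
    rw [Finset.prod_apply]
    rcases eq_or_ne z x with rfl | hz
    · rw [if_pos rfl, Nat.card_eq_fintype_card, pow_mul, ← Finset.card_univ, ← Finset.prod_const]
      refine Finset.prod_congr rfl fun y _ => ?_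
      by_cases hy : z ≠ y
      · simp only [fac, hy, dif_pos, ne_eq, not_false_eq_true]
        exact hsep y hy
      · simp [fac, hy]
    · rw [if_neg hz]
      exact (Finset.prod_eq_zero (Finset.mem_univ z) (by simp [fac, Ne.symm hz])).symm
  rw [e]
  exact Finset.prod_induction fac (· ∈ Submodule.span A (T.alg : Set (X → K))) hmul
    (Submodule.subset_span (one_mem T.alg)) fun y _ => hfac y

/-- Products `f(x) g(y)`. -/
def prodSub : Submodule (intFixed A G) (X × X → K) :=
  Submodule.span (intFixed A G)
    {z | ∃ f ∈ T.alg, ∃ g ∈ T.alg, z = fun q => f q.1 * g q.2}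

theorem prodSub_equivariant {z : X × X → K} (hz : z ∈ T.prodSub) (g : G) (q : X × X) :
    z (g • q) = g • z q := by
  induction hz using Submodule.span_induction with
  | mem y hy =>
    obtain ⟨f, hf, f', hf', rfl⟩ := hy
    show f (g • q.1) * f' (g • q.2) = _
    rw [T.alg_equivariant hf, T.alg_equivariant hf', smul_mul']
  | zero => simp
  | add a b _ _ ha hb => simp only [Pi.add_apply, smul_add, ha, hb]
  | smul a b _ hb => simp only [Pi.smul_apply, Subring.smul_def, smul_eq_mul, smul_mul', hb, a.2.2]

theorem prodSub_mul {z w : X × X → K} (hz : z ∈ T.prodSub) (hw : w ∈ T.prodSub) :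
    z * w ∈ T.prodSub := by
  induction hz using Submodule.span_induction with
  | mem y hy =>
    induction hw using Submodule.span_induction with
    | mem v hv =>
      obtain ⟨f, hf, g, hg, rfl⟩ := hy
      obtain ⟨f', hf', g', hg', rfl⟩ := hv
      exact Submodule.subset_span ⟨_, T.alg.mul_mem hf hf', _, T.alg.mul_mem hg hg', by
        funext q; simp only [Pi.mul_apply]; ring⟩
    | zero => rw [mul_zero]; exact zero_mem _
    | add a b _ _ ha hb => rw [mul_add]; exact add_mem ha hb
    | smul a b _ hb => rw [mul_smul_comm]; exact Submodule.smul_mem _ a hb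
  | zero => rw [zero_mul]; exact zero_mem _
  | add a b _ _ ha hb => rw [add_mul]; exact add_mem ha hb
  | smul a b _ hb => rw [smul_mul_assoc]; exact Submodule.smul_mem _ a hb

theorem prodSub_fg (h : Unramified A G p) : T.prodSub.FG := by
  obtain ⟨s, hs⟩ := T.alg_fg h
  classical
  refine ⟨(s ×ˢ s).image fun fg q => fg.1 q.1 * fg.2 q.2, le_antisymm ?_ ?_⟩
  · rw [Submodule.span_le]
    intro z hz
    simp only [Finset.coe_image, Set.mem_image, Finset.mem_coe, Finset.mem_product] at hz
    obtain ⟨⟨f, g⟩, ⟨hf, hg⟩, rfl⟩ := hz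
    have hin : ∀ u ∈ s, u ∈ T.alg := fun u hu => by
      show u ∈ T.alg.toSubmodule
      rw [← hs]
      exact Submodule.subset_span hu
    exact Submodule.subset_span ⟨f, hin f hf, g, hin g hg, rfl⟩
  · refine Submodule.span_le.mpr ?_
    rintro z ⟨f, hf, g, hg, rfl⟩
    let μ : (X → K) →ₗ[intFixed A G] (X → K) →ₗ[intFixed A G] (X × X → K) :=
      LinearMap.mk₂ _ (fun f g q => f q.1 * g q.2) (fun a b c => by funext q; simp [add_mul])
        (fun a b c => by funext q; simp [Subring.smul_def]; ring)
        (fun a b c => by funext q; simp [mul_add])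
        (fun a b c => by funext q; simp [Subring.smul_def]; ring)
    have hf' : f ∈ Submodule.span (intFixed A G) (s : Set (X → K)) := hs.symm ▸ hf
    have hg' : g ∈ Submodule.span (intFixed A G) (s : Set (X → K)) := hs.symm ▸ hg
    have h2 : μ f g ∈ Submodule.map₂ μ (Submodule.span (intFixed A G) (s : Set (X → K)))
        (Submodule.span (intFixed A G) (s : Set (X → K))) :=
      Submodule.apply_mem_map₂ μ hf' hg'
    rw [Submodule.map₂_span_span] at h2
    refine Submodule.span_mono ?_ h2
    rintro _ ⟨a, ha, b, hb, rfl⟩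
    exact Finset.mem_image.mpr ⟨(a, b), Finset.mem_product.mpr ⟨ha, hb⟩, rfl⟩

/-- An equivariant integral function times `p ^ (2 c card X)` is a combination of products. -/
theorem pow_smul_mem_prodSub (h : Unramified A G p) {ε : X × X → K} (hε : ∀ q, ε q ∈ A)
    (hεe : ∀ (g : G) q, ε (g • q) = g • ε q) :
    (fun q => (p : K) ^ (2 * (c * Nat.card X)) * ε q) ∈ T.prodSub := by
  classical
  cases nonempty_fintype X
  refine h.mem_of_mem_span (T.prodSub_fg h) (fun f hf => T.prodSub_equivariant hf)
    (fun g q => by rw [hεe, smul_mul', h.pow_smul]) ?_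
  let μ : (X → K) →ₗ[A] (X → K) →ₗ[A] (X × X → K) :=
    LinearMap.mk₂ _ (fun f g q => f q.1 * g q.2) (fun a b c => by funext q; simp [add_mul])
      (fun a b c => by funext q; simp [Algebra.smul_def]; ring)
      (fun a b c => by funext q; simp [mul_add])
      (fun a b c => by funext q; simp [Algebra.smul_def]; ring)
  let δ : X → X → K := fun x z => if z = x then (p : K) ^ (c * Nat.card X) else 0
  have e : (fun q => (p : K) ^ (2 * (c * Nat.card X)) * ε q) =
      ∑ q₀ : X × X, (⟨ε q₀, hε q₀⟩ : A) • μ (δ q₀.1) (δ q₀.2) := by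
    funext q
    simp only [Finset.sum_apply, Pi.smul_apply, μ, LinearMap.mk₂_apply, δ, Algebra.smul_def,
      A.algebraMap_apply]
    rw [Finset.sum_eq_single q]
    · simp [two_mul, pow_add]; ring
    · intro b _ hb
      rcases not_and_or.mp (fun hh : q.1 = b.1 ∧ q.2 = b.2 => hb (Prod.ext hh.1 hh.2).symm) with
        h1 | h1 <;> simp [h1]
    · simp
  rw [e]
  refine sum_mem fun q₀ _ => Submodule.smul_mem _ _ ?_
  have h2 : μ (δ q₀.1) (δ q₀.2) ∈ Submodule.map₂ μ (Submodule.span A (T.alg : Set (X → K)))
      (Submodule.span A (T.alg : Set (X → K))) :=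
    Submodule.apply_mem_map₂ μ (T.delta_mem_span h _) (T.delta_mem_span h _)
  rw [Submodule.map₂_span_span] at h2
  refine Submodule.span_mono ?_ h2
  rintro _ ⟨a, ha, b, hb, rfl⟩
  exact Submodule.subset_span ⟨a, ha, b, hb, rfl⟩

/-- Addition is given by products of elements of the algebra. -/
theorem comp_add_mem (h : Unramified A G p) {f : X → K} (hf : f ∈ T.alg) :
    (fun q : X × X => f (q.1 + q.2)) ∈ T.prodSub := by
  induction hf using Algebra.adjoin_induction with
  | algebraMap r =>
    exact Submodule.subset_span ⟨algebraMap _ _ r, T.alg.algebraMap_mem r, 1, one_mem _, by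
      funext q; simp⟩
  | add a b _ _ ha hb => exact add_mem ha hb
  | mul a b _ _ ha hb => exact T.prodSub_mul ha hb
  | mem y hy =>
    obtain ⟨j, rfl⟩ := hy
    obtain ⟨P, hP⟩ := T.add_poly j
    choose a ha he using hP
    have hQ : (fun q : X × X => MvPolynomial.aeval (Sum.elim (T.t q.1) (T.t q.2)) P) ∈
        T.prodSub := by
      clear he
      induction P using MvPolynomial.induction_on with
      | C r =>
        exact Submodule.subset_span ⟨algebraMap _ _ r, T.alg.algebraMap_mem r, 1, one_mem _, by
          funext q; simp⟩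
      | add u v hu hv => simp only [map_add]; exact add_mem hu hv
      | mul_X u i hu =>
        simp only [map_mul, MvPolynomial.aeval_X]
        refine T.prodSub_mul hu ?_
        rcases i with i | i
        · exact Submodule.subset_span ⟨_, Algebra.subset_adjoin ⟨i, rfl⟩, 1, one_mem _, by
            funext q; simp⟩
        · exact Submodule.subset_span ⟨1, one_mem _, _, Algebra.subset_adjoin ⟨i, rfl⟩, by
            funext q; simp⟩
    have hp0 := pow_ne_zero (2 * (c * Nat.card X)) h.p_ne_zero
    have hεe : ∀ (g : G) (q : X × X), a (g • q).1 (g • q).2 = g • a q.1 q.2 := by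
      intro g q
      apply mul_left_cancel₀ hp0
      rw [← h.pow_smul g (2 * (c * Nat.card X)), ← smul_mul', ← he, h.pow_smul, ← he, smul_sub,
        ← T.prodSub_equivariant hQ, ← T.equivariant, smul_add]
      rfl
    have hR := T.pow_smul_mem_prodSub h (ε := fun q => a q.1 q.2) (fun q => ha q.1 q.2) hεe
    have e : (fun q : X × X => T.t (q.1 + q.2) j) =
        (fun q : X × X => MvPolynomial.aeval (Sum.elim (T.t q.1) (T.t q.2)) P) +
          fun q => (p : K) ^ (2 * (c * Nat.card X)) * a q.1 q.2 := by
      funext q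
      rw [Pi.add_apply, ← he]
      ring
    rw [e]
    exact add_mem hQ hR

/-- Functions of the algebra factoring through `φ`. -/
def pull {Q : Type*} (φ : X → Q) : Submodule (intFixed A G) T.alg where
  carrier := {f | ∀ x y, φ x = φ y → (f : X → K) x = (f : X → K) y}
  zero_mem' := fun _ _ _ => rfl
  add_mem' := fun {f g} hf hg x y e => by
    show (f : X → K) x + (g : X → K) x = (f : X → K) y + (g : X → K) y
    rw [hf x y e, hg x y e]
  smul_mem' := fun r {f} hf x y e => by
    show (r : K) * (f : X → K) x = (r : K) * (f : X → K) y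
    rw [hf x y e]

open scoped Classical in
/-- The scaled indicator of a fibre of `φ` is in `pull`. -/
theorem exists_pull_indicator (h : Unramified A G p) {Q : Type*} (φ : X → Q)
    (hφ : ∀ (g : G) x, φ (g • x) = φ x) (a : Q) :
    ∃ f ∈ T.pull φ,
      (f : X → K) = fun z => if φ z = a then (p : K) ^ (c * Nat.card X) else 0 := by
  cases nonempty_fintype X
  set u : X → K := fun z => if φ z = a then (p : K) ^ (c * Nat.card X) else 0 with hu
  have hspan : u ∈ Submodule.span A (T.alg : Set (X → K)) := by
    have e : u = ∑ x ∈ Finset.univ.filter (fun x => φ x = a),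
        (fun z => if z = x then (p : K) ^ (c * Nat.card X) else 0) := by
      funext z
      rw [Finset.sum_apply, Finset.sum_ite_eq]
      simp [u]
    rw [e]
    exact sum_mem fun x _ => T.delta_mem_span h x
  have hmem : u ∈ T.alg.toSubmodule :=
    h.mem_of_mem_span (T.alg_fg h) (fun f hf => T.alg_equivariant hf)
      (fun g z => by simp only [u, hφ, apply_ite (g • · : K → K), smul_zero, h.pow_smul]) hspan
  exact ⟨⟨u, hmem⟩, fun x y e => by simp [u, e], rfl⟩

/-- **Addition preserves the functions factoring through `φ`.** -/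
theorem comp_add_mem_span_pull (h : Unramified A G p) {Q : Type*} [AddCommGroup Q] [Finite Q]
    (φ : X →+ Q) (hφ : ∀ (g : G) x, φ (g • x) = φ x) {f : T.alg} (hf : f ∈ T.pull φ) :
    (fun q : X × X => (f : X → K) (q.1 + q.2)) ∈ Submodule.span (intFixed A G)
      {z | ∃ a ∈ T.pull φ, ∃ b ∈ T.pull φ,
        z = fun q : X × X => (a : X → K) q.1 * (b : X → K) q.2} := by
  classical
  cases nonempty_fintype X
  cases nonempty_fintype Q
  haveI := h.isPrincipalIdealRing
  haveI : Module.Finite (intFixed A G) T.alg := Module.Finite.iff_fg.mpr (T.alg_fg h)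
  haveI : Module.IsTorsionFree (intFixed A G) T.alg :=
    Module.IsTorsionFree.of_smul_eq_zero fun r u hru => by
      refine or_iff_not_imp_left.mpr fun hr => Subtype.ext (funext fun y => ?_)
      exact (mul_eq_zero.mp (congrFun (congrArg Subtype.val hru) y)).resolve_left
        fun e => hr (Subtype.ext e)
  haveI : Module.IsTorsionFree (intFixed A G) (T.alg ⧸ T.pull φ) :=
    Module.IsTorsionFree.of_smul_eq_zero fun r u hru => by
      refine or_iff_not_imp_left.mpr fun hr => ?_
      obtain ⟨u, rfl⟩ := Submodule.Quotient.mk_surjective _ u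
      rw [← Submodule.Quotient.mk_smul, Submodule.Quotient.mk_eq_zero] at hru
      rw [Submodule.Quotient.mk_eq_zero]
      intro x y e
      exact mul_left_cancel₀ (fun e0 => hr (Subtype.ext e0)) (hru x y e)
  haveI : Module.Free (intFixed A G) (T.alg ⧸ T.pull φ) :=
    Module.free_of_finite_type_torsion_free'
  obtain ⟨sec, hsec⟩ := Module.projective_lifting_property (T.pull φ).mkQ LinearMap.id
    (Submodule.mkQ_surjective _)
  let Pr : T.alg →ₗ[intFixed A G] T.alg := LinearMap.id - sec ∘ₗ (T.pull φ).mkQ
  have hPr : ∀ u, Pr u ∈ T.pull φ := fun u => by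
    have e := LinearMap.congr_fun hsec ((T.pull φ).mkQ u)
    simp only [LinearMap.comp_apply, LinearMap.id_apply] at e
    rw [← Submodule.Quotient.mk_eq_zero (T.pull φ)]
    show (T.pull φ).mkQ (Pr u) = 0
    simp only [Pr, LinearMap.sub_apply, LinearMap.id_apply, LinearMap.comp_apply, map_sub, e,
      sub_self]
  have hPrfix : ∀ u ∈ T.pull φ, Pr u = u := fun u hu => by
    have e : (T.pull φ).mkQ u = 0 := (Submodule.Quotient.mk_eq_zero _).mpr hu
    show u - sec ((T.pull φ).mkQ u) = u
    rw [e]
    simp
  -- a `W`-basis of the algebra is a `K`-basis of all functions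
  haveI : Module.Free (intFixed A G) T.alg := Module.free_of_finite_type_torsion_free'
  let B := Module.finBasis (intFixed A G) T.alg
  let b : Fin (Module.finrank (intFixed A G) T.alg) → X → K := fun i => (B i : X → K)
  have hliK : LinearIndependent K b :=
    h.linearIndependent_of_equivariant b (fun i => T.alg_equivariant (B i).2)
      (B.linearIndependent.map' T.alg.toSubmodule.subtype (Submodule.ker_subtype _))
  have halg : ∀ u ∈ T.alg, u ∈ Submodule.span K (Set.range b) := by
    intro u hu
    have he : ((∑ i, B.repr ⟨u, hu⟩ i • B i : T.alg) : X → K) = u :=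
      congrArg Subtype.val (B.sum_repr ⟨u, hu⟩)
    rw [← he, AddSubmonoidClass.coe_finset_sum]
    exact sum_mem fun i _ => by
      rw [show ((B.repr ⟨u, hu⟩ i • B i : T.alg) : X → K) = (B.repr ⟨u, hu⟩ i : K) • b i from rfl]
      exact Submodule.smul_mem _ _ (Submodule.subset_span ⟨i, rfl⟩)
  have hp0 : (p : K) ^ (c * Nat.card X) ≠ 0 := pow_ne_zero _ h.p_ne_zero
  have hp0' : (p : K) ^ (c * Fintype.card X) ≠ 0 := pow_ne_zero _ h.p_ne_zero
  have htop : ⊤ ≤ Submodule.span K (Set.range b) := by
    intro u _
    have hd : ∀ x : X, (fun z => if z = x then (p : K) ^ (c * Nat.card X) else 0) ∈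
        Submodule.span K (Set.range b) := by
      intro x
      have h1 := T.delta_mem_span h x
      have h2 : Submodule.span A (T.alg : Set (X → K)) ≤
          (Submodule.span K (Set.range b)).restrictScalars A :=
        Submodule.span_le.mpr halg
      exact h2 h1
    have e : u = ∑ x, (u x * ((p : K) ^ (c * Nat.card X))⁻¹) •
        (fun z => if z = x then (p : K) ^ (c * Nat.card X) else 0) := by
      funext z
      simp [Finset.sum_apply, hp0', mul_assoc]
    rw [e]
    exact sum_mem fun x _ => Submodule.smul_mem _ _ (hd x)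
  let BK : Module.Basis _ K (X → K) := Module.Basis.mk hliK htop
  let PrK : (X → K) →ₗ[K] (X → K) := BK.constr K fun i => (Pr (B i) : X → K)
  have hPrK : ∀ u : T.alg, PrK (u : X → K) = (Pr u : X → K) := by
    have hext : PrK.restrictScalars (intFixed A G) ∘ₗ T.alg.val.toLinearMap =
        T.alg.val.toLinearMap ∘ₗ Pr := by
      refine B.ext fun i => ?_
      have : PrK (BK i) = (Pr (B i) : X → K) := BK.constr_basis K _ i
      rw [Module.Basis.mk_apply] at this
      exact this
    exact fun u => LinearMap.congr_fun hext u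
  have hfix : ∀ u : X → K, (∀ x y, φ x = φ y → u x = u y) → PrK u = u := by
    intro u hu
    choose ind hind hindv using fun a : Q => T.exists_pull_indicator h φ hφ a
    let v : Q → K := fun a => if ha : ∃ x, φ x = a then u ha.choose else 0
    have e : u = ∑ a, (v a * ((p : K) ^ (c * Nat.card X))⁻¹) • (ind a : X → K) := by
      funext z
      rw [Finset.sum_apply, Finset.sum_eq_single (φ z)]
      · have hz : ∃ x, φ x = φ z := ⟨z, rfl⟩
        simp [hindv, v, hp0', mul_assoc, hu _ _ hz.choose_spec]
      · intro a _ ha; simp [hindv, Ne.symm ha]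
      · simp
    rw [e, map_sum]
    simp only [map_smul, hPrK, hPrfix _ (hind _)]
  let P₁ : (X × X → K) →ₗ[K] (X × X → K) :=
    { toFun := fun z q => PrK (fun u => z (u, q.2)) q.1
      map_add' := fun z w => funext fun q => congrFun (map_add PrK _ _) q.1
      map_smul' := fun r z => funext fun q => congrFun (map_smul PrK r _) q.1 }
  let P₂ : (X × X → K) →ₗ[K] (X × X → K) :=
    { toFun := fun z q => PrK (fun u => z (q.1, u)) q.2
      map_add' := fun z w => funext fun q => congrFun (map_add PrK _ _) q.2
      map_smul' := fun r z => funext fun q => congrFun (map_smul PrK r _) q.2 }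
  set D := Submodule.span (intFixed A G)
    {z | ∃ a ∈ T.pull φ, ∃ b ∈ T.pull φ, z = fun q : X × X => (a : X → K) q.1 * (b : X → K) q.2}
  have hmap : T.prodSub ≤ D.comap ((P₂ ∘ₗ P₁).restrictScalars (intFixed A G)) := by
    refine Submodule.span_le.mpr ?_
    rintro z ⟨u, hu, v, hv, rfl⟩
    refine Submodule.subset_span ⟨_, hPr ⟨u, hu⟩, _, hPr ⟨v, hv⟩, funext fun q => ?_⟩
    show PrK (fun y => PrK (fun x => u x * v y) q.1) q.2 = _
    have e1 : ∀ y, PrK (fun x => u x * v y) q.1 = v y * (Pr ⟨u, hu⟩ : X → K) q.1 := fun y => by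
      rw [show (fun x => u x * v y) = v y • u by funext x; simp [mul_comm], map_smul,
        show PrK u = _ from hPrK ⟨u, hu⟩]
      rfl
    simp only [e1]
    rw [show (fun y => v y * (Pr ⟨u, hu⟩ : X → K) q.1) = (Pr ⟨u, hu⟩ : X → K) q.1 • v by
        funext y; simp [mul_comm], map_smul, show PrK v = _ from hPrK ⟨v, hv⟩]
    rfl
  have h1 := hmap (T.comp_add_mem h f.2)
  rw [Submodule.mem_comap] at h1
  convert h1 using 1
  funext q
  show _ = PrK (fun y => PrK (fun x => (f : X → K) (x + y)) q.1) q.2
  have e : ∀ y, PrK (fun x => (f : X → K) (x + y)) = fun x => (f : X → K) (x + y) := fun y =>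
    hfix _ fun x x' hx => hf _ _ (by rw [map_add, map_add, hx])
  simp only [e]
  rw [hfix (fun y => (f : X → K) (q.1 + y)) fun x x' hx => hf _ _ (by rw [map_add, map_add, hx])]

include T in
/-- **No invariant quotient.** -/
theorem false_of_invariant_quotient [Fact p.Prime] (hp2 : p ≠ 2) (h : Unramified A G p)
    (φ : X →+ ZMod p) (hφs : Function.Surjective φ) (hφ : ∀ (g : G) x, φ (g • x) = φ x) :
    False := by
  classical
  have hprime : p.Prime := Fact.out
  haveI : NeZero p := ⟨hprime.ne_zero⟩
  let J : ℕ → Submodule A K := fun a => Submodule.span A {(p : K) ^ a}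
  have hJ : ∀ a v, v ∈ J a ↔ ∃ w ∈ A, v = (p : K) ^ a * w := fun a v => by
    simp only [J, Submodule.mem_span_singleton]
    exact ⟨fun ⟨w, hw⟩ => ⟨w, w.2, by rw [← hw, Algebra.smul_def, mul_comm]; rfl⟩,
      fun ⟨w, hw, e⟩ => ⟨⟨w, hw⟩, by rw [e, Algebra.smul_def, mul_comm]; rfl⟩⟩
  have hJmul : ∀ a b u v, u ∈ J a → v ∈ J b → u * v ∈ J (a + b) := fun a b u v hu hv => by
    obtain ⟨w, hw, rfl⟩ := (hJ a u).mp hu
    obtain ⟨w', hw', rfl⟩ := (hJ b v).mp hv
    exact (hJ _ _).mpr ⟨w * w', mul_mem hw hw', by ring⟩
  have hJle : ∀ a b, a ≤ b → J b ≤ J a := fun a b hab v hv => by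
    obtain ⟨w, hw, rfl⟩ := (hJ b v).mp hv
    obtain ⟨e, rfl⟩ := Nat.exists_eq_add_of_le hab
    exact (hJ _ _).mpr ⟨(p : K) ^ e * w, mul_mem (pow_mem h.p_mem e) hw, by ring⟩
  have hJnat : ∀ a (n : ℕ) v, v ∈ J a → (n : K) * v ∈ J a := fun a n v hv => by
    rw [← nsmul_eq_mul]
    exact (J a).smul_of_tower_mem n hv
  -- every function factoring through `φ` is constant modulo every power of `p`
  have hmain : ∀ a, 1 ≤ a → ∀ f ∈ T.pull φ, ∀ x, (f : X → K) x - (f : X → K) 0 ∈ J a := by
    intro a
    induction a with
    | zero => intro ha; omega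
    | succ a IH =>
      intro _ f hf x
      rcases Nat.eq_zero_or_pos a with rfl | ha
      · have hfixv : ∀ y (g : G), g • (f : X → K) y = (f : X → K) y := fun y g => by
          rw [← T.alg_equivariant f.2, hf (g • y) y (hφ g y)]
        obtain ⟨w, hw, e⟩ := h.dvd_of_nonunit _
          (fun g => by rw [smul_sub, hfixv, hfixv]) (T.alg_sub_zero_nonunit f.2 x)
        exact (hJ 1 _).mpr ⟨w, hw, by rw [e, pow_one]⟩
      specialize IH ha
      let Z : (X × X → K) →ₗ[intFixed A G] (X × X → K) :=
        { toFun := fun z q => z q - z (q.1, 0) - z (0, q.2) + z (0, 0)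
          map_add' := fun z w => funext fun q => by simp only [Pi.add_apply]; ring
          map_smul' := fun r z => funext fun q => by
            simp only [Pi.smul_apply, Subring.smul_def, smul_eq_mul, RingHom.id_apply]
            ring }
      set D := Submodule.span (intFixed A G)
        {z | ∃ u ∈ T.pull φ, ∃ v ∈ T.pull φ,
          z = fun q : X × X => (u : X → K) q.1 * (v : X → K) q.2}
      have hZ : ∀ z ∈ D, ∀ q, Z z q ∈ J (a + a) := by
        intro z hz
        induction hz using Submodule.span_induction with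
        | mem y hy =>
          obtain ⟨u, hu, v, hv, rfl⟩ := hy
          intro q
          simp only [Z, LinearMap.coe_mk, AddHom.coe_mk]
          convert hJmul a a _ _ (IH u hu q.1) (IH v hv q.2) using 1
          ring
        | zero => intro q; simp
        | add y w _ _ hy hw => intro q; rw [map_add]; exact add_mem (hy q) (hw q)
        | smul r y _ hy =>
          intro q
          rw [map_smul]
          exact (J _).smul_mem (⟨r, r.2.1⟩ : A) (hy q)
      have hZf : ∀ u ∈ T.pull φ, ∀ y y' : X, Z (fun q => (u : X → K) (q.1 + q.2)) (y, y') =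
          (u : X → K) (y + y') - (u : X → K) y - (u : X → K) y' + (u : X → K) 0 :=
        fun u hu y y' => by simp [Z]
      have hlin : ∀ u ∈ T.pull φ, ∀ k : ℕ, ∀ y,
          (u : X → K) (k • y) - (u : X → K) 0 - k * ((u : X → K) y - (u : X → K) 0) ∈
            J (a + a) := by
        intro u hu k y
        induction k with
        | zero => simp
        | succ k IHk =>
          have h1 := hZ _ (T.comp_add_mem_span_pull h φ hφ hu) (k • y, y)
          rw [hZf u hu] at h1
          convert add_mem IHk h1 using 1
          rw [succ_nsmul]; push_cast; ring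
      have hcub : ∀ z ∈ D, ∀ k : ℕ, ∀ y, Z z (k • y, y) - k * Z z (y, y) ∈ J (a + a + a) := by
        intro z hz k y
        induction hz using Submodule.span_induction with
        | mem w hw =>
          obtain ⟨u, hu, v, hv, rfl⟩ := hw
          convert hJmul _ _ _ _ (hlin u hu k y) (IH v hv y) using 1
          simp only [Z, LinearMap.coe_mk, AddHom.coe_mk]
          ring
        | zero => simp
        | add u v _ _ hu hv =>
          convert add_mem hu hv using 1
          simp only [map_add, Pi.add_apply]; ring
        | smul r u _ hu =>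
          convert (J _).smul_mem (⟨r, r.2.1⟩ : A) hu using 1
          rw [map_smul]
          simp only [Pi.smul_apply, Subring.smul_def, smul_eq_mul]
          show _ = (r : K) * _
          ring
      set z : X × X → K := fun q => (f : X → K) (q.1 + q.2) with hz
      have hzD : z ∈ D := T.comp_add_mem_span_pull h φ hφ hf
      have hquad : ∀ k : ℕ, (f : X → K) (k • x) - (f : X → K) 0 -
          k * ((f : X → K) x - (f : X → K) 0) - (k.choose 2 : ℕ) * Z z (x, x) ∈ J (a + a + a) := by
        intro k
        induction k with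
        | zero => simp
        | succ k IHk =>
          convert add_mem IHk (hcub z hzD k x) using 1
          rw [hz, hZf f hf, hZf f hf, succ_nsmul, Nat.choose_succ_succ', Nat.choose_one_right]
          push_cast; ring
      have hp := hquad p
      rw [hf (p • x) 0 (by rw [map_nsmul, nsmul_eq_mul, ZMod.natCast_self, zero_mul, map_zero]),
        sub_self, zero_sub] at hp
      have h1 : (p.choose 2 : K) * Z z (x, x) ∈ J (a + 2) := by
        obtain ⟨m, hm⟩ : p ∣ p.choose 2 :=
          hprime.dvd_choose_self two_ne_zero (lt_of_le_of_ne hprime.two_le (Ne.symm hp2))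
        rw [hm]; push_cast
        rw [mul_assoc]
        have := hJmul 1 (a + a) (p : K) ((m : K) * Z z (x, x))
          ((hJ 1 _).mpr ⟨1, one_mem A, by simp⟩) (hJnat _ m _ (hZ z hzD (x, x)))
        exact hJle _ _ (by omega) this
      have h2 : (p : K) * ((f : X → K) x - (f : X → K) 0) ∈ J (a + 2) := by
        convert neg_mem (add_mem (hJle _ _ (show a + 2 ≤ a + a + a by omega) hp) h1) using 1
        ring
      obtain ⟨w, hw, e⟩ := (hJ _ _).mp h2
      refine (hJ _ _).mpr ⟨w, hw, mul_left_cancel₀ h.p_ne_zero ?_⟩
      rw [e]; ring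
  obtain ⟨x, hx⟩ := hφs 1
  obtain ⟨f, hf, hfv⟩ := T.exists_pull_indicator h φ hφ (1 : ZMod p)
  obtain ⟨w, hw, e⟩ := (hJ _ _).mp (hmain (c * Nat.card X + 1) (by omega) f hf x)
  rw [hfv] at e
  simp only [hx, map_zero, zero_ne_one, if_true, if_false, sub_zero] at e
  have h1 : (p : K) * w = 1 := by
    apply mul_left_cancel₀ (pow_ne_zero (c * Nat.card X) h.p_ne_zero)
    rw [mul_one]; conv_rhs => rw [e]
    ring
  have h3 := congrArg A.valuation h1
  rw [map_mul, map_one] at h3
  exact absurd h3 (ne_of_lt (mul_lt_one_of_lt_of_le h.p_nonunit ((A.valuation_le_one_iff _).mpr hw)))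

end Coords

end FLTA.BadRed.Ordinary

end
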