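import Fermat.Agent.BadRed.Toric.Twist

/-!
# Pairs of sections without poles at the cusp are constant
-/

set_option autoImplicit false

noncomputable section

open AlgebraicCurve FLTA.Curves

namespace FLTA.BadRed.Ordinary

section Curve

variable {k : Type*} [Field k] {Fk : Type*} [Field Fk] [Algebra k Fk] {g : ℕ}

/-- A function without poles is constant. -/
theorem exists_eq_algebraMap_of_ord_nonneg (rr : PlaceRed.RRCurve k Fk g) {x : Fk}
    (h : ∀ v : Place k Fk, x = 0 ∨ 0 ≤ v.ord x) : ∃ c : k, x = algebraMap k Fk c := by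
  classical
  rcases eq_or_ne x 0 with rfl | hx
  · exact ⟨0, by simp⟩
  obtain ⟨P⟩ := rr.nonempty
  have hmem : ∀ v : Place k Fk, x ∈ v.toValuationSubring := fun v =>
    (mem_iff_ord_nonneg _ hx).mpr ((h v).resolve_left hx)
  obtain ⟨c, hc⟩ := BadFibre.exists_sub_residueMap_eq_zero (rr.deg_eq_one P) (hmem P)
  refine ⟨c, ?_⟩
  by_contra hne
  have hw : x - algebraMap k Fk c ≠ 0 := sub_ne_zero.mpr hne
  have hres : residueMap P (⟨x, hmem P⟩ - algebraMap k P.toValuationSubring c) = 0 := by
    rw [map_sub, hc, sub_eq_zero]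
    rfl
  rw [residueMap_eq_zero_iff] at hres
  have hpos : 0 < P.ord (x - algebraMap k Fk c) := by
    rcases hres with h' | h'
    · exact absurd (by simpa using h') hw
    · simpa using h'
  obtain ⟨E, hE, hdeg⟩ := rr.principal.exists_divisor _ hw
  have hnn : ∀ v, 0 ≤ E v := fun v => by
    rw [hE]
    exact ord_nonneg_of_mem v (sub_mem (hmem v) (v.algebraMap_mem' c))
  have hsum : Divisor.degree E = E.sum fun _ m => m := by
    rw [Divisor.degree, Finsupp.liftAddHom_apply]
    exact Finsupp.sum_congr fun v _ => by simp [rr.deg_eq_one v]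
  rw [hsum, Finsupp.sum] at hdeg
  have hle : E P ≤ ∑ v ∈ E.support, E v := by
    by_cases hv : P ∈ E.support
    · exact Finset.single_le_sum (fun v _ => hnn v) hv
    · rw [Finsupp.notMem_support_iff.mp hv]
      exact Finset.sum_nonneg fun v _ => hnn v
  rw [hE P] at hle
  omega

end Curve

variable {K : Type*} [Field K] {A : ValuationSubring K} {k : Type*} [Field k] {π : A →+* k}
  {q : ℕ} [NeZero q] {F : Type*} [Field F] [Algebra K F] {F' : Type*} [Field F'] [Algebra K F']
  {Fk : Type*} [Field Fk] [Algebra k Fk] {g gF : ℕ} {B : BadFibre A π q F F' Fk g gF}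
  {S : Finset (Place k Fk)} {m₀ : ℕ}

/-- An element of `L(m ∞)` whose expansion has no polar part below `-l` lies in `L(l ∞)`. -/
theorem mem_single_of_coeff_eq_zero {m l : ℕ} {x : Fk}
    (hx : x ∈ riemannRochSpace (Finsupp.single B.infk (m : ℤ)))
    (h : ∀ j : ℤ, j < -(l : ℤ) → (B.exk x).coeff j = 0) :
    x ∈ riemannRochSpace (Finsupp.single B.infk (l : ℤ)) := by
  classical
  rw [mem_riemannRochSpace_iff] at hx ⊢
  intro v
  rcases eq_or_ne x 0 with h0 | h0
  · exact Or.inl h0
  right
  rcases eq_or_ne v B.infk with rfl | hv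
  · rw [Finsupp.single_eq_same, B.ord_infk x h0]
    by_contra hlt
    exact (mt HahnSeries.coeff_order_eq_zero.mp ((map_ne_zero B.exk).mpr h0)) (h _ (not_le.mp hlt))
  · have := (hx v).resolve_left h0
    rwa [Finsupp.single_eq_of_ne hv] at this ⊢

/-- A glued pair without polar part is a constant pair. -/
theorem exists_const_of_noPole (hS : B.IsGluing S m₀) (hne : S.Nonempty) {m : ℕ} (hm : m₀ ≤ m)
    {p : Fin 2 → Fk} (hp : p ∈ B.fibreSections m)
    (h : ∀ i, ∀ j : ℤ, j < 0 → (B.exk (p i)).coeff j = 0) :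
    ∃ c : k, ∀ i, p i = algebraMap k Fk c := by
  obtain ⟨hreg, hval⟩ := (hS.mem_iff m hm p).mp hp
  have hcon : ∀ i, ∃ c : k, p i = algebraMap k Fk c := fun i => by
    have h0 := mem_single_of_coeff_eq_zero (B := B) (l := 0) (hreg i) (by simpa using h i)
    refine exists_eq_algebraMap_of_ord_nonneg B.rrk fun v => ?_
    rcases (mem_riemannRochSpace_iff.mp h0 v) with h' | h'
    · exact Or.inl h'
    · exact Or.inr (by simpa using h')
  choose c hc using hcon
  obtain ⟨Q, hQ⟩ := hne
  have h01 : c 0 = c 1 := by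
    have := hval Q hQ
    rwa [hc 0, hc 1, BadFibre.placeVal_algebraMap (B.rrk.deg_eq_one _),
      BadFibre.placeVal_algebraMap (B.rrk.deg_eq_one _)] at this
  exact ⟨c 0, Fin.forall_fin_two.mpr ⟨hc 0, h01 ▸ hc 1⟩⟩

end FLTA.BadRed.Ordinary

end
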