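import Fermat.Agent.BadRed.Ordinary.NFClass
import Fermat.Agent.BadRed.Ordinary.Averaging
import Fermat.Agent.BadRed.Ordinary.Action
import Fermat.Agent.BadRed.Ordinary.Connected

/-!
# Coordinates on a finite group of toric classes
-/

set_option autoImplicit false
set_option linter.unusedSectionVars false

noncomputable section

open AlgebraicCurve FLTA.Curves

namespace FLTA.BadRed.Ordinary

variable {K : Type*} [Field K] [IsAlgClosed K] [CharZero K] {A : ValuationSubring K}
  {k : Type*} [Field k] [IsAlgClosed k] {π : A →+* k}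
  {q : ℕ} [NeZero q] [Fact q.Prime] [CharP k q]
  {F : Type*} [Field F] [Algebra K F] {F' : Type*} [Field F'] [Algebra K F']
  {Fk : Type*} [Field Fk] [Algebra k Fk] {g gF : ℕ} {B : BadFibre A π q F F' Fk g gF}
  {S : Finset (Place k Fk)} {m₀ : ℕ} {G : Type*} [Group G] [MulSemiringAction G K]

theorem mem_nonunits_of_redCoeff (_hπ : Function.Surjective π) {a : K} (ha : a ∈ A)
    (h : redCoeff A π a = 0) : a ∈ A.nonunits := by
  by_contra hn
  rw [A.mem_nonunits_iff] at hn
  have hu : IsUnit (⟨a, ha⟩ : A) := (A.valuation_eq_one_iff _).mpr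
    (le_antisymm ((A.valuation_le_one_iff _).mpr ha) (not_lt.mp hn))
  rw [show a = ((⟨a, ha⟩ : A) : K) from rfl, redCoeff_coe] at h
  exact (hu.map π).ne_zero h

theorem natCast_inv_mem (hπ : Function.Surjective π) {m : ℕ} (hm : ¬ q ∣ m) :
    ((m : K))⁻¹ ∈ A := by
  refine inv_mem_of_redCoeff_ne hπ (natCast_mem A m) ?_
  rw [show (m : K) = ((m : A) : K) from (map_natCast A.subtype m).symm, redCoeff_coe, map_natCast,
    Ne, CharP.cast_eq_zero_iff k q]
  exact hm

/-- The elements of `G` fixing every element of `T`. -/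
def fixer (G : Type*) [Group G] [MulSemiringAction G K] (T : Set K) : Subgroup G where
  carrier := {σ | ∀ a ∈ T, σ • a = a}
  one_mem' a _ := one_smul G a
  mul_mem' {σ τ} hσ hτ a ha := by rw [mul_smul, hτ a ha, hσ a ha]
  inv_mem' {σ} hσ a ha := inv_smul_eq_iff.mpr (hσ a ha).symm

theorem smul_eq_of_mem_closure {T : Set K} {σ : G} (hσ : σ ∈ fixer G T) {a : K}
    (ha : a ∈ Subfield.closure T) : σ • a = a := by
  have : Subfield.closure T ≤
      RingHom.eqLocusField (MulSemiringAction.toRingHom G K σ) (RingHom.id K) :=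
    Subfield.closure_le.mpr fun t ht => hσ t ht
  exact this ha

/-- **Coordinates.** -/
theorem exists_coords (hS : B.IsGluing S m₀) (hne : S.Nonempty) (I : InertiaData B G)
    (hA : RankOneAt A q) (hbound : ∀ a : K, ∃ e : ℕ, (q : K) ^ e * a ∈ A)
    (hfinite : ∀ a : K, (Set.range fun σ : G => σ • a).Finite)
    (X : AddSubgroup (Pic0 K F)) [Finite X] [DistribMulAction G X]
    (hact : ∀ (σ : G) (x : X), ((σ • x : X) : Pic0 K F) = (I.sy σ).σ • (x : Pic0 K F))
    (htor : ∀ x ∈ X, B.IsToric q x) :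
    ∃ d c : ℕ, Nonempty (Coords A G X q d c) := by
  classical
  have hq := (Fact.out : q.Prime)
  have hq2 := hq.two_le
  have hπ := B.R.π_surjective
  obtain ⟨D⟩ := nonempty_secData hq2 hS hne
  let : Fintype X := Fintype.ofFinite X
  choose dr hred using fun x : X => exists_repData hS (htor x x.2)
  -- separation thresholds
  have hthr : ∀ p : X × X, ∃ M₁, p.1 ≠ p.2 → ∀ M', M₁ ≤ M' →
      ∀ (d : RepData B ((p.1 : Pic0 K F) - (p.2 : Pic0 K F))),
        ¬ (D.frame hq2 I hS hne).TrivN (toTRing A (⊥ : Subgroup G) q M') (trunc B ⊥ M' d.x) := by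
    intro p
    by_cases hp : p.1 = p.2
    · exact ⟨0, fun h => absurd hp h⟩
    obtain ⟨d₀, hd₀⟩ := exists_repData hS (htor _ (X.sub_mem p.1.2 p.2.2))
    obtain ⟨M₁, hM₁⟩ := d₀.exists_not_trivN hq2 hS hne I D hA hd₀ hbound
      (sub_ne_zero.mpr fun h => hp (Subtype.ext h))
    refine ⟨M₁, fun _ M' hM' d htriv => hM₁ M' hM' ?_⟩
    obtain ⟨t, ht, e⟩ := RepData.exists_trivN hq2 hS hne I D hA (M := M') d d₀
    rw [e]
    exact htriv.mul ht
  choose thr hthr' using hthr
  set c := (Finset.univ.sup thr) + 1 with hc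
  -- the field of coefficients
  choose s hs using fun p : X × Fin 2 => B.fgSeries_e p.2 (dr p.1).x
  set T : Finset K := Finset.univ.biUnion s with hT
  set H : Subgroup G := fixer G (T : Set K) with hH
  have hgood : ∀ x, Good B H (dr x).x := fun x i j => ⟨(dr x).x_isRed.1 i j, fun σ =>
    smul_eq_of_mem_closure σ.2 (Subfield.closure_mono
      (Finset.coe_subset.mpr (Finset.subset_biUnion_of_mem s (Finset.mem_univ (x, i)))) (hs (x, i) j))⟩
  have htup : (Set.range fun σ : G => fun t : T => σ • (t : K)).Finite :=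
    (Set.Finite.pi fun t : T => hfinite (t : K)).subset (by
      rintro _ ⟨σ, rfl⟩
      exact fun t _ => ⟨σ, rfl⟩)
  set DD := htup.toFinset.card with hDD
  have horb : ∀ a : intFixed A H, ∀ St : Subgroup G,
      ∃ hfin : (Set.range fun σ : St => σ • (a : K)).Finite, hfin.toFinset.card ≤ DD := by
    intro a St
    let pick : (T → K) → K := fun f =>
      if h : ∃ σ : G, (fun t : T => σ • (t : K)) = f then h.choose • (a : K) else 0
    have hsub : (Set.range fun σ : St => σ • (a : K)) ⊆
        pick '' Set.range fun σ : G => fun t : T => σ • (t : K) := by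
      rintro _ ⟨σ, rfl⟩
      refine ⟨_, ⟨σ, rfl⟩, ?_⟩
      have h : ∃ τ : G, (fun t : T => τ • (t : K)) = fun t : T => (σ : G) • (t : K) := ⟨σ, rfl⟩
      simp only [pick, dif_pos h]
      have hh : (σ : G)⁻¹ * h.choose ∈ H := fun t ht => by
        rw [mul_smul, congrFun h.choose_spec ⟨t, ht⟩, inv_smul_smul]
      have := a.2.2 ⟨_, hh⟩
      rw [Subgroup.smul_def, mul_smul, inv_smul_eq_iff] at this
      exact this
    refine ⟨(htup.image pick).subset hsub, ?_⟩
    refine le_trans (Finset.card_le_card (t := htup.toFinset.image pick) fun z hz => ?_)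
      Finset.card_image_le
    rw [Set.Finite.mem_toFinset] at hz
    obtain ⟨f, hf, rfl⟩ := hsub hz
    exact Finset.mem_image.mpr ⟨f, htup.mem_toFinset.mpr hf, rfl⟩
  set M := 2 * (c * Nat.card X) with hM
  have hcard : 0 < Nat.card X := Nat.card_pos
  have hcM : c ≤ M := by
    rw [hM]
    nlinarith
  set M' := M + DD + 1 with hM'
  -- normal forms over the field of coefficients
  have hnfH : ∀ x : X, ∃ a : (D.frame hq2 I hS hne).Γ → intFixed A H,
      (x = 0 → a = 0) ∧ (∀ γ, IsNilpotent (Ideal.Quotient.mk (qIdeal A H q M') (a γ))) ∧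
      IsClassNF hq2 hS hne I D M' (x : Pic0 K F)
        fun γ => Ideal.Quotient.mk (qIdeal A (⊥ : Subgroup G) q M')
          ⟨(a γ : K), (mem_intFixed_bot A).mpr (a γ).2.1⟩ := by
    intro x
    rcases eq_or_ne x 0 with rfl | hx
    · refine ⟨0, fun _ => rfl, fun γ => ?_, ?_⟩
      · simp
      have h0 := isClassNF_zero hq2 hS hne I D hA (M := M') (dr 0)
      refine Eq.subst (motive := fun v => IsClassNF hq2 hS hne I D M' ((0 : X) : Pic0 K F) v) ?_ h0
      funext γ
      exact (map_zero (Ideal.Quotient.mk (qIdeal A (⊥ : Subgroup G) q M'))).symm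
    obtain ⟨a, ha, hnf⟩ := exists_isClassNF_of_good hq2 hS hne I D hA (M := M') (dr x) (hgood x)
    choose a' ha' using fun γ => Ideal.Quotient.mk_surjective (a γ)
    refine ⟨a', fun h => absurd h hx, fun γ => by rw [ha']; exact ha γ, ?_⟩
    convert hnf using 1
    funext γ
    rw [Function.comp_apply, ← ha']
    rfl
  choose a ha0 hanil hanf using hnfH
  -- representatives of the orbits
  let rep : X → X := fun x => (Quotient.mk (MulAction.orbitRel G X) x).out
  have hrep : ∀ x, ∃ σ : G, σ • rep x = x := fun x =>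
    MulAction.mem_orbit_iff.mp (MulAction.orbitRel_apply.mp
      (Setoid.symm' (r := MulAction.orbitRel G X) (Quotient.mk_out x)))
  choose mv hmv using hrep
  have hrep_smul : ∀ (σ : G) x, rep (σ • x) = rep x := fun σ x =>
    congrArg Quotient.out (Quotient.sound (s := MulAction.orbitRel G X)
      (MulAction.orbitRel_apply.mpr ⟨σ, rfl⟩))
  have hfixapprox : ∀ (x : X) (γ : (D.frame hq2 I hS hne).Γ), ∃ b : K,
      (∀ σ : MulAction.stabilizer G x, σ • b = b) ∧ (x = 0 → b = 0) ∧
        ∃ w ∈ A, b - (a x γ : K) = (q : K) ^ (M + 1) * w := by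
    intro x γ
    rcases eq_or_ne x 0 with rfl | hx
    · exact ⟨0, fun σ => smul_zero σ, fun _ => rfl, 0, zero_mem A, by simp [ha0 0 rfl]⟩
    obtain ⟨hfin, hcardO⟩ := horb (a x γ) (MulAction.stabilizer G x)
    have hfix : ∀ σ : MulAction.stabilizer G x, ∃ b ∈ A,
        σ • (a x γ : K) - a x γ = (q : K) ^ M' * b := by
      intro σ
      have h1 := (hanf x).conj hq2 hS hne I D hA (dr x) (σ : G)
      rw [← hact, show (σ : G) • x = x from σ.2] at h1
      have h2 := congrFun (IsClassNF.unique hq2 hS hne I D (dr x) (hanf x) h1) γ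
      rw [Function.comp_apply, galT_mk, ← sub_eq_zero, ← map_sub,
        mk_eq_zero_iff hA.ne_zero] at h2
      exact h2
    obtain ⟨b, hb, w, hw, ew⟩ := exists_fixed_approx hq (fun m hm => natCast_inv_mem hπ hm)
      (MulAction.stabilizer G x) (a x γ : K) DD M' hfin hcardO hfix
    refine ⟨b, hb, fun h => absurd h hx, w, hw, ?_⟩
    refine mul_left_cancel₀ (pow_ne_zero DD hA.ne_zero) ?_
    rw [ew, hM']
    ring
  choose b hbfix hb0 wb hwb ewb using hfixapprox
  set t : X → (D.frame hq2 I hS hne).Γ → K := fun x γ => mv x • b (rep x) γ with ht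
  have htA : ∀ x γ, t x γ ∈ A := fun x γ => by
    refine I.smul_mem _ ?_
    have e : b (rep x) γ = (a (rep x) γ : K) + (q : K) ^ (M + 1) * wb (rep x) γ := by
      rw [← ewb]; ring
    rw [e]
    exact add_mem (a (rep x) γ).2.1 (mul_mem (pow_mem (natCast_mem A q) _) (hwb _ _))
  let tT : ∀ L : ℕ, X → (D.frame hq2 I hS hne).Γ → TRing A (⊥ : Subgroup G) q L := fun L x γ =>
    Ideal.Quotient.mk _ ⟨t x γ, (mem_intFixed_bot A).mpr (htA x γ)⟩
  have htnf : ∀ L, L ≤ M + 1 → ∀ x : X, IsClassNF hq2 hS hne I D L (x : Pic0 K F) (tT L x) := by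
    intro L hL x
    have hle : L ≤ M' := by omega
    have h1 := ((hanf (rep x)).conj hq2 hS hne I D hA (dr (rep x)) (mv x))
    have h2 := h1.proj hq2 hS hne I D hA ((dr (rep x)).conj I (mv x)) hle
    rw [← hact, hmv x] at h2
    convert h2 using 1
    funext γ
    rw [Function.comp_apply, Function.comp_apply, galT_mk, show (projT A (⊥ : Subgroup G) hle)
      (Ideal.Quotient.mk _ _) = Ideal.Quotient.mk _ _ from rfl, ← sub_eq_zero, ← map_sub,
      mk_eq_zero_iff hA.ne_zero]
    refine ⟨(q : K) ^ (M + 1 - L) * (mv x • wb (rep x) γ),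
      mul_mem (pow_mem (natCast_mem A q) _) (I.smul_mem _ (hwb _ _)), ?_⟩
    show mv x • b (rep x) γ - mv x • (a (rep x) γ : K) = _
    rw [← mul_assoc, ← pow_add, show L + (M + 1 - L) = M + 1 by omega, ← smul_sub, ewb, smul_mul',
      smul_pow', show mv x • (q : K) = q from map_natCast (MulSemiringAction.toRingHom G K _) q]
  have hnilT : ∀ L, L ≤ M + 1 → ∀ x γ, IsNilpotent (tT L x γ) := fun L hL x γ =>
    (htnf L hL x (dr x)).1 γ
  -- polynomials for the sum
  have hN : ∀ p : X × X, ∃ N, Ideal.span (Set.range (Sum.elim (tT M p.1) (tT M p.2))) ^ N = ⊥ :=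
    fun p => Frame.isNilpotent_span_range fun v => by
      cases v <;> exact hnilT M (by omega) _ _
  choose Np hNp using hN
  obtain ⟨P, hP⟩ := (D.frame hq2 I hS hne).exists_polynomials (Finset.univ.sup Np)
  let e := Fintype.equivFin (D.frame hq2 I hS hne).Γ
  refine ⟨Fintype.card (D.frame hq2 I hS hne).Γ, c, ⟨{
    t := fun x j => t x (e.symm j)
    nonunit := fun x j => ?_
    t_zero := ?_
    equivariant := fun σ x j => ?_
    separated := fun x y hxy => ?_
    add_poly := fun j => ?_ }⟩⟩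
  · refine mem_nonunits_of_redCoeff hπ (htA _ _) ?_
    exact mk_q_pow_eq_zero hA (by omega : 0 < M + 1) (hnilT (M + 1) le_rfl x (e.symm j))
  · funext j
    show mv 0 • b (rep 0) (e.symm j) = 0
    have h0 : rep 0 = 0 := by
      have := hmv 0
      rwa [smul_eq_zero_iff_eq] at this
    rw [hb0 _ _ h0, smul_zero]
  · show mv (σ • x) • b (rep (σ • x)) _ = σ • mv x • b (rep x) _
    rw [hrep_smul, ← mul_smul]
    have hst : (mv (σ • x))⁻¹ * (σ * mv x) ∈ MulAction.stabilizer G (rep x) := by
      rw [MulAction.mem_stabilizer_iff, mul_smul, mul_smul, hmv x, inv_smul_eq_iff]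
      conv_lhs => rw [← hmv (σ • x), hrep_smul]
    have h := hbfix (rep x) (e.symm j) ⟨_, hst⟩
    rw [Subgroup.smul_def, mul_smul, inv_smul_eq_iff] at h
    exact h.symm
  · by_contra hcon
    push Not at hcon
    have heq : tT c x = tT c y := funext fun γ => by
      rw [← sub_eq_zero]
      show Ideal.Quotient.mk _ _ - Ideal.Quotient.mk _ _ = 0
      rw [← map_sub, mk_eq_zero_iff hA.ne_zero]
      have hne' := hcon (e γ)
      rw [Equiv.symm_apply_apply] at hne'
      show ∃ a' ∈ A, t x γ - t y γ = (q : K) ^ c * a'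
      rcases eq_or_ne (t x γ - t y γ) 0 with h0 | h0
      · exact ⟨0, zero_mem A, by rw [h0, mul_zero]⟩
      rcases A.mem_or_inv_mem ((t x γ - t y γ) / (q : K) ^ c) with h | h
      · exact ⟨_, h, (mul_div_cancel₀ _ (pow_ne_zero _ hA.ne_zero)).symm⟩
      · refine absurd ?_ (hne' _ h)
        field_simp
    obtain ⟨dz, -⟩ := exists_repData hS (htor _ (X.sub_mem x.2 y.2))
    have htriv := trivN_of_eq hq2 hS hne I D hA dz (dr y) (htnf c (by omega) x)
      (heq ▸ htnf c (by omega) y)
    exact hthr' (x, y) hxy c ((Finset.le_sup (Finset.mem_univ (x, y))).trans (Nat.le_succ _)) dz htriv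
  · refine ⟨MvPolynomial.rename (Sum.map e e) (P (e.symm j)), fun x y => ?_⟩
    have hsum := (htnf M (by omega) x).add hq2 hS hne I D hA (dr x) (dr y) (htnf M (by omega) y)
      (hP _ _ _ _ (fun γ => hnilT M (by omega) x γ) (fun γ => hnilT M (by omega) y γ)
        (le_bot_iff.mp (hNp (x, y) ▸ Ideal.pow_le_pow_right
          (Finset.le_sup (Finset.mem_univ (x, y))))))
    rw [← AddSubgroup.coe_add] at hsum
    have h := congrFun (IsClassNF.unique hq2 hS hne I D (dr (x + y)) hsum (htnf M (by omega) (x + y)))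
      (e.symm j)
    set v : (D.frame hq2 I hS hne).Γ ⊕ (D.frame hq2 I hS hne).Γ → intFixed A (⊥ : Subgroup G) :=
      Sum.elim (fun γ => ⟨t x γ, (mem_intFixed_bot A).mpr (htA x γ)⟩)
        (fun γ => ⟨t y γ, (mem_intFixed_bot A).mpr (htA y γ)⟩) with hv
    have hev : MvPolynomial.eval₂ (toTRing A (⊥ : Subgroup G) q M) (Sum.elim (tT M x) (tT M y))
        (P (e.symm j)) = Ideal.Quotient.mk _ (MvPolynomial.eval₂
          (Subring.inclusion (intFixed_le_sub A (⊥ : Subgroup G))) v (P (e.symm j))) := by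
      rw [MvPolynomial.eval₂_comp_left (Ideal.Quotient.mk (qIdeal A (⊥ : Subgroup G) q M))]
      congr 1
      funext z
      cases z <;> rfl
    rw [hev, ← sub_eq_zero] at h
    change Ideal.Quotient.mk _ _ - Ideal.Quotient.mk _ _ = 0 at h
    rw [← map_sub, mk_eq_zero_iff hA.ne_zero] at h
    obtain ⟨a', ha', he'⟩ := h
    refine ⟨a', ha', ?_⟩
    rw [← hM] 
    refine Eq.trans ?_ he'
    show _ = t (x + y) (e.symm j) - ((MvPolynomial.eval₂ _ v (P (e.symm j)) : intFixed A _) : K)
    congr 1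
    rw [MvPolynomial.aeval_rename, MvPolynomial.aeval_def,
      show ∀ z : intFixed A (⊥ : Subgroup G), (z : K) = (intFixed A (⊥ : Subgroup G)).subtype z
        from fun _ => rfl, MvPolynomial.eval₂_comp_left]
    congr 1
    funext z
    cases z <;> simp [v, Function.comp]

end FLTA.BadRed.Ordinary

end
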