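import Fermat.Agent.BadRed.Ordinary.Classes

/-!
# A section almost without polar part can be moved to bounded pole order

For a representative `d`, the map `G ↦ G G₃ / G₂` reads the sections of `L(D + N (∞ + 0))` in
series with poles of order at most `N`; top pairs are reached by integral sections, so small top
coefficients can be removed.
-/

set_option autoImplicit false
set_option linter.unusedSectionVars false

noncomputable section

open AlgebraicCurve FLTA.Curves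

namespace FLTA.BadRed.Ordinary

variable {K : Type*} [Field K] [IsAlgClosed K] [CharZero K] {A : ValuationSubring K}
  {k : Type*} [Field k] [IsAlgClosed k] {π : A →+* k}
  {q : ℕ} [NeZero q] [Fact q.Prime] [CharP k q]
  {F : Type*} [Field F] [Algebra K F] {F' : Type*} [Field F'] [Algebra K F']
  {Fk : Type*} [Field Fk] [Algebra k Fk] {g gF : ℕ} {B : BadFibre A π q F F' Fk g gF}
  {S : Finset (Place k Fk)} {m₀ : ℕ}

theorem redCoeff_add {a b : K} (ha : a ∈ A) (hb : b ∈ A) :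
    redCoeff A π (a + b) = redCoeff A π a + redCoeff A π b := by
  rw [show a + b = ((⟨a, ha⟩ + ⟨b, hb⟩ : A) : K) from rfl, redCoeff_coe, map_add, ← redCoeff_coe,
    ← redCoeff_coe]

theorem redCoeff_mul {a b : K} (ha : a ∈ A) (hb : b ∈ A) :
    redCoeff A π (a * b) = redCoeff A π a * redCoeff A π b := by
  rw [show a * b = ((⟨a, ha⟩ * ⟨b, hb⟩ : A) : K) from rfl, redCoeff_coe, map_mul, ← redCoeff_coe,
    ← redCoeff_coe]

theorem redCoeff_zero : redCoeff A π (0 : K) = 0 := by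
  rw [show (0 : K) = ((0 : A) : K) from rfl, redCoeff_coe, map_zero]

theorem redCoeff_one : redCoeff A π (1 : K) = 1 := by
  rw [show (1 : K) = ((1 : A) : K) from rfl, redCoeff_coe, map_one]

theorem inv_mem_of_redCoeff_ne (hπ : Function.Surjective π) {a : K} (ha : a ∈ A)
    (h : redCoeff A π a ≠ 0) : a⁻¹ ∈ A := by
  by_contra hinv
  exact h (by
    rw [show a = ((⟨a, ha⟩ : A) : K) from rfl, redCoeff_coe]
    exact residue_eq_zero_of_inv_notMem hπ ha hinv)

theorem ne_zero_of_redCoeff_ne {a : K} (h : redCoeff A π a ≠ 0) : a ≠ 0 := fun h0 =>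
  h (h0 ▸ redCoeff_zero)

theorem redCoeff_natCast_q : redCoeff A π (q : K) = 0 := by
  rw [show (q : K) = ((q : A) : K) from (map_natCast A.subtype q).symm, redCoeff_coe, map_natCast,
    CharP.cast_eq_zero]

section Exact

/-- Pairs supported on one component with a pole of exact order. -/
theorem exists_glued_single (hS : B.IsGluing S m₀) {N : ℕ} (hN : 2 * g + S.card + 1 ≤ N)
    (i : Fin 2) :
    ∃ z ∈ B.glued hS N 1, z i ≠ 0 ∧ B.infk.ord (z i) = -(N : ℤ) ∧ ∀ j, j ≠ i → z j = 0 := by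
  classical
  obtain ⟨j, rfl⟩ : ∃ j, N = j + 1 := ⟨N - 1, by omega⟩
  let Lj := riemannRochSpace (Finsupp.single B.infk (j : ℤ))
  let Lm := riemannRochSpace (Finsupp.single B.infk ((j + 1 : ℕ) : ℤ))
  have hle : Lj ≤ Lm := riemannRochSpace_mono
    (Finsupp.single_le_single.mpr (by exact_mod_cast Nat.le_succ j))
  have := B.rrk.finiteDimensional (Finsupp.single B.infk (j : ℤ))
  have h1 := BadFibre.finrank_riemannRochSpace_single B.rrk (P := B.infk) (m := j) (by omega)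
  have h2 := BadFibre.finrank_riemannRochSpace_single B.rrk (P := B.infk) (m := j + 1) (by omega)
  obtain ⟨b, hb, hb'⟩ : ∃ b ∈ Lm, b ∉ Lj := by
    by_contra h
    push Not at h
    have := B.rrk.finiteDimensional (Finsupp.single B.infk ((j + 1 : ℕ) : ℤ))
    have h3 : Module.finrank k (riemannRochSpace (Finsupp.single B.infk ((j + 1 : ℕ) : ℤ))) ≤
        Module.finrank k (riemannRochSpace (Finsupp.single B.infk (j : ℤ))) :=
      Submodule.finrank_mono h
    omega
  -- evaluation on the chosen component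
  have main : ∀ (ev : Place k Fk → Place k Fk), (∀ Q : S, ev Q ≠ B.infk) →
      (∀ T : S → k, ∃ δ : Lj, ∀ Q : S, BadFibre.placeVal (ev Q) (δ : Fk) = T Q) →
      ∃ x ∈ Lm, x ∉ Lj ∧ ∀ Q : S, BadFibre.placeVal (ev Q) x = 0 := by
    intro ev hne hsurj
    obtain ⟨δ, hδ⟩ := hsurj fun Q => -BadFibre.placeVal (ev Q) b
    refine ⟨b + (δ : Fk), add_mem hb (hle δ.2), fun h => hb' (by simpa using sub_mem h δ.2),
      fun Q => ?_⟩
    rw [BadFibre.placeVal_add (B.rrk.deg_eq_one _) (BadFibre.mem_of_mem_single hb (hne Q))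
      (BadFibre.mem_of_mem_single (hle δ.2) (hne Q)), hδ, add_neg_cancel]
  obtain ⟨x₀, hx₀, hx₀', hv₀⟩ := main (fun Q => Q) (fun Q => (B.pts_ne hS Q).1) fun T => by
    obtain ⟨δ, hδ⟩ := B.ev₀_surjective hS (m := j) (by omega) T
    exact ⟨δ, fun Q => congrFun hδ Q⟩
  obtain ⟨x₁, hx₁, hx₁', hv₁⟩ := main (fun Q => B.frobq • Q) (fun Q => (B.pts_ne hS Q).2) fun T => by
    obtain ⟨δ, hδ⟩ := B.ev₁_surjective hS (m := j) (by omega) T
    exact ⟨δ, fun Q => congrFun hδ Q⟩
  have h0 : ∀ Q : Place k Fk, BadFibre.placeVal Q (0 : Fk) = 0 := fun Q =>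
    BadFibre.placeVal_zero (B.rrk.deg_eq_one Q)
  fin_cases i
  · refine ⟨![x₀, 0], (B.mem_glued hS).mpr ⟨Fin.forall_fin_two.mpr ⟨hx₀, zero_mem _⟩, fun Q => ?_⟩,
      fun h => hx₀' (show x₀ ∈ Lj from (show x₀ = 0 from h) ▸ zero_mem _),
      BadFibre.ord_infk_eq_of_notMem hx₀ hx₀', fun i hi => ?_⟩
    · simp [hv₀ Q, h0]
    · fin_cases i <;> first | exact absurd rfl hi | rfl
  · refine ⟨![0, x₁], (B.mem_glued hS).mpr ⟨Fin.forall_fin_two.mpr ⟨zero_mem _, hx₁⟩, fun Q => ?_⟩,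
      fun h => hx₁' (show x₁ ∈ Lj from (show x₁ = 0 from h) ▸ zero_mem _),
      BadFibre.ord_infk_eq_of_notMem hx₁ hx₁', fun i hi => ?_⟩
    · simp [hv₁ Q, h0]
    · fin_cases i <;> first | exact absurd rfl hi | rfl

end Exact

namespace RepData

variable {y : Pic0 K F} (d : RepData B y)

/-- The expansions of `G G₃ / G₂`. -/
def twist : F →ₗ[K] (Fin 2 → LaurentSeries K) :=
  B.pair ∘ₗ LinearMap.mulRight K (d.G₃ / d.G₂)

theorem twist_apply (G : F) (i : Fin 2) : d.twist G i = B.e i (G * (d.G₃ / d.G₂)) := rfl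

theorem ord_G₂ (i : Fin 2) :
    (B.P i).ord d.G₂ = -(d.m : ℤ) - (d.D : Divisor K F) (B.P i) := by
  have h := (d.exact₂ i).order_eq
  have hne : d.G₂ ^ q * d.f ≠ 0 := mul_ne_zero (pow_ne_zero _ d.G₂_ne) d.kummer.ne_zero
  rw [← B.ord_P i hne, ← B.ord_infk _ (pow_ne_zero _ (d.exact i).1), ord_infk_pow, (d.exact i).2,
    Place.ord_mul _ (pow_ne_zero _ d.G₂_ne) d.kummer.ne_zero, FLTA.Curves.ord_pow,
    ← d.kummer.ord_eq] at h
  have hq : (q : ℤ) ≠ 0 := by exact_mod_cast (NeZero.ne q)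
  refine mul_left_cancel₀ hq ?_
  linear_combination h

theorem ord_G₃ (i : Fin 2) : (B.P i).ord d.G₃ = -(d.m : ℤ) := by
  rw [B.ord_P i d.G₃_ne, (d.exact₃ i).order_eq, ← B.ord_infk _ (d.exact i).1, (d.exact i).2]

theorem twist_order {G : F} (hG : G ≠ 0) (i : Fin 2) :
    (d.twist G i).order = (B.P i).ord G + (d.D : Divisor K F) (B.P i) := by
  rw [twist_apply, ← B.ord_P i (mul_ne_zero hG (div_ne_zero d.G₃_ne d.G₂_ne)),
    Place.ord_mul _ hG (div_ne_zero d.G₃_ne d.G₂_ne), div_eq_mul_inv,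
    Place.ord_mul _ d.G₃_ne (inv_ne_zero d.G₂_ne), Place.ord_inv, d.ord_G₂, d.ord_G₃]
  ring

theorem twist_coeff_eq_zero {N : ℕ} {G : F}
    (hG : G ∈ riemannRochSpace ((d.D : Divisor K F) + B.cuspDiv N)) (i : Fin 2) {j : ℤ}
    (hj : j < -(N : ℤ)) : (d.twist G i).coeff j = 0 := by
  rcases eq_or_ne G 0 with rfl | h0
  · simp
  apply HahnSeries.coeff_eq_zero_of_lt_order
  rw [d.twist_order h0 i]
  have h := (mem_riemannRochSpace_iff.mp hG (B.P i)).resolve_left h0
  rw [Finsupp.add_apply, B.cuspDiv_apply (Fact.out : q.Prime).two_le] at h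
  omega

theorem mem_of_coeff_top_eq_zero {N : ℕ} {G : F}
    (hG : G ∈ riemannRochSpace ((d.D : Divisor K F) + B.cuspDiv (N + 1)))
    (h : ∀ i, (d.twist G i).coeff (-((N + 1 : ℕ) : ℤ)) = 0) :
    G ∈ riemannRochSpace ((d.D : Divisor K F) + B.cuspDiv N) := by
  rw [mem_riemannRochSpace_iff]
  intro v
  rcases eq_or_ne G 0 with h0 | h0
  · exact Or.inl h0
  right
  have hv := (mem_riemannRochSpace_iff.mp hG v).resolve_left h0
  rw [Finsupp.add_apply] at hv ⊢
  have hq2 := (Fact.out : q.Prime).two_le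
  by_cases hP : ∃ i, v = B.P i
  · obtain ⟨i, rfl⟩ := hP
    rw [B.cuspDiv_apply hq2] at hv ⊢
    by_contra hlt
    have hord : (d.twist G i).order = -((N + 1 : ℕ) : ℤ) := by
      rw [d.twist_order h0 i]
      push_cast at hv ⊢
      omega
    refine mt HahnSeries.coeff_order_eq_zero.mp ?_ (hord ▸ h i)
    rw [twist_apply]
    exact B.e_ne_zero i (mul_ne_zero h0 (div_ne_zero d.G₃_ne d.G₂_ne))
  · push Not at hP
    rw [B.cuspDiv_apply_of_ne _ (hP 0) (hP 1)] at hv ⊢
    exact hv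

/-- A section with small polar part and constant congruent to `1`. -/
def Almost (c : K) (N : ℕ) : Prop :=
  ∃ G ∈ riemannRochSpace ((d.D : Divisor K F) + B.cuspDiv N),
    (∀ (i : Fin 2) (j : ℤ), j < 0 → ∃ a ∈ A, (d.twist G i).coeff j = c * a) ∧
      (d.twist G 0).coeff 0 ∈ A ∧ redCoeff A π ((d.twist G 0).coeff 0) = 1

/-- The pole order can be lowered. -/
theorem Almost.step (hS : B.IsGluing S m₀) (hD : B.ReducesToPow q d.f) {c : K} (hcA : c ∈ A)
    (hc : redCoeff A π c = 0) {N : ℕ} (hN : BadFibre.Big S m₀ g gF (N + 1)) (hm : d.m ≤ N + 1)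
    (h : d.Almost c (N + 1)) : d.Almost c N := by
  obtain ⟨G, hG, hpol, hc0, hc1⟩ := h
  have lift : ∀ i : Fin 2, ∃ g ∈ riemannRochSpace ((d.D : Divisor K F) + B.cuspDiv (N + 1)),
      (∀ l, IntSeries A (d.twist g l)) ∧
      redCoeff A π ((d.twist g i).coeff (-((N + 1 : ℕ) : ℤ))) ≠ 0 ∧
      ∀ l, l ≠ i → redCoeff A π ((d.twist g l).coeff (-((N + 1 : ℕ) : ℤ))) = 0 := by
    intro i
    obtain ⟨z, hz, hzi, hzord, hz0⟩ := exists_glued_single hS (N := N + 1)
      (by have := hN.eval; omega) i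
    obtain ⟨g, hg, hgr⟩ := exists_lift hS d.kummer d.D.2 hD hN hz
    have hred := d.twist_int hm hg hgr
    rw [mul_div_assoc] at hred
    have hcoef : ∀ l, redCoeff A π ((d.twist g l).coeff (-((N + 1 : ℕ) : ℤ))) =
        (B.exk (z l)).coeff (-((N + 1 : ℕ) : ℤ)) := fun l => by
      rw [hred.2 l]; rfl
    refine ⟨g, hg, fun l => hred.1 l, ?_, fun l hl => ?_⟩
    · rw [hcoef, ← hzord, B.ord_infk _ hzi]
      exact mt HahnSeries.coeff_order_eq_zero.mp ((map_ne_zero B.exk).mpr hzi)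
    · rw [hcoef, hz0 l hl]
      simp
  choose g hg hint hdiag hoff using lift
  set top : ℤ := -((N + 1 : ℕ) : ℤ)
  have hπ := B.R.π_surjective
  set t := fun (i : Fin 2) => (d.twist (g i) i).coeff top with ht
  have htA : ∀ i, (t i)⁻¹ ∈ A := fun i => inv_mem_of_redCoeff_ne hπ (hint i i top) (hdiag i)
  have ht0 : ∀ i, t i ≠ 0 := fun i => ne_zero_of_redCoeff_ne (hdiag i)
  -- the second section, cleared at the first component
  set r := (d.twist (g 1) 0).coeff top * (t 0)⁻¹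
  have hrA : r ∈ A := mul_mem (hint 1 0 top) (htA 0)
  set g' := g 1 - r • g 0
  have hg'0 : (d.twist g' 0).coeff top = 0 := by
    simp only [g', map_sub, map_smul, Pi.sub_apply, Pi.smul_apply, HahnSeries.coeff_sub,
      HahnSeries.coeff_smul, smul_eq_mul, r]
    rw [mul_assoc, inv_mul_cancel₀ (ht0 0), mul_one, sub_self]
  have hg'int : ∀ l, IntSeries A (d.twist g' l) := fun l => by
    rw [map_sub, map_smul]
    exact (hint 1 l).sub ((hint 0 l).smul hrA)
  have hg'1 : redCoeff A π ((d.twist g' 1).coeff top) ≠ 0 := by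
    have e : (d.twist g' 1).coeff top = t 1 + -r * (d.twist (g 0) 1).coeff top := by
      simp only [g', ht, map_sub, map_smul, Pi.sub_apply, Pi.smul_apply, HahnSeries.coeff_sub,
        HahnSeries.coeff_smul, smul_eq_mul]
      ring
    rw [e, redCoeff_add (hint 1 1 top) (mul_mem (neg_mem hrA) (hint 0 1 top)),
      redCoeff_mul (neg_mem hrA) (hint 0 1 top), hoff 0 1 (by decide), mul_zero, add_zero]
    exact hdiag 1
  set t' := (d.twist g' 1).coeff top
  obtain ⟨a₀, ha₀, ea₀⟩ := hpol 0 top (by simp only [top]; omega)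
  obtain ⟨a₁, ha₁, ea₁⟩ := hpol 1 top (by simp only [top]; omega)
  set μ₀ := a₀ * (t 0)⁻¹
  set μ₁ := (a₁ - μ₀ * (d.twist (g 0) 1).coeff top) * t'⁻¹
  have hμ₀ : μ₀ ∈ A := mul_mem ha₀ (htA 0)
  have hμ₁ : μ₁ ∈ A := mul_mem (sub_mem ha₁ (mul_mem hμ₀ (hint 0 1 top)))
    (inv_mem_of_redCoeff_ne hπ (hg'int 1 top) hg'1)
  set G' := G - c • (μ₀ • g 0 + μ₁ • g')
  have hco : ∀ (l : Fin 2) (j : ℤ), (d.twist G' l).coeff j = (d.twist G l).coeff j -
      c * (μ₀ * (d.twist (g 0) l).coeff j + μ₁ * (d.twist g' l).coeff j) := fun l j => by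
    simp only [G', map_sub, map_add, map_smul, Pi.sub_apply, Pi.add_apply, Pi.smul_apply,
      HahnSeries.coeff_sub, HahnSeries.coeff_add, HahnSeries.coeff_smul, smul_eq_mul]
  have hg'mem : g' ∈ riemannRochSpace ((d.D : Divisor K F) + B.cuspDiv (N + 1)) :=
    sub_mem (hg 1) (Submodule.smul_mem _ _ (hg 0))
  have hG' : G' ∈ riemannRochSpace ((d.D : Divisor K F) + B.cuspDiv (N + 1)) :=
    sub_mem hG (Submodule.smul_mem _ _
      (add_mem (Submodule.smul_mem _ _ (hg 0)) (Submodule.smul_mem _ _ hg'mem)))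
  have htop : ∀ l, (d.twist G' l).coeff top = 0 := by
    refine Fin.forall_fin_two.mpr ⟨?_, ?_⟩
    · rw [hco, ea₀, hg'0, mul_zero, add_zero, show μ₀ * (d.twist (g 0) 0).coeff top = a₀ by
        simp only [μ₀]; rw [mul_assoc]
        show a₀ * ((t 0)⁻¹ * t 0) = a₀
        rw [inv_mul_cancel₀ (ht0 0), mul_one], sub_self]
    · rw [hco, ea₁, show μ₁ * (d.twist g' 1).coeff top = a₁ - μ₀ * (d.twist (g 0) 1).coeff top by
        simp only [μ₁]; rw [mul_assoc]
        show _ * (t'⁻¹ * t') = _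
        rw [inv_mul_cancel₀ (ne_zero_of_redCoeff_ne hg'1), mul_one], add_sub_cancel, sub_self]
  have hsum : ∀ (l : Fin 2) (j : ℤ),
      μ₀ * (d.twist (g 0) l).coeff j + μ₁ * (d.twist g' l).coeff j ∈ A := fun l j =>
    add_mem (mul_mem hμ₀ (hint 0 l j)) (mul_mem hμ₁ (hg'int l j))
  refine ⟨G', d.mem_of_coeff_top_eq_zero hG' htop, fun l j hj => ?_, ?_, ?_⟩
  · obtain ⟨a, ha, ea⟩ := hpol l j hj
    exact ⟨_, sub_mem ha (hsum l j), by rw [hco, ea, mul_sub]⟩
  · rw [hco]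
    exact sub_mem hc0 (mul_mem hcA (hsum 0 0))
  · rw [hco, sub_eq_add_neg, redCoeff_add hc0 (neg_mem (mul_mem hcA (hsum 0 0))), hc1, ← neg_mul,
      redCoeff_mul (neg_mem hcA) (hsum 0 0), show redCoeff A π (-c) = 0 by
        rw [← neg_one_mul, redCoeff_mul (neg_mem (one_mem A)) hcA, hc, mul_zero],
      zero_mul, add_zero]

/-- Descent to a fixed pole order. -/
theorem Almost.descend (hS : B.IsGluing S m₀) (hD : B.ReducesToPow q d.f) {c : K} (hcA : c ∈ A)
    (hc : redCoeff A π c = 0) {N₀ : ℕ} (hN₀ : BadFibre.Big S m₀ g gF N₀) (hm : d.m ≤ N₀) :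
    ∀ j : ℕ, d.Almost c (N₀ + j) → d.Almost c N₀
  | 0, h => h
  | j + 1, h => Almost.descend hS hD hcA hc hN₀ hm j (Almost.step d hS hD hcA hc
      ⟨by have := hN₀.fibre; omega, by have := hN₀.genus; omega, by have := hN₀.eval; omega⟩
      (by omega) h)

end RepData

end FLTA.BadRed.Ordinary

end
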