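import Fermat.Agent.HeckeDatum.Relation
import Fermat.Agent.GaloisReps.Attach
import Fermat.Agent.Petersson.Reduced
import Fermat.Agent.RepTheory.DVRExtension
import Mathlib.RingTheory.Ideal.Quotient.Index

/-!
# Points of a Hecke–Galois datum with values in finite extensions of `ℤ_[p]`
-/

set_option autoImplicit false
set_option linter.style.haveILetI false
set_option linter.unusedSectionVars false

noncomputable section

open IsLocalRing

namespace FLTA.BadRed.Ordinary

open FLTA.GaloisReps (FullHecke)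
open FLTA.RepTheory (FiniteDVRExt)

/-- A complete discrete valuation ring of characteristic zero with finite residue field of
characteristic `p` is finite over `ℤ_[p]`. -/
theorem module_finite_padicInt {p : ℕ} [Fact p.Prime] (O : Type) [CommRing O] [IsDomain O]
    [IsDiscreteValuationRing O] [CharZero O] [Finite (ResidueField O)] [Algebra ℤ_[p] O]
    (hp : (p : O) ∈ maximalIdeal O) : Module.Finite ℤ_[p] O := by
  classical
  set I : Ideal O := Ideal.span {(p : O)} with hI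
  have hp0 : (p : O) ≠ 0 := Nat.cast_ne_zero.2 (Fact.out : p.Prime).ne_zero
  obtain ⟨ϖ, hϖ⟩ := IsDiscreteValuationRing.exists_irreducible O
  obtain ⟨m, hm⟩ := IsDiscreteValuationRing.associated_pow_irreducible hp0 hϖ
  have hIm : I = maximalIdeal O ^ m := by
    rw [hI, hϖ.maximalIdeal_eq, Ideal.span_singleton_pow]
    exact Ideal.span_singleton_eq_span_singleton.2 hm
  haveI : Finite (O ⧸ maximalIdeal O) := ‹Finite (ResidueField O)›
  haveI : Finite (O ⧸ I) := by
    rw [hIm]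
    exact Ideal.finite_quotient_pow (IsNoetherian.noetherian _) m
  letI : Fintype (O ⧸ I) := Fintype.ofFinite _
  have hmap : (maximalIdeal ℤ_[p]).map (algebraMap ℤ_[p] O) = I := by
    rw [PadicInt.maximalIdeal_eq_span_p, Ideal.map_span, Set.image_singleton, map_natCast, hI]
  haveI : IsHausdorff (maximalIdeal ℤ_[p]) O := by
    refine (IsHausdorff.map_algebraMap_iff (S := O)).1 ?_
    rw [hmap]
    exact IsHausdorff.of_le_jacobson _ _ ((Ideal.span_le.2 (Set.singleton_subset_iff.2 hp)).trans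
      (IsLocalRing.jacobson_eq_maximalIdeal ⊥ bot_ne_top).ge)
  haveI := FLTA.RepTheory.isAdicComplete_of_module_finite ℤ_[p] ((O ⧸ I) → ℤ_[p])
  let f := Fintype.linearCombination ℤ_[p] (fun x : O ⧸ I => Quotient.out x)
  refine Module.Finite.of_surjective f
    (surjective_of_mkQ_comp_surjective (I := maximalIdeal ℤ_[p]) fun y => ?_)
  obtain ⟨y, rfl⟩ := Submodule.mkQ_surjective _ y
  refine ⟨Pi.single (Ideal.Quotient.mk I y) 1, ?_⟩
  rw [LinearMap.comp_apply, Fintype.linearCombination_apply_single, one_smul, Submodule.mkQ_apply,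
    Submodule.mkQ_apply, Submodule.Quotient.eq, Ideal.smul_top_eq_map,
    Submodule.restrictScalars_mem, hmap, ← Ideal.Quotient.eq]
  exact Quotient.out_eq _

variable {p N : ℕ} [Fact p.Prime] [NeZero N] {S : Finset ℕ}
  {𝒪 : Type} [CommRing 𝒪] [IsDomain 𝒪] [IsDiscreteValuationRing 𝒪]
  [IsAdicComplete (maximalIdeal 𝒪) 𝒪] [Finite (ResidueField 𝒪)] [CharZero 𝒪]
  {θ : CuspForm.heckeAlgebra N 2 (↑S : Set ℕ) →+* ResidueField 𝒪}
  {T : Type} [CommRing T] [IsLocalRing T] [IsNoetherianRing T]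
  [IsAdicComplete (maximalIdeal T) T] [Algebra 𝒪 T] [IsLocalHom (algebraMap 𝒪 T)]
  [Module.Finite 𝒪 T] [Module.Free 𝒪 T]

omit [IsAdicComplete (maximalIdeal 𝒪) 𝒪] [Finite (ResidueField 𝒪)] [CharZero 𝒪]
  [IsNoetherianRing T] [IsAdicComplete (maximalIdeal T) T] [Module.Free 𝒪 T] in
theorem isLocalHom_point {R : Type} [CommRing R] [IsDomain R] [IsLocalRing R] [Algebra 𝒪 R]
    [IsLocalHom (algebraMap 𝒪 R)] (ψ : T →ₐ[𝒪] R) : IsLocalHom ψ.toRingHom := by
  refine ((IsLocalRing.local_hom_TFAE ψ.toRingHom).out 0 4).2 ?_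
  have hcomp : (maximalIdeal R).comap (algebraMap 𝒪 R) = maximalIdeal 𝒪 :=
    IsLocalRing.maximalIdeal_comap _
  have hP : ((maximalIdeal R).comap ψ.toRingHom).IsMaximal := by
    refine Ideal.isMaximal_of_isIntegral_of_isMaximal_comap (R := 𝒪) _ ?_
    rw [Ideal.comap_comap, show ψ.toRingHom.comp (algebraMap 𝒪 T) = algebraMap 𝒪 R from
      ψ.comp_algebraMap, hcomp]
    exact maximalIdeal.isMaximal 𝒪
  exact IsLocalRing.eq_maximalIdeal hP

/-- The datum has enough points, each of them extended to the full Hecke algebra. -/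
theorem exists_points (hp𝒪 : (p : 𝒪) ∈ maximalIdeal 𝒪)
    (hNS : ∀ q : ℕ, q.Prime → q ∣ N → q ∈ S)
    (H : CuspForm.HeckeGaloisRepDatum N (↑S : Set ℕ) 𝒪 θ T) (t : T) (ht : t ≠ 0) :
    ∃ (E : FiniteDVRExt ℤ_[p]) (φ : T →+* E.R) (χ : FullHecke N →+* E.R),
      IsLocalHom φ ∧ φ t ≠ 0 ∧
        ∀ x, χ (FLTA.HeckeDatum.toFullHecke N (↑S) x) = φ (H.π x) := by
  haveI := FLTA.GaloisReps.module_finite_fullHecke N
  have hinj := FLTA.HeckeDatum.toFullHecke_injective (N := N) (↑S : Set ℕ)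
  haveI : Module.Finite ℤ (CuspForm.heckeAlgebra N 2 (↑S : Set ℕ)) :=
    Module.Finite.of_injective
      (FLTA.HeckeDatum.toFullHecke N (↑S : Set ℕ)).toAddMonoidHom.toIntLinearMap hinj
  haveI := FLTA.Petersson.heckeAlgebra_isReduced N (↑S : Set ℕ) hNS
  haveI : IsReduced T := FLTA.Petersson.isReduced_of_adjoin_eq_top H.π H.adjoin_range_π
  obtain ⟨E₀, hE₀⟩ := FLTA.RepTheory.exists_points_of_isReduced 𝒪 T
  obtain ⟨ψ, hψ⟩ := hE₀ t ht
  obtain ⟨E₁, χ, hχ⟩ := FLTA.RepTheory.exists_ext_character E₀.R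
    (FLTA.HeckeDatum.toFullHecke N (↑S : Set ℕ)) hinj (ψ.toRingHom.comp H.π)
  have hp : (p : E₁.R) ∈ maximalIdeal E₁.R := by
    rw [← map_natCast ((algebraMap E₀.R E₁.R).comp (algebraMap 𝒪 E₀.R))]
    exact map_nonunit (algebraMap E₀.R E₁.R) _ (map_nonunit (algebraMap 𝒪 E₀.R) _ hp𝒪)
  letI : Algebra ℤ_[p] E₁.R := FLTA.GaloisReps.padicIntAlgebra E₁.R hp
  haveI := module_finite_padicInt E₁.R hp
  haveI := FLTA.RepTheory.isLocalHom_algebraMap_of_finite ℤ_[p] E₁.R
  have hpinj : Function.Injective (algebraMap ℤ_[p] E₁.R) := by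
    rw [RingHom.injective_iff_ker_eq_bot]
    by_contra hne
    obtain ⟨n, hn⟩ := PadicInt.ideal_eq_span_pow_p hne
    have h : (p : ℤ_[p]) ^ n ∈ RingHom.ker (algebraMap ℤ_[p] E₁.R) := by
      rw [hn]; exact Ideal.mem_span_singleton_self _
    rw [RingHom.mem_ker, map_pow, map_natCast] at h
    exact pow_ne_zero n (Nat.cast_ne_zero.2 (Fact.out : p.Prime).ne_zero) h
  refine ⟨{ R := E₁.R, injective := hpinj }, (algebraMap E₀.R E₁.R).comp ψ.toRingHom, χ, ?_,
    fun h => hψ (E₁.injective (by simpa using h)), fun x => RingHom.congr_fun hχ x⟩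
  haveI := isLocalHom_point ψ
  exact RingHom.isLocalHom_comp _ _

end FLTA.BadRed.Ordinary

end
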