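import Fermat.Agent.BadRed.Ordinary.Plane
import Fermat.Agent.BadRed.Ordinary.Points
import Fermat.Agent.BadRed.OrdLine
import Fermat.Agent.Carayol.MatchCompare
import Fermat.Agent.HeckeDatum.Transfer

/-!
# Ordinarity of a Hecke–Galois datum from connected inertia torsion of the Tate module
-/

set_option autoImplicit false
set_option linter.style.haveILetI false
set_option linter.unusedSectionVars false

noncomputable section

open scoped TensorProduct Matrix
open IsLocalRing Polynomial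

namespace FLTA.BadRed.Ordinary

open FLTA.GaloisReps (TateData FullHecke matEigenspace matrixRep matrixRep_apply map_intCast_map
  piAlgebraMap piAlgebraMap_apply span_image_matEigenspace finrank_matEigenspace
  compAlgebraMap_mulVec)
open FLTA.RepTheory (FiniteDVRExt Spans matHom)

local notation "Γ" => AlgebraicClosure ℚ ≃ₐ[ℚ] AlgebraicClosure ℚ

/-- Residual absolute irreducibility is kept by base change. -/
theorem residual_absIrr_baseChangeAlong {A B : Type} [CommRing A] [IsLocalRing A] [CommRing B]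
    [IsLocalRing B] (φ : A →+* B) (hφ : IsLocalHom φ) (ρ : GaloisRepAdic A)
    (h : ρ.residual.IsAbsolutelyIrreducible) :
    (ρ.baseChangeAlong φ hφ).residual.IsAbsolutelyIrreducible := by
  rw [← FLTA.RepTheory.spans_iff_residual_isAbsolutelyIrreducible] at h ⊢
  letI : Algebra A B := φ.toAlgebra
  let b := Module.finBasisOfFinrankEq A ρ.V ρ.finrank_eq
  rw [FLTA.RepTheory.spans_iff_matHom b] at h
  refine (FLTA.RepTheory.spans_iff_matHom (Algebra.TensorProduct.basis B b) _).2 ?_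
  have hg : ∀ g, (matHom b ρ.ρ g).map (algebraMap A B) =
      matHom (Algebra.TensorProduct.basis B b) (ρ.baseChangeAlong φ hφ).ρ g := fun g =>
    (LinearMap.toMatrix_baseChange B (ρ.ρ g) b b).symm
  set X := Submodule.span B
    (Set.range (matHom (Algebra.TensorProduct.basis B b) (ρ.baseChangeAlong φ hφ).ρ))
  have key : ∀ N : Matrix (Fin 2) (Fin 2) A, N.map (algebraMap A B) ∈ X := by
    intro N
    have hN : N ∈ Submodule.span A (Set.range (matHom b ρ.ρ)) := by rw [h]; trivial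
    induction hN using Submodule.span_induction with
    | mem M hM =>
      obtain ⟨g, rfl⟩ := hM
      exact Submodule.subset_span ⟨g, (hg g).symm⟩
    | zero => simp
    | add M M' _ _ hM hM' => rw [Matrix.map_add _ (map_add _)]; exact add_mem hM hM'
    | smul c M _ hM =>
      rw [show (c • M).map (algebraMap A B) = algebraMap A B c • M.map (algebraMap A B) by
        ext i j; simp]
      exact Submodule.smul_mem _ _ hM
  refine eq_top_iff.2 fun M _ => ?_
  rw [Matrix.matrix_eq_sum_single M]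
  refine Submodule.sum_mem _ fun i _ => Submodule.sum_mem _ fun j _ => ?_
  have h1 := Submodule.smul_mem _ (M i j) (key (Matrix.single i j 1))
  rwa [show M i j • (Matrix.single i j (1 : A)).map (algebraMap A B) = Matrix.single i j (M i j) by
    ext a b; by_cases hab : i = a ∧ j = b <;> simp [hab]] at h1

/-- A residual invariant functional after base change. -/
theorem exists_lam_baseChangeAlong {A B : Type} [CommRing A] [IsLocalRing A] [CommRing B]
    [IsLocalRing B] (φ : A →+* B) (hφ : IsLocalHom φ) (ρ : GaloisRepAdic A) {p : ℕ}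
    (hres : (GaloisRepAdic.ofResidualGaloisRep ρ.residual).IsOrdinaryAt p)
    (P : ValuationSubring (AlgebraicClosure ℚ)) (hP : P.LiesOverPrime p) :
    ∃ lam : (ρ.baseChangeAlong φ hφ).V →ₗ[B] ResidueField B, lam ≠ 0 ∧
      ∀ σ ∈ P.inertiaSubgroupIn ℚ, ∀ v, lam ((ρ.baseChangeAlong φ hφ).ρ σ v) = lam v := by
  haveI := hφ
  letI : Algebra A B := φ.toAlgebra
  obtain ⟨L, ⟨b, rfl⟩, -, hI⟩ := hres P hP
  let b' : Module.Basis (Fin 2) (ResidueField A) (ResidueField A ⊗[A] ρ.V) := b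
  let c : ResidueField A →ₗ[A] ResidueField B :=
    { toFun := ResidueField.map φ
      map_add' := map_add _
      map_smul' := fun a x => by
        rw [Algebra.smul_def, map_mul, RingHom.id_apply, Algebra.smul_def]
        rfl }
  let ψ : ρ.V →ₗ[A] ResidueField B :=
    c.comp (((b'.coord 1).restrictScalars A).comp (TensorProduct.mk A (ResidueField A) ρ.V 1))
  refine ⟨ψ.liftBaseChange B, fun h0 => ?_, fun σ hσ w => ?_⟩
  · replace h0 : ψ.liftBaseChange B = 0 := h0
    obtain ⟨v, hv⟩ := TensorProduct.mk_surjective A ρ.V (ResidueField A) residue_surjective (b' 1)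
    have h1 := LinearMap.congr_fun h0 (1 ⊗ₜ v)
    rw [LinearMap.liftBaseChange_tmul, one_smul, LinearMap.zero_apply] at h1
    replace hv : (1 : ResidueField A) ⊗ₜ[A] v = b' 1 := hv
    simp [ψ, c, hv] at h1
  · change B ⊗[A] ρ.V at w
    show ψ.liftBaseChange B ((ρ.ρ σ).baseChange B w) = ψ.liftBaseChange B w
    induction w using TensorProduct.induction_on with
    | zero => simp only [map_zero]
    | tmul x v =>
      rw [LinearMap.baseChange_tmul, LinearMap.liftBaseChange_tmul, LinearMap.liftBaseChange_tmul]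
      refine congrArg (x • ·) (congrArg c ?_)
      obtain ⟨a, ha⟩ := Submodule.mem_span_singleton.1 (hI σ hσ ((1 : ResidueField A) ⊗ₜ[A] v))
      replace ha : a • b' 0 = (1 : ResidueField A) ⊗ₜ[A] (ρ.ρ σ v) - 1 ⊗ₜ v := ha
      show b'.coord 1 ((1 : ResidueField A) ⊗ₜ[A] (ρ.ρ σ v)) = b'.coord 1 (1 ⊗ₜ v)
      rw [← sub_eq_zero, ← map_sub, ← ha, map_smul, Module.Basis.coord_apply,
        Module.Basis.repr_self, Finsupp.single_eq_of_ne (by decide), smul_zero]
    | add x y hx hy => rw [map_add, map_add, map_add, hx, hy]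

section Plane

variable {N : ℕ} [NeZero N] {p : ℕ} [Fact p.Prime]
  {O : Type} [CommRing O] [IsDomain O] [IsDiscreteValuationRing O] [CharZero O] [Algebra ℤ_[p] O]

/-- The eigenplane with its embedding in the Tate module, and its Hecke eigen relation. -/
theorem exists_embedded_plane_eigen (D : TateData N p) (hp : (p : O) ∈ maximalIdeal O)
    (χ : FullHecke N →+* O) :
    ∃ ρ : GaloisRepAdic O, ∃ f : ρ.V →ₗ[O] (Fin D.r → O), Function.Injective f ∧
      (∀ v, (p : O) • v ∈ LinearMap.range f → v ∈ LinearMap.range f) ∧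
      (∀ σ v, f (ρ.ρ σ v) = actO D.rho σ (f v)) ∧
      (∀ t v, (D.hecke t).map (Int.cast : ℤ → O) *ᵥ f v = χ t • f v) ∧
      ∀ (ℓ : ℕ) (hℓ : ℓ.Prime) (hℓN : ¬ ℓ ∣ N), ℓ ≠ p →
        ∀ A : ValuationSubring (AlgebraicClosure ℚ), A.LiesOverPrime ℓ →
          ∀ σ : Γ, A.IsFrobeniusAt σ ℓ →
            LinearMap.charpoly (ρ.ρ σ) =
              X ^ 2 - C (χ (CuspForm.heckeAlgebra.T hℓ hℓN (Set.notMem_empty ℓ))) * X
                + C (ℓ : O) := by
  have hcomm : ∀ (σ : Γ) (t : FullHecke N),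
      ((D.hecke t).map (Int.cast : ℤ → O)) * (D.rho σ).map (algebraMap ℤ_[p] O) =
        (D.rho σ).map (algebraMap ℤ_[p] O) * ((D.hecke t).map (Int.cast : ℤ → O)) := fun σ t => by
    have h := congrArg (fun M => M.map (algebraMap ℤ_[p] O)) (D.commute σ t).eq
    simp only [Matrix.map_mul, map_intCast_map] at h
    exact h.symm
  set W : Submodule O (Fin D.r → O) := matEigenspace (fun t => D.hecke t) (fun t => χ t) with hWdef
  have hW : ∀ σ, ∀ x ∈ W, matrixRep O D.rho σ x ∈ W := by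
    intro σ x hx t
    rw [matrixRep_apply, Matrix.mulVec_mulVec, hcomm σ t, ← Matrix.mulVec_mulVec, hx t,
      Matrix.mulVec_smul]
  have hrank : Module.finrank O W = 2 := by
    rw [hWdef, finrank_matEigenspace (fun t => D.hecke t) (FractionRing O)]
    exact D.plane (FractionRing O) ((algebraMap O (FractionRing O)).comp χ)
  let ρ := FLTA.RepTheory.galoisRepAdicOfSubmodule (matrixRep O D.rho)
    (FLTA.GaloisReps.matrixRep_isAdicContinuous O hp D.rho D.isContinuous) W hW hrank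
  refine ⟨ρ, W.subtype, W.injective_subtype, ?_, fun σ v => rfl, fun t v => v.2 t, ?_⟩
  · intro v hv
    erw [Submodule.range_subtype] at hv ⊢
    intro t
    have h := hv t
    rw [Matrix.mulVec_smul, smul_comm] at h
    have hp0 : (p : O) ≠ 0 := Nat.cast_ne_zero.2 (Fact.out : p.Prime).ne_zero
    exact smul_right_injective (Fin D.r → O) hp0 h
  let a : ℕ → O := fun ℓ =>
    if h : ℓ.Prime ∧ ¬ ℓ ∣ N then χ (CuspForm.heckeAlgebra.T h.1 h.2 (Set.notMem_empty ℓ)) else 0
  let S₀ : Finset ℕ := insert p N.primeFactors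
  have hS : ∀ ℓ : ℕ, ℓ.Prime → (ℓ ∉ S₀ ↔ ¬ ℓ ∣ N ∧ ℓ ≠ p) := fun ℓ hℓ => by
    simp [S₀, Nat.mem_primeFactors, hℓ, NeZero.ne N, and_comm]
  have ha : ∀ (ℓ : ℕ) (hℓ : ℓ.Prime) (hℓN : ¬ ℓ ∣ N),
      a ℓ = χ (CuspForm.heckeAlgebra.T hℓ hℓN (Set.notMem_empty ℓ)) := fun ℓ hℓ hℓN =>
    dif_pos ⟨hℓ, hℓN⟩
  have hquad : ∀ ℓ : ℕ, ℓ.Prime → ℓ ∉ S₀ → ∀ A : ValuationSubring (AlgebraicClosure ℚ),
      A.LiesOverPrime ℓ → ∀ σ : Γ, A.IsFrobeniusAt σ ℓ → ∀ v : ρ.V,
        ρ.ρ σ (ρ.ρ σ v) - a ℓ • ρ.ρ σ v + (ℓ : O) • v = 0 := by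
    intro ℓ hℓ hℓS A hA σ hσ v
    obtain ⟨h1, h2⟩ := (hS ℓ hℓ).mp hℓS
    rw [ha ℓ hℓ h1]
    change ↥W at v
    refine Subtype.ext ?_
    have h := congrArg (fun M => (M.map (algebraMap ℤ_[p] O)) *ᵥ (v : Fin D.r → O))
      (D.frobenius ℓ hℓ h1 h2 A hA σ hσ)
    simp only [Matrix.map_add _ (map_add _), Matrix.map_sub _ (map_sub _), Matrix.map_mul,
      map_intCast_map, Matrix.map_natCast (map_zero (algebraMap ℤ_[p] O)), map_natCast,
      Matrix.map_zero _ (map_zero _), Matrix.add_mulVec, Matrix.sub_mulVec,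
      ← Matrix.mulVec_mulVec, Matrix.zero_mulVec] at h
    have hT := hW σ _ v.2 (CuspForm.heckeAlgebra.T hℓ h1 (Set.notMem_empty ℓ))
    rw [matrixRep_apply] at hT
    rw [hT, Matrix.diagonal_const_mulVec] at h
    exact h
  have hns : ∀ c : O, ρ.ρ complexConjugation ≠ c • (1 : Module.End O ρ.V) := by
    intro c hc
    obtain ⟨w, hw, hne⟩ := D.conj_not_scalar (FractionRing O)
      ((algebraMap O (FractionRing O)).comp χ) (algebraMap O (FractionRing O) c)
    refine hne ?_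
    have hw' : w ∈ Submodule.span (FractionRing O)
        (piAlgebraMap (FractionRing O) '' (W : Set (Fin D.r → O))) := by
      rw [hWdef, span_image_matEigenspace]
      exact hw
    refine Submodule.span_induction ?_ ?_ ?_ ?_ hw'
    · rintro _ ⟨v, hv, rfl⟩
      have h := congrArg Subtype.val (LinearMap.congr_fun hc ⟨v, hv⟩)
      change matrixRep O D.rho complexConjugation v = c • v at h
      rw [matrixRep_apply, D.conj_spec, map_intCast_map] at h
      have h' := compAlgebraMap_mulVec (O := O) (FractionRing O) D.conjMat v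
      rw [h] at h'
      refine h'.trans (funext fun i => ?_)
      simp [piAlgebraMap_apply]
    · rw [Matrix.mulVec_zero, smul_zero]
    · intro x y _ _ hx hy
      rw [Matrix.mulVec_add, hx, hy, smul_add]
    · intro z x _ hx
      rw [Matrix.mulVec_smul, hx, smul_comm]
  obtain ⟨-, hcp⟩ := FLTA.GaloisReps.det_eq_cyclo_and_charpoly hp ρ S₀
    (Finset.mem_insert_self _ _) a hquad ⟨complexConjugation, hns⟩
  exact fun ℓ hℓ hℓN hℓp A hA σ hσ => by
    rw [hcp ℓ hℓ ((hS ℓ hℓ).mpr ⟨hℓN, hℓp⟩) A hA σ hσ, ha ℓ hℓ hℓN]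

/-- The eigenplane with its embedding in the Tate module. -/
theorem exists_embedded_plane (D : TateData N p) (hp : (p : O) ∈ maximalIdeal O)
    (χ : FullHecke N →+* O) :
    ∃ ρ : GaloisRepAdic O, ∃ f : ρ.V →ₗ[O] (Fin D.r → O), Function.Injective f ∧
      (∀ v, (p : O) • v ∈ LinearMap.range f → v ∈ LinearMap.range f) ∧
      (∀ σ v, f (ρ.ρ σ v) = actO D.rho σ (f v)) ∧
      ∀ (ℓ : ℕ) (hℓ : ℓ.Prime) (hℓN : ¬ ℓ ∣ N), ℓ ≠ p →
        ∀ A : ValuationSubring (AlgebraicClosure ℚ), A.LiesOverPrime ℓ →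
          ∀ σ : Γ, A.IsFrobeniusAt σ ℓ →
            LinearMap.charpoly (ρ.ρ σ) =
              X ^ 2 - C (χ (CuspForm.heckeAlgebra.T hℓ hℓN (Set.notMem_empty ℓ))) * X
                + C (ℓ : O) := by
  obtain ⟨ρ, f, hf, hsat, hequiv, -, hcp⟩ := exists_embedded_plane_eigen D hp χ
  exact ⟨ρ, f, hf, hsat, hequiv, hcp⟩

end Plane

variable {p N : ℕ} [NeZero N] {S : Finset ℕ}
  {𝒪 : Type} [CommRing 𝒪] [IsDomain 𝒪] [IsDiscreteValuationRing 𝒪]
  [IsAdicComplete (maximalIdeal 𝒪) 𝒪] [Finite (ResidueField 𝒪)] [CharZero 𝒪]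
  {θ : CuspForm.heckeAlgebra N 2 (↑S : Set ℕ) →+* ResidueField 𝒪}
  {T : Type} [CommRing T] [IsLocalRing T] [IsNoetherianRing T]
  [IsAdicComplete (maximalIdeal T) T] [Algebra 𝒪 T] [IsLocalHom (algebraMap 𝒪 T)]
  [Module.Finite 𝒪 T] [Module.Free 𝒪 T]

/-- Ordinarity at a point. -/
theorem isOrdinaryAt_point [Fact p.Prime] (D : TateData N p) (hpS : p ∈ S)
    (hNS : ∀ q : ℕ, q.Prime → q ∣ N → q ∈ S)
    (H : CuspForm.HeckeGaloisRepDatum N (↑S : Set ℕ) 𝒪 θ T)
    (hres : (GaloisRepAdic.ofResidualGaloisRep H.ρ.residual).IsOrdinaryAt p)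
    (hT : ∀ P : ValuationSubring (AlgebraicClosure ℚ), P.LiesOverPrime p →
      Nonempty (InertiaTorsion D.rho (P.inertiaSubgroupIn ℚ)))
    (hdet : ∀ P : ValuationSubring (AlgebraicClosure ℚ), P.LiesOverPrime p →
      ∃ σ ∈ P.inertiaSubgroupIn ℚ, IsUnit (LinearMap.det (H.ρ.ρ σ) - 1))
    (E : FiniteDVRExt ℤ_[p]) (φ : T →+* E.R) (hφ : IsLocalHom φ) (χ : FullHecke N →+* E.R)
    (hχ : ∀ x, χ (FLTA.HeckeDatum.toFullHecke N (↑S) x) = φ (H.π x)) :
    (H.ρ.baseChangeAlong φ hφ).IsOrdinaryAt p := by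
  have hpO : (p : E.R) ∈ maximalIdeal E.R := by
    rw [← map_natCast (algebraMap ℤ_[p] E.R)]
    refine map_nonunit (algebraMap ℤ_[p] E.R) _ ?_
    rw [PadicInt.maximalIdeal_eq_span_p]
    exact Ideal.mem_span_singleton_self _
  haveI : Module.IsTorsionFree ℤ_[p] E.R :=
    Module.isTorsionFree_iff_algebraMap_injective.mpr E.injective
  haveI : Module.Free ℤ_[p] E.R := Module.free_of_finite_type_torsion_free'
  obtain ⟨ρ₂, f, hf, hsat, hequiv, hcp⟩ := exists_embedded_plane D hpO χ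
  have hchar : ∀ σ, ((H.ρ.baseChangeAlong φ hφ).ρ σ).charpoly = (ρ₂.ρ σ).charpoly := by
    refine FLTA.Carayol.adic_charpoly_eq_of_frobenius _ _ S fun ℓ hℓ hℓS A hA τ hτ => ?_
    have hℓN : ¬ ℓ ∣ N := fun h => hℓS (hNS ℓ hℓ h)
    rw [FLTA.RepTheory.charpoly_baseChangeAlong,
      H.charpoly_frob ℓ hℓ hℓN (show ℓ ∉ (↑S : Set ℕ) from hℓS) A hA τ hτ,
      hcp ℓ hℓ hℓN (fun h => hℓS (h ▸ hpS)) A hA τ hτ]
    simp only [Polynomial.map_add, Polynomial.map_sub, Polynomial.map_mul, Polynomial.map_pow,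
      Polynomial.map_X, Polynomial.map_C, Polynomial.map_natCast, map_natCast]
    rw [← hχ]
    rfl
  obtain ⟨e⟩ := FLTA.RepTheory.isEquiv_of_charpoly_eq
    (residual_absIrr_baseChangeAlong φ hφ H.ρ H.residual_absIrr) hchar
  have hrange : LinearMap.range (f.comp e.toLinearEquiv.toLinearMap) = LinearMap.range f := by
    rw [LinearMap.range_comp, LinearEquiv.range, Submodule.map_top]
  refine isOrdinaryAt_of_inertiaTorsion (H.ρ.baseChangeAlong φ hφ) D.rho hpO
    (f.comp e.toLinearEquiv.toLinearMap) (hf.comp e.toLinearEquiv.injective)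
    (by rw [hrange]; exact hsat)
    (fun σ v => by
      simp only [LinearMap.comp_apply, LinearEquiv.coe_coe, e.map_apply, hequiv])
    hT (fun P hP => ?_) fun P hP => exists_lam_baseChangeAlong φ hφ H.ρ hres P hP
  obtain ⟨σ, hσ, hu⟩ := hdet P hP
  refine ⟨σ, hσ, ?_⟩
  letI : Algebra T E.R := φ.toAlgebra
  have hd : LinearMap.det ((H.ρ.baseChangeAlong φ hφ).ρ σ) = φ (LinearMap.det (H.ρ.ρ σ)) :=
    LinearMap.det_baseChange (H.ρ.ρ σ)
  rw [hd, ← map_one φ, ← map_sub]
  exact hu.map φ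

/-- **Ordinarity of the datum**, given connected inertia torsion. -/
theorem isOrdinaryAt_of_tateData [Fact p.Prime] (D : TateData N p) (hp2 : p ≠ 2)
    (hp𝒪 : (p : 𝒪) ∈ maximalIdeal 𝒪) (hpS : p ∈ S)
    (hNS : ∀ q : ℕ, q.Prime → q ∣ N → q ∈ S)
    (H : CuspForm.HeckeGaloisRepDatum N (↑S : Set ℕ) 𝒪 θ T)
    (hres : (GaloisRepAdic.ofResidualGaloisRep H.ρ.residual).IsOrdinaryAt p)
    (hT : ∀ P : ValuationSubring (AlgebraicClosure ℚ), P.LiesOverPrime p →
      Nonempty (InertiaTorsion D.rho (P.inertiaSubgroupIn ℚ))) :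
    H.ρ.IsOrdinaryAt p := by
  have hpp : p.Prime := Fact.out
  have hdet : ∀ P : ValuationSubring (AlgebraicClosure ℚ), P.LiesOverPrime p →
      ∃ σ ∈ P.inertiaSubgroupIn ℚ, IsUnit (LinearMap.det (H.ρ.ρ σ) - 1) := by
    intro P hP
    obtain ⟨σ, hσ, hσ'⟩ := FLTA.Galois.exists_inertia_apply_eq_pow p hP 1 2 fun h =>
      hp2 ((Nat.prime_dvd_prime_iff_eq hpp Nat.prime_two).1 h)
    refine ⟨σ, hσ, ?_⟩
    have h := (FLTA.HeckeDatum.detIsCyclotomic_of_datum hpp hp𝒪 hpS hNS H).2 1 σ 2 hσ'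
    have hm : LinearMap.det (H.ρ.ρ σ) - ((2 : ℕ) : T) ∈ maximalIdeal T := by
      refine Ideal.span_le.2 ?_ h
      rw [pow_one, Set.singleton_subset_iff]
      exact FLTA.HeckeDatum.natCast_mem_maximalIdeal hp𝒪
    by_contra hu
    have h1 := sub_mem ((mem_maximalIdeal _).2 hu) hm
    rw [Nat.cast_ofNat, show LinearMap.det (H.ρ.ρ σ) - 1 - (LinearMap.det (H.ρ.ρ σ) - (2 : T))
      = 1 by ring] at h1
    exact (maximalIdeal.isMaximal T).ne_top ((Ideal.eq_top_iff_one _).2 h1)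
  choose E φ χ hφ hne hχ using exists_points hp𝒪 hNS H
  refine FLTA.BadRed.isOrdinaryAt_of_baseChange H.ρ p
    (fun i : {t : T // t ≠ 0} => (E i.1 i.2).R) (fun i => φ i.1 i.2) (fun i => hφ i.1 i.2)
    (fun a ha => ?_) hdet
    (fun i => isOrdinaryAt_point D hpS hNS H hres hT hdet (E i.1 i.2) (φ i.1 i.2) (hφ i.1 i.2)
      (χ i.1 i.2) (hχ i.1 i.2))
  by_contra h0
  exact hne a h0 (ha ⟨a, h0⟩)

end FLTA.BadRed.Ordinary

end
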