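import Fermat.Agent.BadRed.Toric.Bounded
import Fermat.Agent.BadRed.IntSeries

/-!
# Series whose reduction has the same order
-/

set_option autoImplicit false

noncomputable section

open ModularCurve

namespace FLTA.BadRed.Ordinary

variable {K : Type*} [Field K] {A : ValuationSubring K} {k : Type*} [Field k] {π : A →+* k}

/-- `z` is integral, reduces to `r ≠ 0`, and has the order of `r`. -/
structure ExactRed (π : A →+* k) (z : LaurentSeries K) (r : LaurentSeries k) : Prop where
  int : IntSeries A z
  red : redSeries A π z = r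
  ne : r ≠ 0
  order_eq : z.order = r.order

namespace ExactRed

variable {z z' : LaurentSeries K} {r r' : LaurentSeries k}

theorem ne_zero (h : ExactRed π z r) : z ≠ 0 := fun h0 => h.ne (by rw [← h.red, h0, redSeries_zero])

theorem of_le (hint : IntSeries A z) (hr : redSeries A π z = r) (hne : r ≠ 0)
    (hle : r.order ≤ z.order) : ExactRed π z r :=
  ⟨hint, hr, hne, le_antisymm (hr ▸ order_le_order_redSeries (hr ▸ hne)) hle⟩

theorem mul (h : ExactRed π z r) (h' : ExactRed π z' r') : ExactRed π (z * z') (r * r') :=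
  ⟨h.int.mul h'.int, by rw [redSeries_mul h.int h'.int, h.red, h'.red], mul_ne_zero h.ne h'.ne,
    by rw [HahnSeries.order_mul h.ne_zero h'.ne_zero, HahnSeries.order_mul h.ne h'.ne, h.order_eq,
      h'.order_eq]⟩

theorem inv (hπ : Function.Surjective π) (h : ExactRed π z r) : ExactRed π z⁻¹ r⁻¹ := by
  obtain ⟨y, hy⟩ := exists_coeffMap_eq h.int
  have hy0 : y ≠ 0 := by
    rintro rfl
    exact h.ne_zero (by rw [← hy, map_zero])
  have hord : y.order = z.order := by
    refine le_antisymm ?_ ?_
    · refine HahnSeries.order_le_of_coeff_ne_zero fun h0 => ?_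
      refine mt HahnSeries.coeff_order_eq_zero.mp h.ne_zero ?_
      conv_lhs => arg 1; rw [← hy]
      rw [coeffMap_coeff, h0, map_zero]
    · refine HahnSeries.order_le_of_coeff_ne_zero fun h0 => ?_
      refine mt HahnSeries.coeff_order_eq_zero.mp hy0 ?_
      rw [← hy, coeffMap_coeff] at h0
      exact Subtype.ext h0
  have hunit : IsUnit y.leadingCoeff := by
    refine isUnit_of_residue_ne_zero hπ fun h0 => ?_
    refine mt HahnSeries.coeff_order_eq_zero.mp h.ne ?_
    rw [HahnSeries.leadingCoeff_eq, hord, h.order_eq] at h0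
    conv_lhs => arg 1; rw [← h.red, ← hy, redSeries_coeffMap]
    exact h0
  obtain ⟨w, hw⟩ := (HahnSeries.isUnit_iff.mpr hunit).exists_right_inv
  have e : z⁻¹ = coeffMap A.subtype w := by
    refine inv_eq_of_mul_eq_one_right ?_
    rw [← hy, ← map_mul, hw, map_one]
  have hint : IntSeries A z⁻¹ := e ▸ intSeries_coeffMap w
  have hred : redSeries A π z⁻¹ = r⁻¹ := by
    refine eq_inv_of_mul_eq_one_right ?_
    rw [← h.red, ← redSeries_mul h.int hint, mul_inv_cancel₀ h.ne_zero, redSeries_one]
  refine ⟨hint, hred, inv_ne_zero h.ne, ?_⟩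
  have h1 := HahnSeries.order_mul h.ne_zero (inv_ne_zero h.ne_zero)
  have h2 := HahnSeries.order_mul h.ne (inv_ne_zero h.ne)
  rw [mul_inv_cancel₀ h.ne_zero, HahnSeries.order_one] at h1
  rw [mul_inv_cancel₀ h.ne, HahnSeries.order_one] at h2
  linarith [h.order_eq]

theorem div (hπ : Function.Surjective π) (h : ExactRed π z r) (h' : ExactRed π z' r') :
    ExactRed π (z / z') (r / r') := by
  rw [div_eq_mul_inv, div_eq_mul_inv]
  exact h.mul (h'.inv hπ)

theorem one : ExactRed π (1 : LaurentSeries K) (1 : LaurentSeries k) :=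
  ⟨IntSeries.one, redSeries_one, one_ne_zero, by rw [HahnSeries.order_one, HahnSeries.order_one]⟩

theorem pow (h : ExactRed π z r) : ∀ n : ℕ, ExactRed π (z ^ n) (r ^ n)
  | 0 => by simpa only [pow_zero] using one
  | n + 1 => by simpa only [pow_succ] using (pow h n).mul h

/-- A root of an exact series with the right reduction is exact. -/
theorem of_pow {n : ℕ} (hn : 0 < n) (hint : IntSeries A z) (hr : redSeries A π z = r)
    (h : ExactRed π (z ^ n) (r ^ n)) : ExactRed π z r := by
  refine ⟨hint, hr, fun h0 => h.ne (by rw [h0, zero_pow hn.ne']), ?_⟩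
  have h1 := h.order_eq
  rw [HahnSeries.order_pow, HahnSeries.order_pow, nsmul_eq_mul, nsmul_eq_mul] at h1
  exact mul_left_cancel₀ (by exact_mod_cast hn.ne') h1

theorem coeff_eq_zero (h : ExactRed π z r) {j : ℤ} (hj : j < r.order) : z.coeff j = 0 :=
  HahnSeries.coeff_eq_zero_of_lt_order (h.order_eq ▸ hj)

end ExactRed

/-- A series congruent to a power is integral of the corresponding reduction. -/
theorem redSeries_eq_of_pow {q : ℕ} [Fact q.Prime] [CharP k q] {z : LaurentSeries K}
    {r : LaurentSeries k} (hz : IntSeries A z) (h : redSeries A π (z ^ q) = r ^ q) :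
    redSeries A π z = r := by
  have : CharP (LaurentSeries k) q :=
    charP_of_injective_algebraMap (algebraMap k (LaurentSeries k)).injective q
  have : ExpChar (LaurentSeries k) q := ExpChar.prime (Fact.out : q.Prime)
  rw [redSeries_pow hz] at h
  exact frobenius_inj (LaurentSeries k) q h

end FLTA.BadRed.Ordinary

end
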