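import Fermat.Agent.BadRed.Ordinary.Main
import Fermat.Agent.Carayol.InertiaValue

/-!
# The inertia group of a place of `ℚ̄` as an `InertiaField`
-/

set_option autoImplicit false

noncomputable section

open ValuationSubring

namespace FLTA.BadRed.Ordinary

local notation "Qb" => AlgebraicClosure ℚ
local notation "Γ" => AlgebraicClosure ℚ ≃ₐ[ℚ] AlgebraicClosure ℚ

/-- Inertia at a place over `q` satisfies the standing hypotheses. -/
theorem inertiaField_bar {q : ℕ} (hq : q.Prime) {A : ValuationSubring Qb} (hA : A.LiesOverPrime q) :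
    InertiaField A (A.inertiaSubgroupIn ℚ) q := by
  have hvq : A.valuation (q : Qb) < 1 := (show A.valuation (q : Qb) < 1 from hA)
  have hq0 : (q : Qb) ≠ 0 := Nat.cast_ne_zero.mpr hq.ne_zero
  have hvq0 : A.valuation (q : Qb) ≠ 0 := A.valuation.ne_zero_iff.mpr hq0
  have hpos : 0 < A.valuation (q : Qb) := zero_lt_iff.mpr hvq0
  have hmem : ∀ x : Qb, A.valuation x ≤ 1 → x ∈ A := fun x => (A.valuation_le_one_iff x).mp
  refine ⟨⟨hA, hq0, ?_, ?_, ?_⟩, fun a => ?_, fun ε hε M => ?_⟩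
  · rintro ⟨g, hg⟩ x hx
    exact FLTA.Galois.apply_mem_of_mem_decompositionSubgroup
      (FLTA.Galois.mem_inertiaSubgroupIn_iff.mp hg).1 hx
  · intro x hfix
    rcases eq_or_ne x 0 with rfl | hx
    · exact ⟨0, by simp⟩
    obtain ⟨j, hj⟩ := FLTA.Carayol.exists_zpow_of_inertia_fixed hq hA hx
      fun σ hσ => hfix ⟨σ, hσ⟩
    refine ⟨j.natAbs, hmem _ ?_⟩
    rw [map_mul, map_pow, hj, ← zpow_natCast, ← zpow_add₀ hvq0]
    exact zpow_le_one₀ hpos hvq.le (by omega)
  · intro x hfix hnon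
    rcases eq_or_ne x 0 with rfl | hx
    · exact ⟨0, ValuationSubring.zero_mem A, (mul_zero _).symm⟩
    obtain ⟨j, hj⟩ := FLTA.Carayol.exists_zpow_of_inertia_fixed hq hA hx
      fun σ hσ => hfix ⟨σ, hσ⟩
    have hj1 : 1 ≤ j := by
      by_contra hc
      have hlt : A.valuation x < 1 := hnon
      rw [hj] at hlt
      exact not_le.mpr hlt
        (one_le_zpow_of_nonpos₀ hpos hvq.le (by omega))
    refine ⟨x / q, hmem _ ?_, by rw [mul_div_cancel₀ _ hq0]⟩
    rw [map_div₀, hj, div_eq_mul_inv, ← zpow_sub_one₀ hvq0]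
    exact zpow_le_one₀ hpos hvq.le (by omega)
  · have hint : IsIntegral ℚ a := (AlgebraicClosure.isAlgebraic ℚ).isAlgebraic a |>.isIntegral
    refine ((minpoly ℚ a).rootSet_finite Qb).subset ?_
    rintro _ ⟨⟨σ, hσ⟩, rfl⟩
    rw [Polynomial.mem_rootSet_of_ne (minpoly.ne_zero hint)]
    show Polynomial.aeval (σ.toAlgHom a) (minpoly ℚ a) = 0
    rw [Polynomial.aeval_algHom_apply, minpoly.aeval, map_zero]
  · rcases eq_or_ne ε 0 with rfl | hε0
    · exact ⟨1, 0, ValuationSubring.zero_mem A, by simp⟩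
    have : @Algebra.IsAlgebraic ℚ Qb _ _ DivisionRing.toRatAlgebra :=
      AlgebraicClosure.isAlgebraic ℚ
    obtain ⟨d, i, hd, hdi⟩ := FLTA.EllReduction.FreyAux.exists_zpow_eq A hq hA hε0
    have hi : 1 ≤ i := by
      by_contra hc
      have hlt : A.valuation ε ^ d < 1 := pow_lt_one₀ zero_le hε hd.ne'
      rw [hdi] at hlt
      exact not_le.mpr hlt (one_le_zpow_of_nonpos₀ hpos hvq.le (by omega))
    refine ⟨d * M, ε ^ (d * M) / (q : Qb) ^ M, hmem _ ?_,
      by rw [mul_div_cancel₀ _ (pow_ne_zero _ hq0)]⟩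
    rw [map_div₀, map_pow, map_pow, pow_mul, hdi, ← div_pow, div_eq_mul_inv,
      ← zpow_sub_one₀ hvq0]
    exact pow_le_one₀ zero_le (zpow_le_one₀ hpos hvq.le (by omega))

end FLTA.BadRed.Ordinary

end
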