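import Mathlib

/-!
# Equivariant functions and descent

`A` is a valuation ring of `K`, `G` a group of automorphisms of `K` preserving `A`, and
`intFixed` the ring `W` of fixed elements of `A`, whose nonunits are divisible by `p`.
Equivariant functions on a `G`-set which are `W`-independent are `K`-independent.
-/

set_option autoImplicit false

noncomputable section

namespace FLTA.BadRed.Ordinary

variable {K : Type*} [Field K] (A : ValuationSubring K) (G : Type*) [Group G]
  [MulSemiringAction G K]

/-- The fixed elements of `A`. -/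
def intFixed : Subring K where
  carrier := {x | x ∈ A ∧ ∀ g : G, g • x = x}
  one_mem' := ⟨one_mem A, fun g => smul_one g⟩
  mul_mem' := fun ha hb => ⟨mul_mem ha.1 hb.1, fun g => by rw [smul_mul', ha.2, hb.2]⟩
  zero_mem' := ⟨zero_mem A, fun g => smul_zero g⟩
  add_mem' := fun ha hb => ⟨add_mem ha.1 hb.1, fun g => by rw [smul_add, ha.2, hb.2]⟩
  neg_mem' := fun ha => ⟨neg_mem ha.1, fun g => by rw [smul_neg, ha.2]⟩

variable {A G}

theorem mem_intFixed {x : K} : x ∈ intFixed A G ↔ x ∈ A ∧ ∀ g : G, g • x = x := Iff.rfl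

/-- The standing hypotheses on `p`. -/
structure Unramified (A : ValuationSubring K) (G : Type*) [Group G] [MulSemiringAction G K]
    (p : ℕ) : Prop where
  p_nonunit : (p : K) ∈ A.nonunits
  p_ne_zero : (p : K) ≠ 0
  smul_mem : ∀ g : G, ∀ x ∈ A, g • x ∈ A
  exists_pow_mul : ∀ x : K, (∀ g : G, g • x = x) → ∃ n : ℕ, (p : K) ^ n * x ∈ A
  dvd_of_nonunit : ∀ x : K, (∀ g : G, g • x = x) → x ∈ A.nonunits → ∃ w ∈ A, x = p * w

namespace Unramified

variable {p : ℕ} (h : Unramified A G p)

include h

theorem natCast_smul (g : G) : g • (p : K) = p := map_natCast (MulSemiringAction.toRingHom G K g) p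

theorem pow_smul (g : G) (n : ℕ) : g • (p : K) ^ n = (p : K) ^ n := by
  rw [smul_pow', h.natCast_smul]

theorem p_mem : (p : K) ∈ A := A.valuation_le_one_iff _ |>.mp h.p_nonunit.le

theorem pow_mem_intFixed (n : ℕ) : (p : K) ^ n ∈ intFixed A G :=
  ⟨pow_mem h.p_mem n, fun g => h.pow_smul g n⟩

theorem inv_pow_smul (g : G) (n : ℕ) : g • ((p : K) ^ n)⁻¹ = ((p : K) ^ n)⁻¹ := by
  rw [smul_inv'', h.pow_smul]

omit h in
/-- The element `p` of `W`. -/
def pW {p : ℕ} (hp : Unramified A G p) : intFixed A G :=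
  ⟨p, by simpa using hp.pow_mem_intFixed 1⟩

theorem not_isUnit_pW : ¬ IsUnit h.pW := by
  rintro ⟨u, hu⟩
  have h1 : (p : K) * ((u⁻¹ : (intFixed A G)ˣ) : intFixed A G) = 1 := by
    have := congrArg Subtype.val u.mul_inv
    rwa [hu] at this
  have h2 := ((u⁻¹ : (intFixed A G)ˣ) : intFixed A G).2.1
  have h3 : A.valuation (p : K) < 1 := h.p_nonunit
  have h4 := congrArg A.valuation h1
  rw [map_mul, map_one] at h4
  have h5 := (A.valuation_le_one_iff _).mpr h2
  exact absurd h4 (ne_of_lt (mul_lt_one_of_lt_of_le h3 h5))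

theorem pW_ne_zero : h.pW ≠ 0 := fun h0 => h.p_ne_zero (congrArg Subtype.val h0)

theorem not_pW_pow_dvd_lower {n : ℕ} : ¬ h.pW ^ (n + 1) ∣ h.pW ^ n := by
  rintro ⟨c, hc⟩
  rw [pow_succ, mul_assoc] at hc
  have h1 : h.pW * c = 1 :=
    mul_left_cancel₀ (pow_ne_zero n h.pW_ne_zero) (by rw [← hc, mul_one])
  exact h.not_isUnit_pW (IsUnit.of_mul_eq_one c h1)

theorem dvd_of_not_isUnit {x : intFixed A G} (hx : ¬ IsUnit x) : h.pW ∣ x := by
  by_cases hx0 : x = 0
  · exact hx0 ▸ dvd_zero _
  have hxK : (x : K) ≠ 0 := fun e => hx0 (Subtype.ext e)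
  have hnon : (x : K) ∈ A.nonunits := by
    by_contra hn
    have hinv : (x : K)⁻¹ ∈ A := by
      rw [← A.valuation_le_one_iff, map_inv₀, inv_le_one₀ (zero_lt_iff.mpr ((map_ne_zero _).mpr hxK))]
      exact not_lt.mp hn
    exact hx (IsUnit.of_mul_eq_one ⟨_, hinv, fun g => by rw [smul_inv'', x.2.2]⟩
      (Subtype.ext (mul_inv_cancel₀ hxK)))
  obtain ⟨w, hw, hwx⟩ := h.dvd_of_nonunit _ x.2.2 hnon
  refine ⟨⟨w, hw, fun g => ?_⟩, Subtype.ext hwx⟩
  have h1 : g • ((p : K) * w) = (p : K) * w := by rw [← hwx]; exact x.2.2 g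
  rw [smul_mul', h.natCast_smul] at h1
  exact mul_left_cancel₀ h.p_ne_zero h1

theorem hasUnitMulPowIrreducibleFactorization :
    IsDiscreteValuationRing.HasUnitMulPowIrreducibleFactorization (intFixed A G) := by
  refine ⟨h.pW, ⟨h.not_isUnit_pW, fun a b hab => ?_⟩, fun {x} hx => ?_⟩
  · by_contra hcon
    rw [not_or] at hcon
    obtain ⟨a', rfl⟩ := h.dvd_of_not_isUnit hcon.1
    obtain ⟨b', rfl⟩ := h.dvd_of_not_isUnit hcon.2
    exact h.not_pW_pow_dvd_lower (n := 1) ⟨a' * b', by
      conv_lhs => rw [pow_one, hab]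
      ring⟩
  · obtain ⟨n, hn⟩ := h.exists_pow_mul (x : K)⁻¹ fun g => by rw [smul_inv'', x.2.2]
    have hxK : (x : K) ≠ 0 := fun e => hx (Subtype.ext e)
    have hdiv : x ∣ h.pW ^ n := by
      refine ⟨⟨_, hn, fun g => by rw [smul_mul', h.pow_smul, smul_inv'', x.2.2]⟩, Subtype.ext ?_⟩
      rw [SubmonoidClass.coe_pow, Subring.coe_mul]
      show (p : K) ^ n = x * ((p : K) ^ n * (x : K)⁻¹)
      field_simp
    clear hn hxK hx
    induction n generalizing x with
    | zero =>
      rw [pow_zero] at hdiv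
      exact ⟨0, by rw [pow_zero]; exact (associated_one_iff_isUnit.mpr (isUnit_of_dvd_one hdiv)).symm⟩
    | succ n IH =>
      by_cases hu : IsUnit x
      · exact ⟨0, by rw [pow_zero]; exact (associated_one_iff_isUnit.mpr hu).symm⟩
      obtain ⟨y, rfl⟩ := h.dvd_of_not_isUnit hu
      rw [pow_succ', mul_dvd_mul_iff_left h.pW_ne_zero] at hdiv
      obtain ⟨m, hm⟩ := IH hdiv
      exact ⟨m + 1, by rw [pow_succ']; exact hm.mul_left _⟩

theorem isPrincipalIdealRing : IsPrincipalIdealRing (intFixed A G) :=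
  haveI := IsDiscreteValuationRing.ofHasUnitMulPowIrreducibleFactorization
    h.hasUnitMulPowIrreducibleFactorization
  inferInstance

section Descent

variable {Y : Type*} [MulAction G Y]

/-- `W`-independent equivariant functions are `K`-independent. -/
theorem linearIndependent_of_equivariant {ι : Type*} (b : ι → Y → K)
    (hb : ∀ i (g : G) y, b i (g • y) = g • b i y) (hli : LinearIndependent (intFixed A G) b) :
    LinearIndependent K b := by
  classical
  rw [linearIndependent_iff']
  intro s
  induction hn : s.card using Nat.strong_induction_on generalizing s with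
  | _ n IH =>
    subst hn
    intro c hc i hi
    by_contra hci
    have key : ∀ d : ι → K, (∑ j ∈ s, d j • b j = 0) → d i = 0 → ∀ j ∈ s, d j = 0 := by
      intro d hd hdi j hj
      rw [← Finset.add_sum_erase s _ hi, hdi, zero_smul, zero_add] at hd
      rcases eq_or_ne j i with rfl | hji
      · exact hdi
      · exact IH _ (Finset.card_erase_lt_of_mem hi) (s.erase i) rfl d hd j
          (Finset.mem_erase.mpr ⟨hji, hj⟩)
    let d : ι → K := fun j => (c i)⁻¹ * c j
    have hd : ∑ j ∈ s, d j • b j = 0 := by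
      simp only [d, mul_smul, ← Finset.smul_sum, hc, smul_zero]
    have hfix : ∀ j ∈ s, ∀ g : G, g • d j = d j := by
      intro j hj g
      have hd' : ∑ j ∈ s, (g • d j) • b j = 0 := by
        funext y
        have h1 := congrArg (fun x : K => g • x) (congrFun hd (g⁻¹ • y))
        simp only [Finset.sum_apply, Pi.smul_apply, smul_eq_mul, Pi.zero_apply,
          Finset.smul_sum, smul_mul', smul_zero, ← hb, smul_inv_smul] at h1
        simpa [Finset.sum_apply] using h1
      have := key (fun j => g • d j - d j)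
        (by simp only [sub_smul, Finset.sum_sub_distrib, hd, hd', sub_zero])
        (by simp [d, inv_mul_cancel₀ hci]) j hj
      exact sub_eq_zero.mp this
    choose! m hm using fun j (hj : j ∈ s) => h.exists_pow_mul (d j) (hfix j hj)
    set N := s.sup m
    have hmem : ∀ j ∈ s, (p : K) ^ N * d j ∈ intFixed A G := fun j hj => by
      refine ⟨?_, fun g => by rw [smul_mul', h.pow_smul, hfix j hj]⟩
      obtain ⟨e, he⟩ := Nat.exists_eq_add_of_le (Finset.le_sup (f := m) hj)
      show (p : K) ^ N * d j ∈ A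
      rw [show N = e + m j by omega, pow_add, mul_assoc]
      exact mul_mem (pow_mem h.p_mem e) (hm j hj)
    let w : ι → intFixed A G := fun j => if hj : j ∈ s then ⟨_, hmem j hj⟩ else 0
    have hw : ∑ j ∈ s, w j • b j = 0 := by
      have e : ∀ j ∈ s, w j • b j = (p : K) ^ N • (d j • b j) := fun j hj => by
        funext y
        simp [w, hj, Subring.smul_def, mul_assoc]
      rw [Finset.sum_congr rfl e, ← Finset.smul_sum, hd, smul_zero]
    have h2 := congrArg Subtype.val ((linearIndependent_iff'.mp hli) s w hw i hi)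
    simp [w, hi, d, inv_mul_cancel₀ hci, h.p_ne_zero] at h2

/-- An equivariant function in the `A`-span of a finitely generated `W`-module of equivariant
functions lies in that module. -/
theorem mem_of_mem_span {D : Submodule (intFixed A G) (Y → K)} (hfin : D.FG)
    (hD : ∀ f ∈ D, ∀ (g : G) y, f (g • y) = g • f y) {f : Y → K}
    (hf : ∀ (g : G) y, f (g • y) = g • f y) (hspan : f ∈ Submodule.span A (D : Set (Y → K))) :
    f ∈ D := by
  classical
  haveI := h.isPrincipalIdealRing
  haveI : Module.Finite (intFixed A G) D := Module.Finite.iff_fg.mpr hfin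
  haveI : NoZeroSMulDivisors (intFixed A G) (Y → K) :=
    ⟨fun {c x} hcx => by
      refine or_iff_not_imp_left.mpr fun hc => funext fun y => ?_
      exact (mul_eq_zero.mp (congrFun hcx y)).resolve_left fun e => hc (Subtype.ext e)⟩
  let n := Module.finrank (intFixed A G) D
  haveI : Module.Free (intFixed A G) D := Module.free_of_finite_type_torsion_free'
  let B := Module.finBasis (intFixed A G) D
  let b : Fin n → Y → K := fun i => (B i : Y → K)
  have hliW : LinearIndependent (intFixed A G) b :=
    B.linearIndependent.map' D.subtype D.ker_subtype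
  have hbeq : ∀ i (g : G) y, b i (g • y) = g • b i y := fun i => hD _ (B i).2
  have hliK := h.linearIndependent_of_equivariant b hbeq hliW
  have hle : Submodule.span A (D : Set (Y → K)) ≤ Submodule.span A (Set.range b) := by
    refine Submodule.span_le.mpr fun d hd => ?_
    have he : ((∑ i, B.repr ⟨d, hd⟩ i • B i : D) : Y → K) = d :=
      congrArg Subtype.val (B.sum_repr ⟨d, hd⟩)
    show d ∈ _
    rw [← he, Submodule.coe_sum]
    refine sum_mem fun i _ => ?_
    have e : ((B.repr ⟨d, hd⟩ i • B i : D) : Y → K) =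
        (⟨(B.repr ⟨d, hd⟩ i : K), (B.repr ⟨d, hd⟩ i).2.1⟩ : A) • b i := rfl
    rw [e]
    exact Submodule.smul_mem _ _ (Submodule.subset_span ⟨i, rfl⟩)
  obtain ⟨c, hc⟩ := (Submodule.mem_span_range_iff_exists_fun A).mp (hle hspan)
  have hcK : ∑ i, (c i : K) • b i = f := hc
  have hfix : ∀ i (g : G), g • (c i : K) = c i := by
    intro i g
    have h1 : ∑ i, (g • (c i : K)) • b i = f := by
      funext y
      have := congrArg (fun x : K => g • x) (congrFun hcK (g⁻¹ • y))
      simp only [Finset.sum_apply, Pi.smul_apply, smul_eq_mul, Finset.smul_sum, smul_mul',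
        ← hbeq, ← hf, smul_inv_smul] at this
      simpa [Finset.sum_apply] using this
    have h2 : ∑ i, (g • (c i : K) - c i) • b i = 0 := by
      simp [sub_smul, Finset.sum_sub_distrib, h1, hcK]
    exact sub_eq_zero.mp ((Fintype.linearIndependent_iff.mp hliK) _ h2 i)
  have he : f = ∑ i, (⟨(c i : K), (c i).2, hfix i⟩ : intFixed A G) • b i := hcK.symm
  rw [he]
  exact sum_mem fun i _ => D.smul_mem _ (B i).2

end Descent

end Unramified

end FLTA.BadRed.Ordinary

end
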