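import Fermat.Agent.BadRed.Ordinary.Constants

/-!
# Gaps of the special fibre

There are `gF` polar positions `Γ` such that a glued pair whose polar part vanishes outside `Γ`
has no polar part at all.
-/

set_option autoImplicit false

noncomputable section

open AlgebraicCurve FLTA.Curves

namespace FLTA.BadRed.Ordinary

variable {K : Type*} [Field K] {A : ValuationSubring K} {k : Type*} [Field k] {π : A →+* k}
  {q : ℕ} [NeZero q] {F : Type*} [Field F] [Algebra K F] {F' : Type*} [Field F'] [Algebra K F']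
  {Fk : Type*} [Field Fk] [Algebra k Fk] {g gF : ℕ} {B : BadFibre A π q F F' Fk g gF}
  {S : Finset (Place k Fk)} {m₀ : ℕ}

/-- The polar positions of order at most `l`. -/
def poss (l : ℕ) : Finset (Fin 2 × ℤ) := Finset.univ ×ˢ Finset.Ico (-(l : ℤ)) 0

theorem mem_poss {l : ℕ} {γ : Fin 2 × ℤ} : γ ∈ poss l ↔ -(l : ℤ) ≤ γ.2 ∧ γ.2 < 0 := by
  simp [poss]

theorem card_poss (l : ℕ) : (poss l).card = 2 * l := by
  simp [poss, Finset.card_product]

theorem poss_mono {l l' : ℕ} (h : l ≤ l') : poss l ⊆ poss l' := fun γ hγ => by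
  rw [mem_poss] at hγ ⊢
  omega

theorem exk_smul (c : k) (x : Fk) : B.exk (c • x) = c • B.exk x := by
  rw [Algebra.smul_def, map_mul, AlgHom.commutes,
    ModularCurve.algebraMap_laurentSeries_eq_single]
  ext j
  simp

theorem exk_coeff_algebraMap (c : k) {j : ℤ} (hj : j ≠ 0) :
    (B.exk (algebraMap k Fk c)).coeff j = 0 := by
  rw [AlgHom.commutes, ModularCurve.algebraMap_laurentSeries_eq_single,
    HahnSeries.coeff_single_of_ne hj]

/-- The dimension of the untwisted gluing space. -/
theorem finrank_glued_one (hS : B.IsGluing S m₀) {l : ℕ} (hl : 2 * g + S.card ≤ l + 1) :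
    (Module.finrank k (B.glued hS l 1) : ℤ) = 2 * l + 1 - gF := by
  have := B.rrk.finiteDimensional (Finsupp.single B.infk (l : ℤ))
  rw [BadFibre.glued,
    ← (Submodule.equivMapOfInjective _ (B.pairsIncl_injective l) _).finrank_eq]
  have h := finrank_glueSpace (B.ev₁ hS l) (B.ev₀_surjective hS hl) (1 : S → k)
  have hL := BadFibre.finrank_riemannRochSpace_single B.rrk (P := B.infk) (m := l) (by omega)
  rw [Fintype.card_coe] at h
  have hc := hS.card_eq
  omega

/-- The gaps. -/
theorem exists_gaps (hS : B.IsGluing S m₀) (hne : S.Nonempty) :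
    ∃ (l₀ : ℕ) (Γ : Finset (Fin 2 × ℤ)), m₀ ≤ l₀ ∧ gF ≤ l₀ ∧ Γ ⊆ poss l₀ ∧ Γ.card = gF ∧
      ∀ p ∈ B.fibreSections l₀,
        (∀ γ ∈ poss l₀, γ ∉ Γ → (B.exk (p γ.1)).coeff γ.2 = 0) →
          ∀ γ ∈ poss l₀, (B.exk (p γ.1)).coeff γ.2 = 0 := by
  classical
  set l₀ := m₀ + gF + 2 * g + S.card with hl₀
  have hm₀ : m₀ ≤ l₀ := by omega
  have hsec : B.fibreSections l₀ = (B.glued hS l₀ 1 : Set (Fin 2 → Fk)) :=
    B.fibreSections_eq_glued hS hm₀
  let ψ : B.glued hS l₀ 1 →ₗ[k] (poss l₀ → k) :=
    { toFun := fun p γ => (B.exk ((p : Fin 2 → Fk) γ.1.1)).coeff γ.1.2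
      map_add' := fun p p' => funext fun γ => by simp
      map_smul' := fun c p => funext fun γ => by simp [exk_smul] }
  have := B.rrk.finiteDimensional (Finsupp.single B.infk (l₀ : ℤ))
  have : FiniteDimensional k (B.glued hS l₀ 1) := Module.Finite.map _ _
  have hone : (fun _ : Fin 2 => (1 : Fk)) ∈ B.glued hS l₀ 1 := by
    rw [BadFibre.mem_glued]
    refine ⟨fun i => ?_, fun Q => ?_⟩
    · rw [mem_riemannRochSpace_iff]
      refine fun v => Or.inr ?_
      rw [Place.ord_one, Finsupp.single_apply]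
      split_ifs <;> simp
    · simp [BadFibre.placeVal_one (B.rrk.deg_eq_one _)]
  have hker : Module.finrank k (LinearMap.ker ψ) = 1 := by
    refine finrank_eq_one (⟨⟨_, hone⟩, ?_⟩ : LinearMap.ker ψ) ?_ ?_
    · refine LinearMap.mem_ker.mpr (funext fun γ => ?_)
      show (B.exk 1).coeff γ.1.2 = 0
      rw [← map_one (algebraMap k Fk), exk_coeff_algebraMap]
      exact (mem_poss.mp γ.2).2.ne
    · intro h
      have h1 := congrFun (congrArg Subtype.val (congrArg Subtype.val h)) 0
      exact one_ne_zero (α := Fk) h1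
    · rintro ⟨⟨p, hp⟩, hpk⟩
      have hp' : p ∈ B.fibreSections l₀ := by rw [hsec]; exact hp
      obtain ⟨c, hc⟩ := exists_const_of_noPole hS hne hm₀ hp' fun i j hj => by
        by_cases hjl : -(l₀ : ℤ) ≤ j
        · exact congrFun (LinearMap.mem_ker.mp hpk) ⟨(i, j), mem_poss.mpr ⟨hjl, hj⟩⟩
        · have hi := ((hS.mem_iff l₀ hm₀ p).mp hp').1 i
          rcases eq_or_ne (p i) 0 with h0 | h0
          · simp [h0]
          apply HahnSeries.coeff_eq_zero_of_lt_order
          have := (mem_riemannRochSpace_iff.mp hi B.infk).resolve_left h0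
          rw [Finsupp.single_eq_same, B.ord_infk _ h0] at this
          omega
      refine ⟨c, Subtype.ext (Subtype.ext (funext fun i => ?_))⟩
      show c • (1 : Fk) = p i
      rw [hc i, Algebra.smul_def, mul_one]
  have hrange : (Module.finrank k (LinearMap.range ψ) : ℤ) = 2 * l₀ - gF := by
    have h1 := ψ.finrank_range_add_finrank_ker
    have h2 := finrank_glued_one hS (l := l₀) (by omega)
    rw [hker] at h1
    omega
  set v : poss l₀ → ((poss l₀ → k) ⧸ LinearMap.range ψ) :=
    fun γ => Submodule.mkQ _ (Pi.single γ 1) with hv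
  obtain ⟨κ, a, ha, hspan, hli⟩ := exists_linearIndependent' k v
  have hvtop : Submodule.span k (Set.range v) = ⊤ := by
    rw [hv, show (fun γ : poss l₀ => Submodule.mkQ (LinearMap.range ψ) (Pi.single γ (1 : k))) =
      (Submodule.mkQ (LinearMap.range ψ)) ∘ fun γ => Pi.single γ (1 : k) from rfl,
      Set.range_comp, ← Submodule.map_span,
      show Submodule.span k (Set.range fun γ : poss l₀ => (Pi.single γ (1 : k) : poss l₀ → k)) = ⊤ by
        convert (Pi.basisFun k (poss l₀)).span_eq using 3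
        funext γ
        simp,
      Submodule.map_top, Submodule.range_mkQ]
  let : Fintype κ := Fintype.ofInjective a ha
  have hcard : (Fintype.card κ : ℤ) = gF := by
    have h1 : Module.finrank k ((poss l₀ → k) ⧸ LinearMap.range ψ) = Fintype.card κ :=
      Module.finrank_eq_card_basis (Module.Basis.mk hli (by rw [hspan, hvtop]))
    have h2 := Submodule.finrank_quotient_add_finrank (LinearMap.range ψ)
    rw [Module.finrank_pi, Fintype.card_coe, card_poss, h1] at h2
    omega
  refine ⟨l₀, Finset.univ.image fun j => (a j : Fin 2 × ℤ), hm₀, by omega, ?_, ?_, ?_⟩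
  · intro γ hγ
    obtain ⟨j, -, rfl⟩ := Finset.mem_image.mp hγ
    exact (a j).2
  · rw [Finset.card_image_of_injective _ (fun i j h => ha (Subtype.ext h)), Finset.card_univ]
    exact_mod_cast hcard
  intro p hp h γ hγ
  rw [hsec] at hp
  set x := ψ ⟨p, hp⟩ with hx
  have hxsum : x = ∑ j, x (a j) • (Pi.single (a j) (1 : k) : poss l₀ → k) := by
    funext δ
    rw [Finset.sum_apply]
    by_cases hδ : ∃ j, a j = δ
    · obtain ⟨j, rfl⟩ := hδ
      rw [Finset.sum_eq_single j]
      · simp
      · intro i _ hi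
        simp [(ha.ne hi).symm]
      · simp
    · push Not at hδ
      rw [Finset.sum_eq_zero fun i _ => by simp [(hδ i).symm]]
      exact h δ δ.2 (by simpa using fun j e => hδ j (Subtype.ext e))
  have h0 : ∑ j, x (a j) • (v ∘ a) j = 0 := by
    simp only [Function.comp_apply, hv, ← map_smul, ← map_sum, ← hxsum]
    rw [Submodule.mkQ_apply, Submodule.Quotient.mk_eq_zero]
    exact ⟨⟨p, hp⟩, rfl⟩
  have hz := linearIndependent_iff'.mp hli Finset.univ (fun j => x (a j)) h0
  have : x = 0 := by
    rw [hxsum]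
    exact Finset.sum_eq_zero fun j _ => by rw [hz j (Finset.mem_univ _), zero_smul]
  exact congrFun this ⟨γ, hγ⟩

end FLTA.BadRed.Ordinary

end
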