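import Fermat.Agent.Congruence.AtkinLehner
import Fermat.Agent.Curves.GenusModular
import Fermat.Agent.PlaceRed.Interface
import Mathlib.Algebra.Polynomial.Roots
import Mathlib.Data.ZMod.Basic

/-!
# The genus at level `N q` is at least twice the genus at level `N`
-/

set_option autoImplicit false

noncomputable section

open ModularCurve

namespace FLTA.BadRed

variable (N q : ℕ) [NeZero N] [NeZero q] [hq : Fact q.Prime]

theorem card_quadratic_roots_le (b : ℤ) :
    Nat.card {x : ZMod q // x ^ 2 + (b : ZMod q) * x + 1 = 0} ≤ 2 := by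
  classical
  set f : Polynomial (ZMod q) :=
    Polynomial.X ^ 2 + Polynomial.C (b : ZMod q) * Polynomial.X + 1 with hf
  have hd : f.natDegree ≤ 2 := by rw [hf]; compute_degree
  have hf0 : f ≠ 0 := fun h => by
    have h2 := congrArg (fun p => Polynomial.coeff p 2) h
    simp [hf, Polynomial.coeff_one, -map_intCast] at h2
  calc Nat.card {x : ZMod q // x ^ 2 + (b : ZMod q) * x + 1 = 0}
      ≤ Nat.card f.roots.toFinset :=
        Nat.card_le_card_of_injective (fun x => ⟨x.1, by
          rw [Multiset.mem_toFinset, Polynomial.mem_roots hf0]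
          simpa [hf] using x.2⟩) fun x y h => by
          simpa [Subtype.ext_iff] using h
    _ = f.roots.toFinset.card := Nat.card_eq_finsetCard _
    _ ≤ 2 := ((Multiset.toFinset_card_le _).trans (Polynomial.card_roots' f)).trans hd

theorem card_quadratic_roots_mul_le (hqN : ¬ q ∣ N) (b : ℤ) :
    Nat.card {x : ZMod (N * q) // x ^ 2 + (b : ZMod (N * q)) * x + 1 = 0} ≤
      2 * Nat.card {x : ZMod N // x ^ 2 + (b : ZMod N) * x + 1 = 0} := by
  classical
  have hcop : N.Coprime q := (hq.out.coprime_iff_not_dvd.mpr hqN).symm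
  let e := ZMod.chineseRemainder hcop
  have key : ∀ x : ZMod (N * q), x ^ 2 + (b : ZMod (N * q)) * x + 1 = 0 →
      (e x).1 ^ 2 + (b : ZMod N) * (e x).1 + 1 = 0 ∧
        (e x).2 ^ 2 + (b : ZMod q) * (e x).2 + 1 = 0 := fun x hx => by
    have h := congrArg e hx
    simp only [map_add, map_mul, map_pow, map_one, map_zero, map_intCast, Prod.ext_iff] at h
    simpa using h
  calc Nat.card {x : ZMod (N * q) // x ^ 2 + (b : ZMod (N * q)) * x + 1 = 0}
      ≤ Nat.card ({x : ZMod N // x ^ 2 + (b : ZMod N) * x + 1 = 0} ×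
          {x : ZMod q // x ^ 2 + (b : ZMod q) * x + 1 = 0}) :=
        Nat.card_le_card_of_injective
          (fun x => (⟨(e x.1).1, (key x.1 x.2).1⟩, ⟨(e x.1).2, (key x.1 x.2).2⟩)) fun x y h => by
          simp only [Prod.ext_iff, Subtype.ext_iff] at h
          exact Subtype.ext (e.injective (Prod.ext h.1 h.2))
    _ = Nat.card {x : ZMod N // x ^ 2 + (b : ZMod N) * x + 1 = 0} *
          Nat.card {x : ZMod q // x ^ 2 + (b : ZMod q) * x + 1 = 0} := Nat.card_prod _ _
    _ ≤ _ := by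
      rw [mul_comm 2]
      exact Nat.mul_le_mul_left _ (card_quadratic_roots_le q b)

theorem nuTwo_mul_le (hqN : ¬ q ∣ N) : nuTwo (N * q) ≤ 2 * nuTwo N := by
  simpa [nuTwo] using card_quadratic_roots_mul_le N q hqN 0

theorem nuThree_mul_le (hqN : ¬ q ∣ N) : nuThree (N * q) ≤ 2 * nuThree N := by
  simpa [nuThree] using card_quadratic_roots_mul_le N q hqN 1

omit [NeZero q] in
theorem cuspCount_mul (hqN : ¬ q ∣ N) : cuspCount (N * q) = 2 * cuspCount N := by
  classical
  have hN : N ≠ 0 := NeZero.ne N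
  have hqp := hq.out
  have hcop : N.Coprime q := (hqp.coprime_iff_not_dvd.mpr hqN).symm
  have hset : (N * q).divisors = N.divisors ∪ N.divisors.image (· * q) := by
    ext d
    simp only [Finset.mem_union, Finset.mem_image, Nat.mem_divisors]
    constructor
    · rintro ⟨hd, -⟩
      by_cases hl : q ∣ d
      · obtain ⟨e, rfl⟩ := hl
        exact Or.inr ⟨e, ⟨Nat.dvd_of_mul_dvd_mul_left hqp.pos (by rwa [mul_comm N q] at hd), hN⟩,
          mul_comm e q⟩
      · exact Or.inl ⟨(hqp.coprime_iff_not_dvd.mpr hl).symm.dvd_of_dvd_mul_right hd, hN⟩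
    · rintro (⟨hd, -⟩ | ⟨e, ⟨he, -⟩, rfl⟩)
      · exact ⟨hd.mul_right q, mul_ne_zero hN hqp.ne_zero⟩
      · exact ⟨mul_dvd_mul he dvd_rfl, mul_ne_zero hN hqp.ne_zero⟩
  have hdisj : Disjoint N.divisors (N.divisors.image (· * q)) := by
    rw [Finset.disjoint_left]
    intro d hd hd'
    obtain ⟨e, -, rfl⟩ := Finset.mem_image.1 hd'
    exact hqN ((dvd_mul_left q e).trans (Nat.dvd_of_mem_divisors hd))
  have hq' : ∀ d ∈ N.divisors, d.Coprime q := fun d hd =>
    hcop.coprime_dvd_left (Nat.dvd_of_mem_divisors hd)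
  rw [cuspCount, cuspCount, hset, Finset.sum_union hdisj,
    Finset.sum_image (fun a _ b _ h => Nat.eq_of_mul_eq_mul_right hqp.pos h), two_mul]
  congr 1 <;> refine Finset.sum_congr rfl fun d hd => ?_
  · rw [Nat.mul_div_right_comm (Nat.dvd_of_mem_divisors hd),
      Nat.Coprime.gcd_mul_right_cancel_right (N / d) (hq' d hd).symm]
  · rw [Nat.mul_div_mul_right N d hqp.pos, Nat.Coprime.gcd_mul_right_cancel d
      (hcop.coprime_dvd_left (Nat.div_dvd_of_dvd (Nat.dvd_of_mem_divisors hd))).symm]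

/-- `g(X₀(N q)) ≥ 2 g(X₀(N))` for a prime `q` not dividing `N`. -/
theorem two_mul_genusX0_le (hqN : ¬ q ∣ N) :
    2 * FLTA.PlaceRed.genusX0 N ≤ FLTA.PlaceRed.genusX0 (N * q) := by
  have h1 : (FLTA.PlaceRed.genusX0 N : ℚ) = genusFormula N :=
    FLTA.Curves.genusFF_modularFunctionFieldBar N
  have h2 : (FLTA.PlaceRed.genusX0 (N * q) : ℚ) = genusFormula (N * q) :=
    FLTA.Curves.genusFF_modularFunctionFieldBar (N * q)
  rw [genusFormula] at h1 h2
  rw [FLTA.Congruence.dedekindPsi_mul_prime N q hq.out hqN, cuspCount_mul N q hqN] at h2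
  push_cast at h1 h2
  have hnu2 : (nuTwo (N * q) : ℚ) ≤ 2 * nuTwo N := by exact_mod_cast nuTwo_mul_le N q hqN
  have hnu3 : (nuThree (N * q) : ℚ) ≤ 2 * nuThree N := by exact_mod_cast nuThree_mul_le N q hqN
  have hψ : 0 < ((q : ℚ) - 1) * dedekindPsi N := by
    refine mul_pos (sub_pos.2 (by exact_mod_cast hq.out.one_lt)) ?_
    exact_mod_cast FLTA.Congruence.dedekindPsi_pos N
  have : (2 * (FLTA.PlaceRed.genusX0 N : ℤ) : ℤ) < FLTA.PlaceRed.genusX0 (N * q) + 1 := by
    rw [← Int.cast_lt (R := ℚ)]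
    push_cast
    rw [h1, h2]
    linarith
  omega

end FLTA.BadRed

end
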