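import Fermat.Agent.BadRed.Kummer
import Fermat.Agent.BadRed.Fibre.Regular
import Fermat.Agent.Curves.BasicCurve

/-!
# The Eichler-Shimura congruence at `q` on the `q`-torsion of the lower level

For a class `x` of level `N'` killed by `q`, the classes `a^* (T x)` and `Frob • a^* x` differ
by a toric class, `T = a_* (w a)^*` being the Hecke operator at `q`.
-/

set_option autoImplicit false

noncomputable section

open AlgebraicCurve FLTA.Curves

namespace FLTA.BadRed.BadFibre

variable {K : Type*} [Field K] [IsAlgClosed K] [CharZero K] {A : ValuationSubring K}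
  {k : Type*} [Field k] [IsAlgClosed k] {π : A →+* k}
  {q : ℕ} [NeZero q] [Fact q.Prime] [CharP k q]
  {F : Type*} [Field F] [Algebra K F] {F' : Type*} [Field F'] [Algebra K F']
  {Fk : Type*} [Field Fk] [Algebra k Fk] {g gF : ℕ} (B : BadFibre A π q F F' Fk g gF)

/-- Elements of the good reduction reduce on both components. -/
theorem hasRed_a (x : B.R.O) :
    B.HasRed 0 (B.a (x : F')) (B.R.red x) ∧ B.HasRed 1 (B.a (x : F')) (B.iota (B.R.red x)) :=
  ⟨B.hasRed_iff.mpr (B.a_mem_side_zero x), B.hasRed_iff.mpr (B.a_mem_side_one x)⟩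

omit [IsAlgClosed K] [CharZero K] [IsAlgClosed k] in
theorem frobq_smul_iota (x : Fk) : B.frobq • B.iota x = B.iota (B.frobq • x) := by
  rw [B.iota_eq, B.iota_eq, smul_pow', smul_inv_smul, inv_smul_smul]

/-- The reduction behind `T ≡ Frob` modulo toric classes. -/
theorem reducesToPow_norm_div (s : B.Sym) (hs : s.IsFrob) {h : F'} (hh : h ≠ 0) :
    B.ReducesToPow q (B.a (B.normA (B.w (B.a h))) * (s.σ • B.a h)⁻¹) := by
  obtain ⟨c, H, hc, hH, hη⟩ := B.exists_smul_red_ne_zero hh
  set η := B.R.red H with hηdef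
  obtain ⟨h0, h1⟩ := B.hasRed_a H
  rw [← hηdef, hH, map_smul] at h0 h1
  have hη1 : B.iota η ≠ 0 := (map_ne_zero B.iota).mpr hη
  have hf0 : B.HasRed 0 (c • B.w (B.a h)) (B.iota η) := by
    rw [← map_smul]; exact B.hasRed_w_iff (by decide) h1
  have hf1 : B.HasRed 1 (c • B.w (B.a h)) η := by
    rw [← map_smul]; exact B.hasRed_w_iff (by decide) h0
  obtain ⟨hx, hred⟩ := B.hasRed_normA hf0 hf1 hη1 hη
  obtain ⟨n0, n1⟩ := B.hasRed_a ⟨_, hx⟩
  rw [hred, map_smul] at n0 n1
  have hcc : c * c ^ q ≠ 0 := mul_ne_zero hc (pow_ne_zero _ hc)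
  have hfη : B.frobq • η ≠ 0 := (smul_ne_zero_iff_ne _).mpr hη
  have hfη1 : B.frobq • B.iota η ≠ 0 := (smul_ne_zero_iff_ne _).mpr hη1
  have r0 := n0.mul ((h0.sym s).inv (by rwa [B.frob_smul_fk s hs]))
  have r1 := n1.mul ((h1.sym s).inv (by rwa [B.frob_smul_fk s hs]))
  rw [B.frob_smul_fk s hs, semilinear_smul_smul, smul_mul_inv_smul] at r0 r1
  have hd : c * c ^ q / SemilinearAut.baseAut s.σ c ≠ 0 :=
    div_ne_zero hcc ((map_ne_zero _).mpr hc)
  refine Fin.forall_fin_two.mpr ⟨⟨_, B.frobq⁻¹ • η, hd, (smul_ne_zero_iff_ne _).mpr hη, ?_⟩,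
    ⟨_, B.frobq⁻¹ • B.iota η, hd, (smul_ne_zero_iff_ne _).mpr hη1, ?_⟩⟩
  · rw [← B.iota_eq]
    rwa [mul_assoc, mul_inv_cancel₀ hfη, mul_one] at r0
  · rw [← B.iota_eq]
    rwa [map_mul, ← B.frobq_smul_iota η, mul_assoc, mul_inv_cancel₀ hfη1, mul_one] at r1

section Classes

variable [HasPrincipalDivisors K F]

/-- Pullback of classes along a map of function fields. -/
def pullPic (φ : F' →ₐ[K] F) (hint : φ.toRingHom.IsIntegral)
    (hFI : FundamentalIdentityAlong K φ hint) : Pic0 K F' →+ Pic0 K F :=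
  QuotientAddGroup.map _ _
    (((Divisor.pullbackAlong φ hint).domRestrict
      (Divisor.degZero (K := K) (F := F'))).codRestrict _
      fun D => Divisor.pullbackAlong_mem_degZero φ hint hFI D.2)
    (by
      rintro ⟨D, hD0⟩ hD
      simp only [AddSubgroup.mem_addSubgroupOf] at hD ⊢
      exact Divisor.isPrincipal_pullbackAlong φ hint hD)

omit [IsAlgClosed K] [CharZero K] in
theorem pullPic_mk (φ : F' →ₐ[K] F) (hint : φ.toRingHom.IsIntegral)
    (hFI : FundamentalIdentityAlong K φ hint) (D : Divisor.degZero (K := K) (F := F')) :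
    pullPic φ hint hFI (Pic0.mk D) = Pic0.mk
      ⟨Divisor.pullbackAlong φ hint D, Divisor.pullbackAlong_mem_degZero φ hint hFI D.2⟩ :=
  rfl

omit [IsAlgClosed K] [CharZero K] in
/-- The pullback of a Kummer function. -/
theorem kummerFn_pullback {n : ℕ} (φ : F' →ₐ[K] F) (hint : φ.toRingHom.IsIntegral)
    {E : Divisor K F'} {h : F'} (hh : h ≠ 0) (hE : ∀ P, (n : ℤ) * E P = P.ord h) :
    KummerFn n (Divisor.pullbackAlong φ hint E) (φ h) where
  ne_zero := (map_ne_zero φ).mpr hh
  ord_eq P := by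
    rw [Divisor.pullbackAlong_apply, Place.ord_restrictAlong φ hint, ← hE, mul_left_comm]

omit [IsAlgClosed K] [CharZero K] [HasPrincipalDivisors K F] in
/-- The pushforward of a Kummer function is its norm. -/
theorem ord_norm_of_kummerFn {n : ℕ} (φ : F' →ₐ[K] F) (hint : φ.toRingHom.IsIntegral)
    (hfin : FiniteAlong K φ) (hN : NormFormulaAlong K φ hfin) {D : Divisor K F} {f : F}
    (hf : KummerFn n D f) :
    (letI := algebraAlong φ; Algebra.norm F' f) ≠ 0 ∧
      ∀ v : Place K F', (n : ℤ) * Divisor.pushforwardAlong φ hint D v =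
        v.ord (letI := algebraAlong φ; Algebra.norm F' f) := by
  letI := algebraAlong φ
  haveI := isScalarTower_along φ
  haveI := isIntegral_along φ hint
  haveI : Module.Finite F' F := hfin
  refine ⟨Algebra.norm_ne_zero_iff.mpr hf.ne_zero, fun v => ?_⟩
  rw [← hN f hf.ne_zero ((n : ℤ) • D) (fun w => by rw [Finsupp.smul_apply, smul_eq_mul, hf.ord_eq])
    v]
  show (n : ℤ) * Divisor.pushforward F' D v = _
  rw [map_zsmul, Finsupp.smul_apply, smul_eq_mul]

/-- **Eichler-Shimura at `q`.** -/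
theorem isToric_pullPic_correspondence_sub [HasPrincipalDivisors K F']
    (hint : B.a.toRingHom.IsIntegral) (hint' : (B.w.comp B.a).toRingHom.IsIntegral)
    (hFI : FundamentalIdentityAlong K B.a hint)
    (hFI' : FundamentalIdentityAlong K (B.w.comp B.a) hint')
    (hN : NormFormulaAlong K B.a B.finite_a) (s : B.Sym) (hs : s.IsFrob)
    {x : Pic0 K F'} (hx : q • x = 0) :
    B.IsToric q (pullPic B.a hint hFI
        (Pic0.correspondence (B.w.comp B.a) B.a hint' hint hFI' B.finite_a hN x) -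
      s.σ • pullPic B.a hint hFI x) := by
  obtain ⟨E, rfl⟩ := Pic0.mk_surjective x
  have hnE : q • E ∈ (Divisor.principal (K := K) (F := F')).addSubgroupOf _ :=
    (QuotientAddGroup.eq_zero_iff _).mp hx
  obtain ⟨h, hh, hhE⟩ := hnE
  have hE : ∀ P : Place K F', (q : ℤ) * (E : Divisor K F') P = P.ord h := fun P => by
    have e := hhE P
    rwa [AddSubgroup.coe_subtype, AddSubgroupClass.coe_nsmul, Finsupp.smul_apply,
      nsmul_eq_mul] at e
  have k1 := kummerFn_pullback (B.w.comp B.a) hint' hh hE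
  obtain ⟨hne, hord⟩ := ord_norm_of_kummerFn B.a hint B.finite_a hN k1
  have k2 := kummerFn_pullback B.a hint hne hord
  have k3 := (kummerFn_pullback B.a hint hh hE).conj s.σ
  rw [Pic0.correspondence_mk, pullPic_mk, pullPic_mk, SemilinearAut.pic0_smul_mk]
  refine ⟨_, _, mul_ne_zero k2.ne_zero (inv_ne_zero k3.ne_zero), rfl, fun P => ?_,
    B.reducesToPow_norm_div s hs hh⟩
  rw [P.ord_mul k2.ne_zero (inv_ne_zero k3.ne_zero), P.ord_inv, ← k2.ord_eq, ← k3.ord_eq,
    AddSubgroupClass.coe_sub, Finsupp.sub_apply, mul_sub, ← sub_eq_add_neg]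
  rfl

end Classes

end FLTA.BadRed.BadFibre

end
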