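import Fermat.Agent.BadRed.Toric.Twist
import Fermat.Agent.BadRed.Ordinary.Fixed

/-!
# A group of inertia symmetries
-/

set_option autoImplicit false

noncomputable section

open AlgebraicCurve FLTA.Curves

namespace FLTA.BadRed.Ordinary

variable {K : Type*} [Field K] {A : ValuationSubring K} {k : Type*} [Field k] {π : A →+* k}
  {q : ℕ} [NeZero q] {F : Type*} [Field F] [Algebra K F] {F' : Type*} [Field F'] [Algebra K F']
  {Fk : Type*} [Field Fk] [Algebra k Fk] {g gF : ℕ}

/-- A group acting on `K` through inertia symmetries of the fibre. -/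
structure InertiaData (B : BadFibre A π q F F' Fk g gF) (G : Type*) [Group G]
    [MulSemiringAction G K] where
  /-- the symmetry -/
  sy : G → B.Sym
  base : ∀ (γ : G) (c : K), SemilinearAut.baseAut (sy γ).σ c = γ • c
  inertia : ∀ γ : G, (sy γ).IsInertia

namespace InertiaData

variable {B : BadFibre A π q F F' Fk g gF} {G : Type*} [Group G] [MulSemiringAction G K]
  (I : InertiaData B G)

include I

theorem smul_mem (γ : G) {c : K} (hc : c ∈ A) : γ • c ∈ A := by
  rw [← I.base]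
  exact ((I.sy γ).mem_iff c).mpr hc

theorem mem_of_smul_mem (γ : G) {c : K} (hc : γ • c ∈ A) : c ∈ A :=
  ((I.sy γ).mem_iff c).mp (by rwa [I.base])

theorem residue_smul (γ : G) (c : A) : π ⟨γ • (c : K), I.smul_mem γ c.2⟩ = π c := by
  have h := (I.sy γ).π_comm c
  rw [I.inertia γ] at h
  rw [← h]
  exact congrArg π (Subtype.ext (I.base γ c).symm)

theorem coeff_e (γ : G) (i : Fin 2) (x : F) (j : ℤ) :
    (B.e i ((I.sy γ).σ • x)).coeff j = γ • (B.e i x).coeff j := by
  rw [← I.base]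
  fin_cases i
  · exact (I.sy γ).ex_σ x j
  · show (B.ex (B.w ((I.sy γ).σ • x))).coeff j = _
    rw [(I.sy γ).w_σ]
    exact (I.sy γ).ex_σ (B.w x) j

theorem order_e (γ : G) (i : Fin 2) (x : F) :
    (B.e i ((I.sy γ).σ • x)).order = (B.e i x).order := by
  rcases eq_or_ne x 0 with rfl | hx
  · rw [smul_zero]
  have h1 : B.e i x ≠ 0 := B.e_ne_zero i hx
  have h2 : B.e i ((I.sy γ).σ • x) ≠ 0 := B.e_ne_zero i ((smul_ne_zero_iff_ne _).mpr hx)
  refine le_antisymm (HahnSeries.order_le_of_coeff_ne_zero ?_)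
    (HahnSeries.order_le_of_coeff_ne_zero fun h => ?_)
  · rw [I.coeff_e]
    exact (smul_ne_zero_iff_ne _).mpr (mt HahnSeries.coeff_order_eq_zero.mp h1)
  · have h3 := mt HahnSeries.coeff_order_eq_zero.mp h2
    rw [I.coeff_e, h, smul_zero] at h3
    exact h3 rfl

theorem smul_P (γ : G) (i : Fin 2) : (I.sy γ).σ • B.P i = B.P i := by
  refine FLTA.Curves.place_ext_ord fun x => ?_
  obtain ⟨y, rfl⟩ : ∃ y, x = (I.sy γ).σ • y := ⟨(I.sy γ).σ⁻¹ • x, by rw [smul_inv_smul]⟩
  rw [SemilinearAut.ord_smul]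
  rcases eq_or_ne y 0 with rfl | hy
  · rw [smul_zero]
  rw [B.ord_P i hy, B.ord_P i ((smul_ne_zero_iff_ne _).mpr hy), I.order_e]

theorem smul_cuspDiv (γ : G) (m : ℕ) : (I.sy γ).σ • B.cuspDiv m = B.cuspDiv m := by
  rw [BadFibre.cuspDiv, smul_add, SemilinearAut.smul_single, SemilinearAut.smul_single, I.smul_P,
    I.smul_P]

theorem smul_mem_riemannRochSpace (γ : G) {D : Divisor K F} {x : F}
    (hx : x ∈ riemannRochSpace D) :
    (I.sy γ).σ • x ∈ riemannRochSpace ((I.sy γ).σ • D) := by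
  rw [mem_riemannRochSpace_iff] at hx ⊢
  intro v
  obtain ⟨u, rfl⟩ : ∃ u, v = (I.sy γ).σ • u := ⟨(I.sy γ).σ⁻¹ • v, by rw [smul_inv_smul]⟩
  rw [SemilinearAut.ord_smul, SemilinearAut.divisor_smul_apply_smul]
  refine (hx u).imp_left fun h => ?_
  rw [h, smul_zero]

theorem smul_algebraMap_mul (γ : G) (c : K) (x : F) :
    (I.sy γ).σ • (c • x) = (γ • c) • ((I.sy γ).σ • x) := by
  rw [Algebra.smul_def, smul_mul', SemilinearAut.smul_algebraMap, I.base, Algebra.smul_def]

/-- Conjugation by inertia does not change reductions. -/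
theorem redSeries_smul_eq (γ : G) (i : Fin 2) {x : F} (hx : IntSeries A (B.e i x)) :
    IntSeries A (B.e i ((I.sy γ).σ • x)) ∧
      redSeries A π (B.e i ((I.sy γ).σ • x)) = redSeries A π (B.e i x) := by
  have h : IntSeries A (B.e i ((I.sy γ).σ • x)) := fun j => by
    rw [I.coeff_e]
    exact I.smul_mem γ (hx j)
  refine ⟨h, ?_⟩
  ext j
  rw [redSeries_coeff, redSeries_coeff, I.coeff_e,
    show γ • (B.e i x).coeff j = ((⟨γ • (B.e i x).coeff j, I.smul_mem γ (hx j)⟩ : A) : K) from rfl,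
    redCoeff_coe]
  exact (I.residue_smul γ ⟨_, hx j⟩).trans (redCoeff_coe A π ⟨_, hx j⟩).symm

end InertiaData

end FLTA.BadRed.Ordinary

end
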