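import Fermat.Agent.GaloisReps.Plane

/-!
# An ordinary line from connected inertia torsion

`W k` are subgroups of `(ℤ/p^k)^r` containing the image of `σ - 1` for `σ` in `I`, compatible
with `ℤ/p → ℤ/p^(k+1)`, and such that the stable subgroups of `W 1` have no non-zero invariant
homomorphism to `ℤ/p`.  Then a stable saturated lattice with a non-zero residual invariant
functional is not spanned, even up to finite index, by the images of `σ - 1`.
-/

set_option autoImplicit false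
set_option linter.unusedSectionVars false

noncomputable section

open scoped Matrix

namespace FLTA.BadRed.Ordinary

open FLTA.GaloisReps (piAlgebraMap piAlgebraMap_apply piAlgebraMap_injective)

variable {p : ℕ} [Fact p.Prime] {r : ℕ}

/-- Reduction of a vector modulo `p ^ k`. -/
def modVec (k : ℕ) (v : Fin r → ℤ_[p]) : Fin r → ZMod (p ^ k) :=
  fun i => PadicInt.toZModPow k (v i)

theorem modVec_mulVec (k : ℕ) (M : Matrix (Fin r) (Fin r) ℤ_[p]) (v : Fin r → ℤ_[p]) :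
    modVec k (M *ᵥ v) = M.map (PadicInt.toZModPow k) *ᵥ modVec k v := by
  funext i
  exact RingHom.map_mulVec (PadicInt.toZModPow k) M v i

theorem modVec_sub (k : ℕ) (v w : Fin r → ℤ_[p]) : modVec k (v - w) = modVec k v - modVec k w :=
  funext fun _ => map_sub (PadicInt.toZModPow k) _ _

theorem modVec_add (k : ℕ) (v w : Fin r → ℤ_[p]) : modVec k (v + w) = modVec k v + modVec k w :=
  funext fun _ => map_add (PadicInt.toZModPow k) _ _

theorem modVec_zero (k : ℕ) : modVec k (0 : Fin r → ℤ_[p]) = 0 :=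
  funext fun _ => map_zero (PadicInt.toZModPow k)

variable {Γ : Type*} [Group Γ]

/-- Where inertia moves torsion, and connectedness at level one. -/
structure InertiaTorsion (rho : Γ →* Matrix (Fin r) (Fin r) ℤ_[p]) (I : Subgroup Γ) where
  /-- the subgroup of level `p ^ k` -/
  W : ∀ k : ℕ, AddSubgroup (Fin r → ZMod (p ^ k))
  move : ∀ (k : ℕ), ∀ σ ∈ I, ∀ v : Fin r → ℤ_[p], modVec k (rho σ *ᵥ v - v) ∈ W k
  descend : ∀ (k : ℕ) (v : Fin r → ℤ_[p]),
    modVec (k + 1) (fun i => (p : ℤ_[p]) ^ k * v i) ∈ W (k + 1) → modVec 1 v ∈ W 1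
  connected : ∀ X : AddSubgroup (Fin r → ZMod (p ^ 1)), X ≤ W 1 →
    ∀ hX : (∀ σ ∈ I, ∀ x ∈ X, (rho σ).map (PadicInt.toZModPow 1) *ᵥ x ∈ X),
    ∀ φ : X →+ ZMod p,
      (∀ (σ : Γ) (hσ : σ ∈ I) (x : X), φ ⟨_, hX σ hσ x x.2⟩ = φ x) → φ = 0

variable {rho : Γ →* Matrix (Fin r) (Fin r) ℤ_[p]} {I : Subgroup Γ}

/-- Connectedness passes to finite powers. -/
theorem InertiaTorsion.eq_zero_of_pow (H : InertiaTorsion rho I) {d : Type*}
    (Y : AddSubgroup (d → Fin r → ZMod (p ^ 1))) (hW : ∀ y ∈ Y, ∀ j, y j ∈ H.W 1)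
    (hY : ∀ σ ∈ I, ∀ y ∈ Y, (fun j => (rho σ).map (PadicInt.toZModPow 1) *ᵥ y j) ∈ Y)
    (φ : Y →+ ZMod p)
    (hφ : ∀ (σ : Γ) (hσ : σ ∈ I) (y : Y), φ ⟨_, hY σ hσ y y.2⟩ = φ y)
    (s : Finset d) (y : Y) (hy : ∀ j ∉ s, (y : d → Fin r → ZMod (p ^ 1)) j = 0) : φ y = 0 := by
  classical
  induction s using Finset.induction generalizing y with
  | empty =>
    have : y = 0 := Subtype.ext (funext fun j => hy j (Finset.notMem_empty j))
    rw [this, map_zero]
  | @insert j₀ s hj₀ IH =>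
    let Y₀ : AddSubgroup Y :=
      { carrier := {z | ∀ j ∉ insert j₀ s, (z : d → Fin r → ZMod (p ^ 1)) j = 0}
        zero_mem' := fun j _ => rfl
        add_mem' := fun {a b} ha hb j hj => by
          show (a : d → Fin r → ZMod (p ^ 1)) j + (b : d → Fin r → ZMod (p ^ 1)) j = 0
          rw [ha j hj, hb j hj, add_zero]
        neg_mem' := fun {a} ha j hj => by
          show -(a : d → Fin r → ZMod (p ^ 1)) j = 0
          rw [ha j hj, neg_zero] }
    let ev : Y₀ →+ (Fin r → ZMod (p ^ 1)) :=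
      { toFun := fun z => ((z : Y) : d → Fin r → ZMod (p ^ 1)) j₀
        map_zero' := rfl
        map_add' := fun _ _ => rfl }
    have hwd : ∀ a b : Y₀, ev a = ev b → φ a = φ b := by
      intro a b hab
      rw [← sub_eq_zero, ← map_sub]
      refine IH _ fun j hj => ?_
      show ((a : Y) : d → Fin r → ZMod (p ^ 1)) j - ((b : Y) : d → Fin r → ZMod (p ^ 1)) j = 0
      rcases eq_or_ne j j₀ with rfl | hne
      · exact sub_eq_zero.2 hab
      · rw [a.2 j (by simp [hne, hj]), b.2 j (by simp [hne, hj]), sub_zero]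
    have hmem : ∀ σ ∈ I, ∀ z : Y₀, ∀ hz : (fun j => (rho σ).map (PadicInt.toZModPow 1) *ᵥ
        ((z : Y) : d → Fin r → ZMod (p ^ 1)) j) ∈ Y, (⟨_, hz⟩ : Y) ∈ Y₀ := by
      intro σ _ z hz j hj
      show (rho σ).map (PadicInt.toZModPow 1) *ᵥ ((z : Y) : d → Fin r → ZMod (p ^ 1)) j = 0
      rw [z.2 j hj, Matrix.mulVec_zero]
    have hXI : ∀ σ ∈ I, ∀ x ∈ ev.range,
        (rho σ).map (PadicInt.toZModPow 1) *ᵥ x ∈ ev.range := by
      rintro σ hσ _ ⟨z, rfl⟩
      exact ⟨⟨_, hmem σ hσ z (hY σ hσ _ (z : Y).2)⟩, rfl⟩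
    have hc : ∀ x : ev.range, ∃ z : Y₀, ev z = (x : Fin r → ZMod (p ^ 1)) := fun x => x.2
    choose lift hlift using hc
    let ψ : ev.range →+ ZMod p := AddMonoidHom.mk' (fun x => φ (lift x)) fun a b => by
      rw [← map_add, ← AddSubgroup.coe_add]
      exact hwd _ _ (by rw [map_add, hlift, hlift, hlift]; rfl)
    have h0 : ψ = 0 := H.connected ev.range (by rintro _ ⟨z, rfl⟩; exact hW _ (z : Y).2 j₀) hXI ψ
      fun σ hσ x => by
        show φ (lift _) = φ (lift x)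
        rw [← hφ σ hσ (lift x)]
        refine hwd (lift _) ⟨_, hmem σ hσ (lift x) (hY σ hσ _ (lift x : Y).2)⟩ ?_
        rw [hlift]
        show _ = (rho σ).map (PadicInt.toZModPow 1) *ᵥ ev (lift x)
        rw [hlift]
    have hy0 : y ∈ Y₀ := hy
    have h1 : ψ ⟨ev ⟨y, hy0⟩, ⟨y, hy0⟩, rfl⟩ = 0 := by rw [h0]; rfl
    rw [← h1]
    exact (hwd _ ⟨y, hy0⟩ (hlift _)).symm

variable {O : Type} [CommRing O] [IsDomain O] [IsDiscreteValuationRing O] [Algebra ℤ_[p] O]
  [Module.Finite ℤ_[p] O] [Module.Free ℤ_[p] O] [CharZero O]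

/-- The action on `O ^ r`. -/
def actO (rho : Γ →* Matrix (Fin r) (Fin r) ℤ_[p]) (σ : Γ) :
    (Fin r → O) →ₗ[O] (Fin r → O) :=
  Matrix.mulVecLin ((rho σ).map (algebraMap ℤ_[p] O))

theorem actO_apply (σ : Γ) (v : Fin r → O) :
    actO rho σ v = (rho σ).map (algebraMap ℤ_[p] O) *ᵥ v := rfl

theorem functional_actO (ℓ : O →ₗ[ℤ_[p]] ℤ_[p]) (σ : Γ) (v : Fin r → O) :
    (fun i => ℓ (actO rho σ v i)) = rho σ *ᵥ fun i => ℓ (v i) := by
  funext i
  rw [actO_apply, Matrix.mulVec_eq_sum, Matrix.mulVec_eq_sum, Finset.sum_apply, Finset.sum_apply,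
    map_sum]
  refine Finset.sum_congr rfl fun j _ => ?_
  simp only [Pi.smul_apply, MulOpposite.smul_eq_mul_unop, MulOpposite.unop_op,
    Matrix.transpose_apply, Matrix.map_apply]
  rw [← Algebra.smul_def, map_smul, smul_eq_mul]

variable (O) in
/-- The vectors all of whose coordinates lie in `W k` modulo `p ^ k`. -/
def InertiaTorsion.WO (H : InertiaTorsion rho I) (k : ℕ) : Submodule O (Fin r → O) where
  carrier := {v | ∀ ℓ : O →ₗ[ℤ_[p]] ℤ_[p], modVec k (fun i => ℓ (v i)) ∈ H.W k}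
  zero_mem' ℓ := by
    simp only [Pi.zero_apply, map_zero]
    rw [show (fun _ : Fin r => (0 : ℤ_[p])) = 0 from rfl, modVec_zero]
    exact zero_mem _
  add_mem' {a b} ha hb ℓ := by
    simp only [Pi.add_apply, map_add]
    rw [show (fun i => ℓ (a i) + ℓ (b i)) = (fun i => ℓ (a i)) + fun i => ℓ (b i) from rfl,
      modVec_add]
    exact add_mem (ha ℓ) (hb ℓ)
  smul_mem' c a ha ℓ := ha (ℓ.comp (LinearMap.mulLeft ℤ_[p] c))

theorem InertiaTorsion.actO_sub_mem (H : InertiaTorsion rho I) (k : ℕ) {σ : Γ} (hσ : σ ∈ I)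
    (v : Fin r → O) : actO rho σ v - v ∈ H.WO O k := by
  intro ℓ
  simp only [Pi.sub_apply, map_sub]
  rw [show (fun i => ℓ (actO rho σ v i) - ℓ (v i)) =
      (fun i => ℓ (actO rho σ v i)) - fun i => ℓ (v i) from rfl, functional_actO]
  exact H.move k σ hσ _

theorem InertiaTorsion.mem_WO_one (H : InertiaTorsion rho I) (k : ℕ) {v : Fin r → O}
    (hv : (p : O) ^ k • v ∈ H.WO O (k + 1)) : v ∈ H.WO O 1 := by
  intro ℓ
  refine H.descend k _ ?_
  convert hv ℓ using 3 with i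
  rw [Pi.smul_apply, smul_eq_mul,
    show (p : O) ^ k * v i = ((p : ℤ_[p]) ^ k) • v i by
      rw [Algebra.smul_def, map_pow, map_natCast],
    map_smul, smul_eq_mul]

/-- The images of `σ - 1` do not span up to finite index a lattice with a non-zero residual
invariant functional. -/
theorem InertiaTorsion.not_finiteIndex (H : InertiaTorsion rho I)
    (hpO : (p : O) ∈ IsLocalRing.maximalIdeal O)
    {Λ : Submodule O (Fin r → O)} (hΛ : ∀ σ ∈ I, ∀ v ∈ Λ, actO rho σ v ∈ Λ)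
    (hsat : ∀ v, (p : O) • v ∈ Λ → v ∈ Λ)
    (lam : Λ →ₗ[O] IsLocalRing.ResidueField O) (hne : lam ≠ 0)
    (hinv : ∀ (σ : Γ) (hσ : σ ∈ I) (v : Λ), lam ⟨_, hΛ σ hσ v v.2⟩ = lam v)
    {a : O} (ha : a ≠ 0)
    (hidx : ∀ v ∈ Λ, a • v ∈
      Submodule.span O {x | ∃ σ ∈ I, ∃ w ∈ Λ, x = actO rho σ w - w}) : False := by
  classical
  obtain ⟨ϖ, hϖ⟩ := IsDiscreteValuationRing.exists_irreducible O
  obtain ⟨m, hm⟩ := IsDiscreteValuationRing.associated_pow_irreducible ha hϖ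
  obtain ⟨b, hb⟩ : a ∣ (p : O) ^ m := by
    refine hm.dvd.trans ?_
    rw [Irreducible.maximalIdeal_eq hϖ, Ideal.mem_span_singleton] at hpO
    exact pow_dvd_pow_of_dvd hpO m
  have hW : ∀ v ∈ Λ, v ∈ H.WO O 1 := by
    intro v hv
    refine H.mem_WO_one m ?_
    rw [hb, mul_smul]
    refine (Submodule.span_le.2 ?_) (hidx _ (Λ.smul_mem b hv))
    rintro _ ⟨σ, hσ, w, -, rfl⟩
    exact H.actO_sub_mem (m + 1) hσ w
  -- reduce the coordinates modulo `p`
  let bO := Module.Free.chooseBasis ℤ_[p] O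
  let Φ : Λ →+ (Module.Free.ChooseBasisIndex ℤ_[p] O → Fin r → ZMod (p ^ 1)) :=
    { toFun := fun v j => modVec 1 fun i => bO.coord j ((v : Fin r → O) i)
      map_zero' := by
        funext j i
        simp [modVec]
      map_add' := fun v w => by
        funext j i
        simp [modVec] }
  have hker : ∀ v : Λ, Φ v = 0 → lam v = 0 := by
    intro v hv
    have hdvd : ∀ i, ∃ x : O, (v : Fin r → O) i = (p : O) * x := by
      intro i
      have hj : ∀ j, (p : ℤ_[p]) ∣ bO.repr ((v : Fin r → O) i) j := by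
        intro j
        have h1 := congrFun (congrFun hv j) i
        simp only [Φ, AddMonoidHom.coe_mk, ZeroHom.coe_mk, modVec, Module.Basis.coord_apply,
          Pi.zero_apply] at h1
        rw [← RingHom.mem_ker, PadicInt.ker_toZModPow, Ideal.mem_span_singleton, pow_one] at h1
        exact h1
      choose c hc using hj
      refine ⟨∑ j, c j • bO j, ?_⟩
      rw [Finset.mul_sum]
      conv_lhs => rw [← bO.sum_repr ((v : Fin r → O) i)]
      refine Finset.sum_congr rfl fun j _ => ?_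
      rw [hc j, mul_smul, Algebra.smul_def (p : ℤ_[p]), map_natCast]
    choose x hx using hdvd
    have hxv : (v : Fin r → O) = (p : O) • x := funext fun i => by
      rw [Pi.smul_apply, smul_eq_mul, hx]
    have hxΛ : x ∈ Λ := hsat x (hxv ▸ v.2)
    rw [show v = (p : O) • (⟨x, hxΛ⟩ : Λ) from Subtype.ext hxv, map_smul, Algebra.smul_def,
      IsLocalRing.ResidueField.algebraMap_eq, (IsLocalRing.residue_eq_zero_iff _).2 hpO, zero_mul]
  -- an `𝔽_p`-functional not killing `lam`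
  obtain ⟨v₀, hv₀⟩ : ∃ v, lam v ≠ 0 := by
    by_contra h
    push Not at h
    exact hne (LinearMap.ext fun v => by rw [h v]; rfl)
  haveI : CharP (IsLocalRing.ResidueField O) p := by
    refine (CharP.charP_iff_prime_eq_zero (Fact.out : p.Prime)).2 ?_
    rw [← map_natCast (IsLocalRing.residue O), IsLocalRing.residue_eq_zero_iff]
    exact hpO
  letI : Algebra (ZMod p) (IsLocalRing.ResidueField O) := ZMod.algebra _ p
  obtain ⟨ψ, hψ⟩ : ∃ ψ : Module.Dual (ZMod p) (IsLocalRing.ResidueField O), ψ (lam v₀) ≠ 0 :=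
    not_forall.1 fun h => hv₀ ((Module.forall_dual_apply_eq_zero_iff (ZMod p) _).1 h)
  have hc : ∀ y : Φ.range, ∃ v : Λ, Φ v = (y : _ → Fin r → ZMod (p ^ 1)) := fun y => y.2
  choose lift hlift using hc
  have hwd : ∀ u v : Λ, Φ u = Φ v → lam u = lam v := fun u v h => by
    rw [← sub_eq_zero, ← map_sub]
    exact hker _ (by rw [map_sub, h, sub_self])
  let φ : Φ.range →+ ZMod p := AddMonoidHom.mk' (fun y => ψ (lam (lift y))) fun y z => by
    rw [← map_add, ← map_add]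
    exact congrArg ψ (hwd _ _ (by rw [map_add, hlift, hlift, hlift]; rfl))
  have hΦ : ∀ (σ : Γ) (hσ : σ ∈ I) (v : Λ),
      Φ ⟨_, hΛ σ hσ v v.2⟩ = fun j => (rho σ).map (PadicInt.toZModPow 1) *ᵥ Φ v j := by
    intro σ hσ v
    funext j
    show modVec 1 (fun i => bO.coord j (actO rho σ v i)) = _
    rw [functional_actO, modVec_mulVec]
    rfl
  have hY : ∀ σ ∈ I, ∀ y ∈ Φ.range,
      (fun j => (rho σ).map (PadicInt.toZModPow 1) *ᵥ y j) ∈ Φ.range := by
    rintro σ hσ _ ⟨v, rfl⟩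
    exact ⟨_, hΦ σ hσ v⟩
  have h0 := H.eq_zero_of_pow Φ.range
    (by rintro _ ⟨v, rfl⟩ j; exact hW v v.2 (bO.coord j)) hY φ
    (fun σ hσ y => by
      show ψ (lam (lift _)) = ψ (lam (lift y))
      rw [hwd (lift _) ⟨_, hΛ σ hσ _ (lift y).2⟩ (by rw [hlift, hΦ σ hσ (lift y), hlift]), hinv σ hσ])
    Finset.univ ⟨Φ v₀, v₀, rfl⟩ (fun j hj => absurd (Finset.mem_univ j) hj)
  refine hψ ?_
  rw [← h0]
  exact congrArg ψ (hwd _ _ (hlift ⟨Φ v₀, v₀, rfl⟩).symm)

section Field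

variable (K : Type) [Field K] [Algebra O K] [IsFractionRing O K]

theorem exists_smul_mem_span {S : Set (Fin r → O)} {w : Fin r → K}
    (hw : w ∈ Submodule.span K (piAlgebraMap (O := O) K '' S)) :
    ∃ a : O, a ≠ 0 ∧ ∃ m ∈ Submodule.span O S, piAlgebraMap K m = a • w := by
  induction hw using Submodule.span_induction with
  | mem x hx =>
    obtain ⟨s, hs, rfl⟩ := hx
    exact ⟨1, one_ne_zero, s, Submodule.subset_span hs, (one_smul O _).symm⟩
  | zero => exact ⟨1, one_ne_zero, 0, zero_mem _, by rw [map_zero, smul_zero]⟩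
  | add x y _ _ hx hy =>
    obtain ⟨a, ha, m, hm, e⟩ := hx
    obtain ⟨b, hb, n, hn, f⟩ := hy
    exact ⟨a * b, mul_ne_zero ha hb, b • m + a • n,
      add_mem (Submodule.smul_mem _ b hm) (Submodule.smul_mem _ a hn),
      by rw [map_add, map_smul, map_smul, e, f, smul_add, smul_smul, smul_smul, mul_comm b a]⟩
  | smul c x _ hx =>
    obtain ⟨a, ha, m, hm, e⟩ := hx
    obtain ⟨⟨u, v⟩, huv⟩ := IsLocalization.surj (nonZeroDivisors O) c
    refine ⟨a * v, mul_ne_zero ha (nonZeroDivisors.coe_ne_zero v), u • m,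
      Submodule.smul_mem _ u hm, ?_⟩
    rw [map_smul, e, ← algebraMap_smul K u, ← algebraMap_smul K a x,
      ← algebraMap_smul K (a * (v : O)) (c • x), smul_smul, smul_smul, map_mul, mul_assoc,
      mul_comm _ c, huv, mul_comm]

/-- The span over `K` of a lattice. -/
def latticeSpan (Λ : Submodule O (Fin r → O)) : Submodule K (Fin r → K) :=
  Submodule.span K (piAlgebraMap K '' (Λ : Set (Fin r → O)))

/-- The span over `K` of the images of `σ - 1`. -/
def moveSpan (rho : Γ →* Matrix (Fin r) (Fin r) ℤ_[p]) (I : Subgroup Γ)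
    (Λ : Submodule O (Fin r → O)) : Submodule K (Fin r → K) :=
  Submodule.span K (piAlgebraMap K '' {x | ∃ σ ∈ I, ∃ w ∈ Λ, x = actO rho σ w - w})

theorem moveSpan_le {Λ : Submodule O (Fin r → O)} (hΛ : ∀ σ ∈ I, ∀ v ∈ Λ, actO rho σ v ∈ Λ) :
    moveSpan K rho I Λ ≤ latticeSpan K Λ := by
  refine Submodule.span_mono (Set.image_mono ?_)
  rintro _ ⟨σ, hσ, w, hw, rfl⟩
  exact Λ.sub_mem (hΛ σ hσ w hw) hw

/-- The images of `σ - 1` span a proper subspace. -/
theorem InertiaTorsion.moveSpan_lt (H : InertiaTorsion rho I)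
    (hpO : (p : O) ∈ IsLocalRing.maximalIdeal O)
    {Λ : Submodule O (Fin r → O)} (hΛ : ∀ σ ∈ I, ∀ v ∈ Λ, actO rho σ v ∈ Λ)
    (hsat : ∀ v, (p : O) • v ∈ Λ → v ∈ Λ)
    (lam : Λ →ₗ[O] IsLocalRing.ResidueField O) (hne : lam ≠ 0)
    (hinv : ∀ (σ : Γ) (hσ : σ ∈ I) (v : Λ), lam ⟨_, hΛ σ hσ v v.2⟩ = lam v) :
    moveSpan K rho I Λ < latticeSpan K Λ := by
  classical
  refine lt_of_le_of_ne (moveSpan_le K hΛ) fun he => ?_
  obtain ⟨G, hG⟩ := (IsNoetherian.noetherian Λ : Λ.FG)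
  have hg : ∀ g ∈ G, ∃ a : O, a ≠ 0 ∧
      a • g ∈ Submodule.span O {x | ∃ σ ∈ I, ∃ w ∈ Λ, x = actO rho σ w - w} := by
    intro g hg
    have hgm : piAlgebraMap K g ∈ moveSpan K rho I Λ := by
      rw [he]
      exact Submodule.subset_span ⟨g, hG ▸ Submodule.subset_span hg, rfl⟩
    obtain ⟨a, ha, m, hm, e⟩ := exists_smul_mem_span K hgm
    refine ⟨a, ha, ?_⟩
    rwa [piAlgebraMap_injective K ((map_smul (piAlgebraMap K) a g).trans e.symm)]
  choose a ha ham using hg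
  refine H.not_finiteIndex hpO hΛ hsat lam hne hinv (a := ∏ g ∈ G.attach, a g g.2)
    (Finset.prod_ne_zero_iff.2 fun g _ => ha g g.2) fun v hv => ?_
  rw [← hG] at hv
  induction hv using Submodule.span_induction with
  | mem g hg =>
    rw [← Finset.mul_prod_erase _ _ (Finset.mem_attach G ⟨g, hg⟩), mul_comm, mul_smul]
    exact Submodule.smul_mem _ _ (ham g hg)
  | zero => rw [smul_zero]; exact zero_mem _
  | add x y _ _ hx hy => rw [smul_add]; exact add_mem hx hy
  | smul c x _ hx => rw [smul_comm]; exact Submodule.smul_mem _ c hx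

/-- A plane with a residual invariant functional, moved by inertia, has an ordinary line. -/
theorem InertiaTorsion.exists_line (H : InertiaTorsion rho I)
    (hpO : (p : O) ∈ IsLocalRing.maximalIdeal O)
    {Λ : Submodule O (Fin r → O)} (D : Subgroup Γ) (hID : I ≤ D)
    (hnorm : ∀ d ∈ D, ∀ σ ∈ I, d * σ * d⁻¹ ∈ I)
    (hΛ : ∀ σ ∈ D, ∀ v ∈ Λ, actO rho σ v ∈ Λ)
    (hsat : ∀ v, (p : O) • v ∈ Λ → v ∈ Λ)
    (hrank : Module.finrank K (latticeSpan K Λ) = 2)
    (lam : Λ →ₗ[O] IsLocalRing.ResidueField O) (hne : lam ≠ 0)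
    (hinv : ∀ (σ : Γ) (hσ : σ ∈ I) (v : Λ), lam ⟨_, hΛ σ (hID hσ) v v.2⟩ = lam v)
    (hram : ∃ σ ∈ I, ∃ v ∈ Λ, actO rho σ v ≠ v) :
    Module.finrank K (moveSpan K rho I Λ) = 1 ∧
      ∀ d ∈ D, ∀ x ∈ moveSpan K rho I Λ,
        (rho d).map ((algebraMap O K).comp (algebraMap ℤ_[p] O)) *ᵥ x ∈ moveSpan K rho I Λ := by
  have hcompat : ∀ (d : Γ) (v : Fin r → O),
      (rho d).map ((algebraMap O K).comp (algebraMap ℤ_[p] O)) *ᵥ piAlgebraMap K v =
        piAlgebraMap K (actO rho d v) := by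
    intro d v
    funext i
    rw [piAlgebraMap_apply, actO_apply, RingHom.map_mulVec]
    simp only [Matrix.map_map]
    rfl
  refine ⟨?_, fun d hd x hx => ?_⟩
  · have hlt := H.moveSpan_lt K hpO (fun σ hσ => hΛ σ (hID hσ)) hsat lam hne hinv
    have h2 := Submodule.finrank_lt_finrank_of_lt hlt
    rw [hrank] at h2
    have h0 : Module.finrank K (moveSpan K rho I Λ) ≠ 0 := by
      rw [Ne, Submodule.finrank_eq_zero, ← Ne, Submodule.ne_bot_iff]
      obtain ⟨σ, hσ, v, hv, hne'⟩ := hram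
      refine ⟨piAlgebraMap K (actO rho σ v - v),
        Submodule.subset_span ⟨_, ⟨σ, hσ, v, hv, rfl⟩, rfl⟩, fun h => hne' ?_⟩
      exact sub_eq_zero.1 ((map_eq_zero_iff _ (piAlgebraMap_injective (O := O) K)).1 h)
    omega
  · induction hx using Submodule.span_induction with
    | mem y hy =>
      obtain ⟨_, ⟨σ, hσ, w, hw, rfl⟩, rfl⟩ := hy
      refine Submodule.subset_span
        ⟨_, ⟨d * σ * d⁻¹, hnorm d hd σ hσ, actO rho d w, hΛ d hd w hw, ?_⟩, (hcompat _ _).symm⟩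
      rw [map_sub]
      simp only [actO_apply, Matrix.mulVec_mulVec, ← Matrix.map_mul, ← map_mul,
        inv_mul_cancel_right]
    | zero => rw [Matrix.mulVec_zero]; exact zero_mem _
    | add a b _ _ ha hb => rw [Matrix.mulVec_add]; exact add_mem ha hb
    | smul c a _ ha => rw [Matrix.mulVec_smul]; exact Submodule.smul_mem _ c ha

end Field

end FLTA.BadRed.Ordinary

end
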