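import Fermat.Agent.BadRed.Toric.Char

/-!
# Toric classes of residue characteristic power order

Toric classes form a group, and a class of exponent `q` which is toric at level `q ^ (k + 1)` is
toric at level `q`.
-/

set_option autoImplicit false
set_option linter.unusedSectionVars false

noncomputable section

open AlgebraicCurve FLTA.Curves

namespace FLTA.BadRed.Ordinary

variable {K : Type*} [Field K] [IsAlgClosed K] [CharZero K] {A : ValuationSubring K}
  {k : Type*} [Field k] [IsAlgClosed k] {π : A →+* k}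
  {q : ℕ} [NeZero q] [Fact q.Prime] [CharP k q]
  {F : Type*} [Field F] [Algebra K F] {F' : Type*} [Field F'] [Algebra K F']
  {Fk : Type*} [Field Fk] [Algebra k Fk] {g gF : ℕ} {B : BadFibre A π q F F' Fk g gF}
  {i : Fin 2}

theorem hasRed_mul {x y : F} {p r : Fk} (hx : B.HasRed i x p) (hy : B.HasRed i y r) :
    B.HasRed i (x * y) (p * r) := by
  obtain ⟨g₁, h₁, hg₁, hh₁, hne₁, e₁, r₁⟩ := hx
  obtain ⟨g₂, h₂, hg₂, hh₂, hne₂, e₂, r₂⟩ := hy
  refine ⟨g₁ * g₂, h₁ * h₂, by rw [map_mul]; exact hg₁.mul hg₂,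
    by rw [map_mul]; exact hh₁.mul hh₂, ?_, ?_, ?_⟩
  · rw [map_mul, redSeries_mul hh₁ hh₂]
    exact mul_ne_zero hne₁ hne₂
  · rw [← e₁, ← e₂]; ring
  · rw [map_mul B.exk, map_mul, map_mul, redSeries_mul hh₁ hh₂, redSeries_mul hg₁ hg₂, ← r₁, ← r₂]
    ring

theorem hasRed_one : B.HasRed i 1 1 :=
  ⟨1, 1, by rw [map_one]; exact IntSeries.one, by rw [map_one]; exact IntSeries.one,
    by rw [map_one, redSeries_one]; exact one_ne_zero, mul_one 1, by simp⟩

theorem hasRed_pow {x : F} {p : Fk} (hx : B.HasRed i x p) :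
    ∀ n : ℕ, B.HasRed i (x ^ n) (p ^ n)
  | 0 => by simpa only [pow_zero] using hasRed_one
  | n + 1 => by simpa only [pow_succ] using hasRed_mul (hasRed_pow hx n) hx

/-- Two scalings of the same function with nonzero reductions differ by a unit. -/
theorem hasRed_unique {x : F} {l : K} {p p' : Fk} (h : B.HasRed i x p)
    (h' : B.HasRed i (l • x) p') (hp : p ≠ 0) (hp' : p' ≠ 0) :
    ∃ u : k, u ≠ 0 ∧ p' = algebraMap k Fk u * p := by
  obtain ⟨g₁, h₁, hg₁, hh₁, hne₁, e₁, r₁⟩ := h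
  obtain ⟨g₂, h₂, hg₂, hh₂, hne₂, e₂, r₂⟩ := h'
  have hl : l ≠ 0 := by
    rintro rfl
    rw [zero_smul, zero_mul] at e₂
    rw [← e₂, map_zero, redSeries_zero, mul_eq_zero, map_eq_zero] at r₂
    exact r₂.elim hp' hne₂
  have key : B.e i (g₂ * h₁) = l • B.e i (g₁ * h₂) := by
    rw [B.smul_e, ← e₁, ← e₂, Algebra.smul_def, Algebra.smul_def]
    congr 1
    ring
  have hA₁ : IntSeries A (B.e i (g₁ * h₂)) := by rw [map_mul]; exact hg₁.mul hh₂
  have hA₂ : IntSeries A (B.e i (g₂ * h₁)) := by rw [map_mul]; exact hg₂.mul hh₁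
  have hn₁ : redSeries A π (B.e i (g₁ * h₂)) ≠ 0 := by
    rw [map_mul, redSeries_mul hg₁ hh₂, ← r₁]
    exact mul_ne_zero (mul_ne_zero ((map_ne_zero _).mpr hp) hne₁) hne₂
  have hn₂ : redSeries A π (B.e i (g₂ * h₁)) ≠ 0 := by
    rw [map_mul, redSeries_mul hg₂ hh₁, ← r₂]
    exact mul_ne_zero (mul_ne_zero ((map_ne_zero _).mpr hp') hne₂) hne₁
  have hinv : l⁻¹ ∈ A := by
    by_contra hc
    have hlA : l ∈ A := (A.mem_or_inv_mem l).resolve_right hc
    apply hn₂
    rw [key, redSeries_smul hlA hA₁, residue_eq_zero_of_inv_notMem B.R.π_surjective hlA hc,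
      zero_smul]
  have hlA : l ∈ A := by
    by_contra hc
    apply hn₁
    rw [← inv_smul_smul₀ hl (B.e i (g₁ * h₂)), ← key, redSeries_smul hinv hA₂,
      residue_eq_zero_of_inv_notMem B.R.π_surjective hinv (by rwa [inv_inv]), zero_smul]
  refine ⟨π ⟨l, hlA⟩, fun h0 => hn₂ (by rw [key, redSeries_smul hlA hA₁, h0, zero_smul]), ?_⟩
  refine (B.exk : Fk →+* LaurentSeries k).injective (mul_right_cancel₀ (mul_ne_zero hne₂ hne₁) ?_)
  show B.exk p' * _ = B.exk (algebraMap k Fk (π ⟨l, hlA⟩) * p) * _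
  have h3 := congrArg (redSeries A π) key
  rw [redSeries_smul hlA hA₁, map_mul, map_mul, redSeries_mul hg₂ hh₁, redSeries_mul hg₁ hh₂,
    ← r₁, ← r₂] at h3
  rw [map_mul, AlgHom.commutes, ModularCurve.algebraMap_laurentSeries_eq_single,
    ← HahnSeries.C_apply, mul_assoc (HahnSeries.C (π ⟨l, hlA⟩)), HahnSeries.C_mul_eq_smul,
    ← mul_assoc, h3]
  congr 1
  ring

theorem reducesToPow_mul {n : ℕ} {f f' : F} (h : B.ReducesToPow n f)
    (h' : B.ReducesToPow n f') : B.ReducesToPow n (f * f') := fun i => by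
  obtain ⟨c, η, hc, hη, hr⟩ := h i
  obtain ⟨c', η', hc', hη', hr'⟩ := h' i
  refine ⟨c * c', η * η', mul_ne_zero hc hc', mul_ne_zero hη hη', ?_⟩
  rw [mul_pow, ← smul_mul_smul_comm]
  exact hasRed_mul hr hr'

variable (B) in
/-- The toric classes of exponent `n`. -/
def toricSubgroup (n : ℕ) : AddSubgroup (Pic0 K F) where
  carrier := {x | B.IsToric n x}
  zero_mem' := ⟨0, 1, one_ne_zero, Pic0.mk_zero, fun P => by simp,
    fun i => ⟨1, 1, one_ne_zero, one_ne_zero, by rw [one_smul, one_pow]; exact hasRed_one⟩⟩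
  add_mem' := by
    rintro _ _ ⟨D, f, hf, rfl, hord, hred⟩ ⟨D', f', hf', rfl, hord', hred'⟩
    refine ⟨D + D', f * f', mul_ne_zero hf hf', Pic0.mk_add D D', fun P => ?_,
      reducesToPow_mul hred hred'⟩
    rw [AddSubgroup.coe_add, Finsupp.add_apply, mul_add, hord, hord', P.ord_mul hf hf']
  neg_mem' := fun {x} hx => B.isToric_neg hx

theorem mem_toricSubgroup {n : ℕ} {x : Pic0 K F} : x ∈ toricSubgroup B n ↔ B.IsToric n x := Iff.rfl

/-- A class of exponent `q`, toric at level `q ^ (j + 1)`, is toric at level `q`. -/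
theorem isToric_of_pow (j : ℕ) {x : Pic0 K F} (hx : q • x = 0) (h : B.IsToric (q ^ (j + 1)) x) :
    B.IsToric q x := by
  obtain ⟨D, f, hf, rfl, hord, hred⟩ := h
  have hq := (Fact.out : q.Prime)
  have hmk : ∀ n : ℕ, Pic0.mk (n • D) = n • Pic0.mk D := fun n => by
    induction n with
    | zero => simp
    | succ n ih => rw [succ_nsmul, succ_nsmul, Pic0.mk_add, ih]
  obtain ⟨f₁, hf₁, hord₁⟩ := (QuotientAddGroup.eq_zero_iff (q • D)).mp ((hmk q).trans hx)
  have hord₁' : ∀ P : Place K F, (q : ℤ) * (D : Divisor K F) P = P.ord f₁ := fun P => by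
    rw [← hord₁ P, AddSubgroup.coe_subtype, AddSubmonoidClass.coe_nsmul, Finsupp.smul_apply,
      nsmul_eq_mul]
  refine ⟨D, f₁, hf₁, rfl, hord₁', fun i => ?_⟩
  obtain ⟨c, hc⟩ := B.exists_eq_algebraMap_of_ord_eq_zero (u := f * (f₁ ^ q ^ j)⁻¹)
    (mul_ne_zero hf (inv_ne_zero (pow_ne_zero _ hf₁))) fun v => by
      rw [v.ord_mul hf (inv_ne_zero (pow_ne_zero _ hf₁)), v.ord_inv, FLTA.Curves.ord_pow, ← hord,
        ← hord₁']
      push_cast
      ring
  rw [mul_inv_eq_iff_eq_mul₀ (pow_ne_zero _ hf₁)] at hc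
  obtain ⟨a, r, ha, hr, hred₁⟩ := B.exists_hasRed_smul i hf₁
  obtain ⟨b, η, hb, hη, hredf⟩ := hred i
  have hpow := hasRed_pow hred₁ (q ^ j)
  have e : b • f = (b * c * (a ^ q ^ j)⁻¹) • (a • f₁) ^ q ^ j := by
    rw [smul_pow, smul_smul, inv_mul_cancel_right₀ (pow_ne_zero _ ha), hc, ← Algebra.smul_def,
      smul_smul]
  rw [e] at hredf
  obtain ⟨u, hu, hu'⟩ := hasRed_unique hpow hredf (pow_ne_zero _ hr) (pow_ne_zero _ hη)
  obtain ⟨w, hw⟩ := IsAlgClosed.exists_pow_nat_eq u (pow_pos hq.pos j)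
  obtain ⟨v, hv⟩ := IsAlgClosed.exists_pow_nat_eq w hq.pos
  have hw0 : w ≠ 0 := fun h0 => hu (by rw [← hw, h0, zero_pow (pow_ne_zero j hq.ne_zero)])
  have hv0 : v ≠ 0 := fun h0 => hw0 (by rw [← hv, h0, zero_pow hq.ne_zero])
  have : CharP Fk q := charP_of_injective_algebraMap (algebraMap k Fk).injective q
  have : ExpChar Fk q := ExpChar.prime hq
  have hkey : η ^ q = algebraMap k Fk w * r := by
    refine iterateFrobenius_inj Fk q j ?_
    rw [iterateFrobenius_def, iterateFrobenius_def, ← pow_mul, ← pow_succ', hu', mul_pow, ← map_pow,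
      hw]
  refine ⟨a, η * algebraMap k Fk v⁻¹, ha,
    mul_ne_zero hη ((map_ne_zero _).mpr (inv_ne_zero hv0)), ?_⟩
  rw [mul_pow, hkey, ← map_pow, inv_pow, hv, mul_comm (algebraMap k Fk w), mul_assoc, ← map_mul,
    mul_inv_cancel₀ hw0, map_one, mul_one]
  exact hred₁

end FLTA.BadRed.Ordinary

end
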