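import Fermat.Agent.BadRed.Ordinary.Main
import Fermat.Agent.BadRed.Ordinary.Wild
import Fermat.Agent.BadRed.Ordinary.Field
import Fermat.Agent.BadRed.Ordinary.Residual
import Fermat.Agent.BadRed.Ordinary.GenusCard
import Fermat.Agent.BadRed.Fibre
import Fermat.Agent.BadRed.Kummer
import Fermat.Agent.BadRed.ModularSym
import Fermat.Agent.GaloisReps.TateConstruct

/-!
# Inertia at `p` on the `p`-power torsion of `J₀(N p)`

The toric classes of the fibre of `X₀(N p)` at `p` give an `InertiaTorsion` for the Tate module.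
-/

set_option autoImplicit false
set_option synthInstance.maxHeartbeats 400000
set_option maxHeartbeats 1000000

noncomputable section

open AlgebraicCurve ModularCurve
open scoped Matrix

namespace FLTA.BadRed.Ordinary

local notation "Qb" => AlgebraicClosure ℚ
local notation "Γ" => AlgebraicClosure ℚ ≃ₐ[ℚ] AlgebraicClosure ℚ

variable (N p : ℕ) [NeZero N] [NeZero p] [hp : Fact p.Prime] (hpN : ¬ p ∣ N)
  {A : ValuationSubring Qb} (hA : A.LiesOverPrime p)

include hpN hA in
/-- The inertia group at `A` acts on the fibre of `X₀(N p)` through inertia symmetries. -/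
theorem exists_inertiaData [CharP (IsLocalRing.ResidueField A) p]
    [PerfectRing (IsLocalRing.ResidueField A) p] :
    ∃ I : InertiaData (badFibre N p A hA hpN) (A.inertiaSubgroupIn ℚ),
      ∀ γ : A.inertiaSubgroupIn ℚ,
        (I.sy γ).σ = arithmeticGalois (modularFunctionFieldFull (N * p)) (γ : Γ) := by
  choose s hs hsI using fun γ : A.inertiaSubgroupIn ℚ => exists_inertiaSym N p A hA hpN γ.2
  exact ⟨⟨s, fun γ c => by rw [hs, baseAut_arithmeticGalois]; rfl, hsI⟩, hs⟩

/-- `p` times a class of level `p ^ (j + 1)` is the class of the reduced vector. -/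
theorem nsmul_tateTorsionEquiv_modVec (M : ℕ) [NeZero M] (j : ℕ)
    (v : Fin (Gamma0.homRank M) → ℤ_[p]) :
    p • (GaloisReps.tateTorsionEquiv M p (j + 1) (modVec (j + 1) v) : JZero M) =
      GaloisReps.tateTorsionEquiv M p j (modVec j v) := by
  rw [GaloisReps.coe_tateTorsionEquiv, GaloisReps.coe_tateTorsionEquiv]
  set x := (GaloisReps.torsCoord M (p ^ (j + 1))).symm (modVec (j + 1) v) with hx
  have h := GaloisReps.torsCoord_psmul M p j x
  have h2 : (fun i => GaloisReps.redK p j (GaloisReps.torsCoord M (p ^ (j + 1)) x i)) =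
      modVec j v := by
    funext i
    rw [hx, LinearEquiv.apply_symm_apply]
    exact congrArg (fun f : ℤ_[p] →+* ZMod (p ^ j) => f (v i))
      (PadicInt.zmod_cast_comp_toZModPow j (j + 1) (Nat.le_succ j))
  rw [← h2, ← h, LinearEquiv.symm_apply_apply]

/-- `p ^ j` times a class of level `p ^ (i + j)` is the class of the reduced vector. -/
theorem pow_nsmul_tateTorsionEquiv_modVec (M : ℕ) [NeZero M] (i j m : ℕ) (hm : i + j = m)
    (v : Fin (Gamma0.homRank M) → ℤ_[p]) :
    (p ^ j) • (GaloisReps.tateTorsionEquiv M p m (modVec m v) : JZero M) =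
      GaloisReps.tateTorsionEquiv M p i (modVec i v) := by
  subst hm
  induction j with
  | zero => rw [pow_zero, one_smul]; rfl
  | succ j ih => rw [← ih, pow_succ, mul_smul, ← Nat.add_assoc, nsmul_tateTorsionEquiv_modVec]

/-- The same for the Tate data. -/
theorem pow_nsmul_torsionEquiv_modVec (M : ℕ) [NeZero M] (k : ℕ)
    (v : Fin (GaloisReps.tateData M p).r → ℤ_[p]) :
    (p ^ k) • ((GaloisReps.tateData M p).torsionEquiv (k + 1) (modVec (k + 1) v) : JZero M) =
      (GaloisReps.tateData M p).torsionEquiv 1 (modVec 1 v) :=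
  pow_nsmul_tateTorsionEquiv_modVec p M 1 k (k + 1) (Nat.add_comm 1 k) v

include hpN hA in
/-- `p`-power torsion of `J₀(N p)` and inertia at `A`. -/
theorem exists_inertiaTorsion_of_compat (hp2 : p ≠ 2) (D : FLTA.GaloisReps.TateData (N * p) p)
    (hcompat : ∀ (k : ℕ) (v : Fin D.r → ℤ_[p]),
      (p ^ k) • (D.torsionEquiv (k + 1) (modVec (k + 1) v) : JZero (N * p)) =
        D.torsionEquiv 1 (modVec 1 v)) :
    Nonempty (InertiaTorsion D.rho (A.inertiaSubgroupIn ℚ)) := by
  have := FLTA.Galois.charP_residueField hp.out hA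
  have := FLTA.Galois.isAlgClosed_residueField A
  have : ExpChar (IsLocalRing.ResidueField A) p := ExpChar.prime hp.out
  have : PerfectRing (IsLocalRing.ResidueField A) p := PerfectField.toPerfectRing p
  set B := badFibre N p A hA hpN
  obtain ⟨I, hI⟩ := exists_inertiaData N p hpN hA
  obtain ⟨S, m₀, hS⟩ := B.exists_isGluing
  have hne : S.Nonempty := by
    have h1 := hS.card_eq
    have h2 := two_mul_genusX0_le N p hpN
    rw [← Finset.card_pos]
    omega
  -- the class attached to a vector of level `p ^ k`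
  let cl : ∀ k : ℕ, (Fin D.r → ZMod (p ^ k)) →+ JZero (N * p) := fun k =>
    AddMonoidHom.mk' (fun v => (D.torsionEquiv k v : JZero (N * p))) fun v w => by
      rw [map_add]; rfl
  have hcl : ∀ (k : ℕ) (v : Fin D.r → ZMod (p ^ k)), (p ^ k) • cl k v = 0 := by
    intro k v
    have h := (D.torsionEquiv k v).2
    rw [Submodule.mem_torsionBy_iff] at h
    rw [← natCast_zsmul, Nat.cast_pow]
    exact h
  have hgal : ∀ (k : ℕ) (γ : A.inertiaSubgroupIn ℚ) (v : Fin D.r → ZMod (p ^ k)),
      cl k ((D.rho (γ : Γ)).map (PadicInt.toZModPow k) *ᵥ v) = (I.sy γ).σ • cl k v := by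
    intro k γ v
    rw [hI, ← galois_smul_pic0_def]
    exact D.torsionEquiv_galois k γ v
  refine ⟨⟨fun k => (toricSubgroup B (p ^ k)).comap (cl k), ?_, ?_, ?_⟩⟩
  · intro k σ hσ v
    show B.IsToric (p ^ k) (cl k _)
    rw [modVec_sub, map_sub, modVec_mulVec]
    rw [show cl k ((D.rho σ).map (PadicInt.toZModPow k) *ᵥ modVec k v) =
      (I.sy ⟨σ, hσ⟩).σ • cl k (modVec k v) from hgal k ⟨σ, hσ⟩ _]
    exact B.isToric_inertia_smul_sub (I.sy ⟨σ, hσ⟩) (I.inertia _) (hcl k _)
  · intro k v hv
    have hscale : modVec (k + 1) (fun i => (p : ℤ_[p]) ^ k * v i) =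
        (p ^ k) • modVec (k + 1) v := by
      funext i
      show PadicInt.toZModPow (k + 1) ((p : ℤ_[p]) ^ k * v i) =
        (p ^ k) • PadicInt.toZModPow (k + 1) (v i)
      rw [map_mul, map_pow, map_natCast, nsmul_eq_mul, Nat.cast_pow]
    have hx : cl (k + 1) (modVec (k + 1) (fun i => (p : ℤ_[p]) ^ k * v i)) =
        cl 1 (modVec 1 v) := by
      rw [hscale, map_nsmul]
      exact hcompat k v
    have h1 : p • cl 1 (modVec 1 v) = 0 := by simpa only [pow_one] using hcl 1 (modVec 1 v)
    have h2 : B.IsToric (p ^ (k + 1)) (cl 1 (modVec 1 v)) := hx ▸ hv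
    have h3 := isToric_of_pow k h1 h2
    show B.IsToric (p ^ 1) (cl 1 (modVec 1 v))
    convert h3 using 1
    exact pow_one p
  · intro X hX hstab φ hφinv
    by_contra hne0
    -- transport to classes
    have hinj : Function.Injective (cl 1) := fun v w h =>
      (D.torsionEquiv 1).injective (Subtype.ext h)
    let e : X ≃+ X.map (cl 1) := X.equivMapOfInjective (cl 1) hinj
    have : Finite X := inferInstance
    have : Finite (X.map (cl 1)) := Finite.of_equiv X e.toEquiv
    have hφsurj : Function.Surjective φ := by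
      rw [← AddMonoidHom.range_eq_top]
      refine (φ.range.eq_bot_or_eq_top_of_prime_card (hp := ⟨?_⟩)).resolve_left fun hb => hne0
        (AddMonoidHom.range_eq_bot_iff.mp hb)
      rw [Nat.card_zmod]
      exact hp.out
    have hst : ∀ γ : A.inertiaSubgroupIn ℚ, ∀ x ∈ X.map (cl 1),
        (I.sy γ).σ • x ∈ X.map (cl 1) := by
      rintro γ _ ⟨v, hv, rfl⟩
      exact ⟨_, hstab γ γ.2 v hv, hgal 1 γ v⟩
    refine no_invariant_quotient hp2 hS hne I (inertiaField_bar hp.out hA) (X.map (cl 1))
      ?_ hst (φ.comp e.symm.toAddMonoidHom) (hφsurj.comp e.symm.surjective) ?_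
    · rintro _ ⟨v, hv, rfl⟩
      have h : B.IsToric (p ^ 1) (cl 1 v) := hX hv
      convert h using 1
      exact (pow_one p).symm
    · intro γ x
      obtain ⟨v, rfl⟩ := e.surjective x
      have h1 : (⟨(I.sy γ).σ • ((e v : X.map (cl 1)) : JZero (N * p)), hst γ _ (e v).2⟩ :
          X.map (cl 1)) = e ⟨_, hstab γ γ.2 v v.2⟩ := Subtype.ext (hgal 1 γ v).symm
      show φ (e.symm _) = φ (e.symm (e v))
      rw [h1, e.symm_apply_apply, e.symm_apply_apply]
      exact hφinv γ γ.2 v

include hpN hA in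
/-- Inertia torsion for the Tate data of level `N p`. -/
theorem exists_inertiaTorsion (hp2 : p ≠ 2) :
    Nonempty (InertiaTorsion (FLTA.GaloisReps.tateData (N * p) p).rho
      (A.inertiaSubgroupIn ℚ)) :=
  exists_inertiaTorsion_of_compat N p hpN hA hp2 _ (pow_nsmul_torsionEquiv_modVec p (N * p))

end FLTA.BadRed.Ordinary

end
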