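import Fermat.Agent.BadRed.Ordinary.Connected
import Fermat.Agent.BadRed.Ordinary.Coordinates

/-!
# Toric `q`-torsion has no quotient with trivial inertia

`q` is the residue characteristic and is odd: a finite inertia-stable group of toric classes of
exponent `q` has no surjection to `ZMod q` invariant under inertia.
-/

set_option autoImplicit false
set_option linter.unusedSectionVars false

noncomputable section

open AlgebraicCurve FLTA.Curves

namespace FLTA.BadRed.Ordinary

variable {K : Type*} [Field K] [IsAlgClosed K] [CharZero K] {A : ValuationSubring K}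
  {k : Type*} [Field k] [IsAlgClosed k] {π : A →+* k}
  {q : ℕ} [NeZero q] [Fact q.Prime] [CharP k q]
  {F : Type*} [Field F] [Algebra K F] {F' : Type*} [Field F'] [Algebra K F']
  {Fk : Type*} [Field Fk] [Algebra k Fk] {g gF : ℕ} {B : BadFibre A π q F F' Fk g gF}
  {S : Finset (Place k Fk)} {m₀ : ℕ}

/-- Standing hypotheses on the action of `G` on `K`. -/
structure InertiaField (A : ValuationSubring K) (G : Type*) [Group G] [MulSemiringAction G K]
    (q : ℕ) : Prop where
  unram : Unramified A G q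
  finite_orbit : ∀ a : K, (Set.range fun σ : G => σ • a).Finite
  rankOne : ∀ ε ∈ A.nonunits, ∀ M : ℕ, ∃ N : ℕ, ∃ a ∈ A, ε ^ N = (q : K) ^ M * a

/-- Every element is bounded by a power of `q`. -/
theorem InertiaField.exists_pow_mul_mem {G : Type*} [Group G] [MulSemiringAction G K]
    (hK : InertiaField A G q) (a : K) : ∃ e : ℕ, (q : K) ^ e * a ∈ A := by
  classical
  by_cases ha : a ∈ A
  · exact ⟨0, by simpa using ha⟩
  have ha0 : a ≠ 0 := fun h => ha (h ▸ zero_mem A)
  have hinv : a⁻¹ ∈ A := (A.mem_or_inv_mem a).resolve_left ha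
  set O := (hK.finite_orbit a⁻¹).toFinset with hO
  have hmem : ∀ x, x ∈ O ↔ ∃ σ : G, σ • a⁻¹ = x := fun x => (hK.finite_orbit a⁻¹).mem_toFinset
  have hOA : ∀ x ∈ O, x ∈ A := fun x hx => by
    obtain ⟨σ, rfl⟩ := (hmem x).mp hx
    exact hK.unram.smul_mem σ _ hinv
  have hne : ∀ x ∈ O, x ≠ 0 := fun x hx => by
    obtain ⟨σ, rfl⟩ := (hmem x).mp hx
    exact (smul_ne_zero_iff_ne σ).mpr (inv_ne_zero ha0)
  have hfix : ∀ g : G, g • (∏ x ∈ O, x)⁻¹ = (∏ x ∈ O, x)⁻¹ := fun g => by
    rw [smul_inv'', Finset.smul_prod']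
    congr 1
    refine Finset.prod_bij' (fun x _ => g • x) (fun x _ => g⁻¹ • x) ?_ ?_ ?_ ?_ ?_
    · intro x hx
      obtain ⟨τ, rfl⟩ := (hmem x).mp hx
      exact (hmem _).mpr ⟨g * τ, mul_smul _ _ _⟩
    · intro x hx
      obtain ⟨τ, rfl⟩ := (hmem x).mp hx
      exact (hmem _).mpr ⟨g⁻¹ * τ, mul_smul _ _ _⟩
    · intro x _; exact inv_smul_smul g x
    · intro x _; exact smul_inv_smul g x
    · intro x _; rfl
  obtain ⟨n, hn⟩ := hK.unram.exists_pow_mul _ hfix
  have haO : a⁻¹ ∈ O := (hmem _).mpr ⟨1, one_smul _ _⟩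
  refine ⟨n, ?_⟩
  have he : (q : K) ^ n * a = (q : K) ^ n * (∏ x ∈ O, x)⁻¹ * ∏ x ∈ O.erase a⁻¹, x := by
    rw [← Finset.mul_prod_erase O (fun x => x) haO, mul_inv, inv_inv, mul_assoc (_ : K),
      mul_assoc a, inv_mul_cancel₀ (Finset.prod_ne_zero_iff.mpr fun x hx =>
        hne x (Finset.mem_of_mem_erase hx)), mul_one]
  rw [he]
  exact mul_mem hn (prod_mem fun x hx => hOA x (Finset.mem_of_mem_erase hx))

/-- **No invariant quotient.** -/
theorem no_invariant_quotient (hq2 : q ≠ 2) (hS : B.IsGluing S m₀) (hne : S.Nonempty)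
    {G : Type*} [Group G] [MulSemiringAction G K] (I : InertiaData B G)
    (hK : InertiaField A G q) (X : AddSubgroup (Pic0 K F)) [Finite X]
    (htor : ∀ x ∈ X, B.IsToric q x) (hstab : ∀ σ : G, ∀ x ∈ X, (I.sy σ).σ • x ∈ X)
    (φ : X →+ ZMod q) (hφ : Function.Surjective φ)
    (hinv : ∀ (σ : G) (x : X), φ ⟨(I.sy σ).σ • (x : Pic0 K F), hstab σ x x.2⟩ = φ x) :
    False := by
  let := I.classAction
  let act : DistribMulAction G X :=
    { smul := fun σ x => ⟨(I.sy σ).σ • (x : Pic0 K F), hstab σ x x.2⟩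
      one_smul := fun x => Subtype.ext (one_smul G (x : Pic0 K F))
      mul_smul := fun σ τ x => Subtype.ext (mul_smul σ τ (x : Pic0 K F))
      smul_zero := fun σ => Subtype.ext (smul_zero (A := Pic0 K F) σ)
      smul_add := fun σ x y => Subtype.ext (smul_add σ (x : Pic0 K F) (y : Pic0 K F)) }
  obtain ⟨d, c, ⟨T⟩⟩ := exists_coords hS hne I ⟨hK.unram.p_ne_zero, hK.rankOne⟩
    hK.exists_pow_mul_mem hK.finite_orbit X (fun _ _ => rfl) htor
  exact T.false_of_invariant_quotient hq2 hK.unram φ hφ hinv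

end FLTA.BadRed.Ordinary

end
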