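import Fermat.Agent.BadRed.Ordinary.Separation

/-!
# Normal forms of classes modulo `q ^ M`
-/

set_option autoImplicit false
set_option linter.unusedSectionVars false

noncomputable section

open AlgebraicCurve FLTA.Curves

namespace FLTA.BadRed.Ordinary

variable {K : Type*} [Field K] [IsAlgClosed K] [CharZero K] {A : ValuationSubring K}
  {k : Type*} [Field k] [IsAlgClosed k] {π : A →+* k}
  {q : ℕ} [NeZero q] [Fact q.Prime] [CharP k q]
  {F : Type*} [Field F] [Algebra K F] {F' : Type*} [Field F'] [Algebra K F']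
  {Fk : Type*} [Field Fk] [Algebra k Fk] {g gF : ℕ} {B : BadFibre A π q F F' Fk g gF}
  {S : Finset (Place k Fk)} {m₀ : ℕ} {G : Type*} [Group G] [MulSemiringAction G K]

/-- A small pair is invertible. -/
theorem small_isUnit {R : Type*} [CommRing R] {z : LPair R} (h : Frame.Small z) : IsUnit z := by
  obtain ⟨I, ⟨N, hN⟩, hz⟩ := h
  have : IsNilpotent (z - 1) := ⟨N, Frame.pow_eq_zero_of_coeffIn hN hz⟩
  simpa using this.isUnit_one_add

theorem small_of_trivN {W R : Type*} [CommRing W] [CommRing R] {Φ : Frame W} {φ : W →+* R}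
    {t : LPair R} (h : Φ.TrivN φ t) : Frame.Small t := by
  obtain ⟨I, hI, ht⟩ := h
  exact ⟨I, hI, ht.coeffIn_sub_one⟩

/-- The automorphism of the full truncated ring given by an element of inertia. -/
def galT (I : InertiaData B G) (σ : G) (M : ℕ) :
    TRing A (⊥ : Subgroup G) q M →+* TRing A (⊥ : Subgroup G) q M :=
  Ideal.quotientMap _
    { toFun := fun x => ⟨σ • (x : K), (mem_intFixed_bot A).mpr (I.smul_mem σ x.2.1)⟩
      map_one' := Subtype.ext (smul_one σ)
      map_zero' := Subtype.ext (smul_zero σ)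
      map_mul' := fun x y => Subtype.ext (smul_mul' σ (x : K) y)
      map_add' := fun x y => Subtype.ext (smul_add σ (x : K) y) }
    (by
      rw [qIdeal, Ideal.span_le, Set.singleton_subset_iff]
      refine Ideal.mem_span_singleton.mpr (dvd_of_eq (Subtype.ext ?_))
      simp [qElem, smul_pow',
        show σ • (q : K) = q from map_natCast (MulSemiringAction.toRingHom G K σ) q])

theorem galT_mk (I : InertiaData B G) (σ : G) (M : ℕ) (x : intFixed A (⊥ : Subgroup G)) :
    galT I σ M (Ideal.Quotient.mk _ x) =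
      Ideal.Quotient.mk _ ⟨σ • (x : K), (mem_intFixed_bot A).mpr (I.smul_mem σ x.2.1)⟩ := rfl

theorem galT_comp (I : InertiaData B G) (σ : G) (M : ℕ) :
    (galT I σ M).comp (toTRing A (⊥ : Subgroup G) q M) = toTRing A (⊥ : Subgroup G) q M :=
  RingHom.ext fun w => by
    show galT I σ M (Ideal.Quotient.mk _ _) = Ideal.Quotient.mk _ _
    rw [galT_mk]
    exact congrArg _ (Subtype.ext (w.2.2 σ))

theorem galT_trunc (I : InertiaData B G) (σ : G) (M : ℕ) {x : F}
    (hx : Good B (⊥ : Subgroup G) x) :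
    Good B (⊥ : Subgroup G) ((I.sy σ).σ • x) ∧
      mapPair (galT I σ M) (trunc B ⊥ M x) = trunc B ⊥ M ((I.sy σ).σ • x) := by
  have hg : Good B (⊥ : Subgroup G) ((I.sy σ).σ • x) := fun i j => by
    rw [I.coeff_e]
    exact (mem_intFixed_bot A).mpr (I.smul_mem σ (hx i j).1)
  refine ⟨hg, ext_cf fun γ => ?_⟩
  rw [cf_mapPair, cf_trunc hx, cf_trunc hg, galT_mk]
  exact congrArg _ (Subtype.ext (I.coeff_e σ γ.1 x γ.2).symm)

theorem RepData.small_trunc {H : Subgroup G} (hA : RankOneAt A q) {y : Pic0 K F}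
    (d : RepData B y) (hg : Good B H d.x) (M : ℕ) : Frame.Small (trunc B H M d.x) := by
  have hr0 : B.IsRed (d.x - 1) 0 := ⟨(hg.sub good_one).int, fun i => by
    rw [map_sub, map_one, redSeries_sub (int_e d.x_isRed i) IntSeries.one, redSeries_one,
      red_e d.x_isRed i]
    simp⟩
  obtain ⟨J, hJ, hJc⟩ := exists_coeffIn_of_red_zero (M := M) hA (hg.sub good_one) hr0
  exact ⟨J, hJ, by rwa [trunc_sub hg good_one, trunc_one] at hJc⟩

section Frame

variable (hq2 : 2 ≤ q) (hS : B.IsGluing S m₀) (hne : S.Nonempty) (I : InertiaData B G)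
  (D : SecData B m₀) (hA : RankOneAt A q)

include hq2 hS hne I hA

/-- `a` is the normal form of the class `y` modulo `q ^ M`. -/
def IsClassNF (M : ℕ) (y : Pic0 K F)
    (a : (D.frame hq2 I hS hne).Γ → TRing A (⊥ : Subgroup G) q M) : Prop :=
  ∀ d : RepData B y, (D.frame hq2 I hS hne).IsNF (toTRing A (⊥ : Subgroup G) q M)
    (trunc B ⊥ M d.x) a

variable {M : ℕ} {y y' : Pic0 K F}

theorem isClassNF_of_rep (d : RepData B y) {a : (D.frame hq2 I hS hne).Γ → _}
    (h : (D.frame hq2 I hS hne).IsNF (toTRing A (⊥ : Subgroup G) q M) (trunc B ⊥ M d.x) a) :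
    IsClassNF hq2 hS hne I D M y a :=
  fun d' => RepData.isNF_of_rep hq2 hS hne I D hA d d' h

theorem exists_isClassNF (d : RepData B y) : ∃ a, IsClassNF hq2 hS hne I D M y a := by
  obtain ⟨a, ha⟩ := (d.small_trunc (H := (⊥ : Subgroup G)) hA d.good_x M).exists_isNF
    (Φ := D.frame hq2 I hS hne) (φ := toTRing A (⊥ : Subgroup G) q M)
  exact ⟨a, isClassNF_of_rep hq2 hS hne I D hA d ha⟩

omit hA in
theorem IsClassNF.unique (d : RepData B y) {a a' : (D.frame hq2 I hS hne).Γ → _}
    (h : IsClassNF hq2 hS hne I D M y a) (h' : IsClassNF hq2 hS hne I D M y a') : a' = a :=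
  (h d).unique (h' d)

/-- The class zero has normal form zero. -/
theorem isClassNF_zero (d : RepData B (0 : Pic0 K F)) :
    IsClassNF hq2 hS hne I D M 0 0 := by
  obtain ⟨a, ha⟩ := exists_isClassNF hq2 hS hne I D hA (M := M) d
  have hd : ∀ e : RepData B (0 + 0 : Pic0 K F), ∃ t,
      (D.frame hq2 I hS hne).TrivN (toTRing A (⊥ : Subgroup G) q M) t ∧
      trunc B ⊥ M e.x = trunc B ⊥ M d.x * t := by
    rw [add_zero]
    exact fun e => RepData.exists_trivN hq2 hS hne I D hA d e
  obtain ⟨t, ht, e⟩ := hd (d.mul d)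
  rw [RepData.mul_x, trunc_mul d.good_x d.good_x] at e
  have e' := (small_isUnit (d.small_trunc (H := (⊥ : Subgroup G)) hA d.good_x M)).mul_left_cancel e
  exact isClassNF_of_rep hq2 hS hne I D hA d (e' ▸ Frame.isNF_of_trivN ht)

/-- Sums. -/
theorem IsClassNF.add (d : RepData B y) (d' : RepData B y') {a a' c : (D.frame hq2 I hS hne).Γ → _}
    (h : IsClassNF hq2 hS hne I D M y a) (h' : IsClassNF hq2 hS hne I D M y' a')
    (hc : (D.frame hq2 I hS hne).IsNF (toTRing A (⊥ : Subgroup G) q M)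
      ((D.frame hq2 I hS hne).nf a * (D.frame hq2 I hS hne).nf a') c) :
    IsClassNF hq2 hS hne I D M (y + y') c := by
  refine isClassNF_of_rep hq2 hS hne I D hA (d.mul d') ?_
  obtain ⟨-, t, ht, e⟩ := h d
  obtain ⟨-, t', ht', e'⟩ := h' d'
  rw [RepData.mul_x, trunc_mul d.good_x d'.good_x, e, e', mul_mul_mul_comm]
  exact hc.mul_trivN (ht.mul ht')

/-- Equivariance. -/
theorem IsClassNF.conj (d : RepData B y) (σ : G) {a : (D.frame hq2 I hS hne).Γ → _}
    (h : IsClassNF hq2 hS hne I D M y a) :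
    IsClassNF hq2 hS hne I D M ((I.sy σ).σ • y) (galT I σ M ∘ a) := by
  refine isClassNF_of_rep hq2 hS hne I D hA (d.conj I σ) ?_
  rw [RepData.conj_x, ← (galT_trunc I σ M d.good_x).2]
  have := (h d).map (galT I σ M)
  rwa [galT_comp] at this

/-- Classes with the same normal form differ by a class with trivial truncation. -/
theorem trivN_of_eq (dz : RepData B (y - y')) (d' : RepData B y')
    {a : (D.frame hq2 I hS hne).Γ → _} (h : IsClassNF hq2 hS hne I D M y a)
    (h' : IsClassNF hq2 hS hne I D M y' a) :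
    (D.frame hq2 I hS hne).TrivN (toTRing A (⊥ : Subgroup G) q M) (trunc B ⊥ M dz.x) := by
  have hy : ∀ e : RepData B (y - y' + y'),
      (D.frame hq2 I hS hne).IsNF (toTRing A (⊥ : Subgroup G) q M) (trunc B ⊥ M e.x) a := by
    rw [sub_add_cancel]
    exact h
  obtain ⟨-, t, ht, e⟩ := hy (dz.mul d')
  obtain ⟨-, t', ht', e'⟩ := h' d'
  rw [RepData.mul_x, trunc_mul dz.good_x d'.good_x, e'] at e
  obtain ⟨u, hu, hu1⟩ := ht'.exists_inv
  have hunit : IsUnit ((D.frame hq2 I hS hne).nf a) := by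
    obtain ⟨ha, -⟩ := h' d'
    exact small_isUnit ⟨_, Frame.isNilpotent_span_range ha,
      (D.frame hq2 I hS hne).coeffIn_nf_sub_one fun γ => Ideal.subset_span ⟨γ, rfl⟩⟩
  have e2 : (D.frame hq2 I hS hne).nf a * (trunc B ⊥ M dz.x * t') = (D.frame hq2 I hS hne).nf a * t := by rw [← e]; ring
  have e3 := hunit.mul_left_cancel e2
  rw [show trunc B ⊥ M dz.x = t * u by rw [← e3, mul_assoc, hu1, mul_one]]
  exact ht.mul hu

/-- Lowering the exponent. -/
theorem IsClassNF.proj (d : RepData B y) {M' : ℕ} (hle : M ≤ M')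
    {a : (D.frame hq2 I hS hne).Γ → _} (h : IsClassNF hq2 hS hne I D M' y a) :
    IsClassNF hq2 hS hne I D M y (projT A (⊥ : Subgroup G) hle ∘ a) := by
  refine isClassNF_of_rep hq2 hS hne I D hA d ?_
  have := (h d).map (projT A (⊥ : Subgroup G) hle)
  rwa [projT_comp, mapPair_projT hle d.good_x] at this

/-- The normal form can be computed over a smaller ring. -/
theorem exists_isClassNF_of_good {H : Subgroup G} (d : RepData B y) (hg : Good B H d.x) :
    ∃ a : (D.frame hq2 I hS hne).Γ → TRing A H q M,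
      (∀ γ, IsNilpotent (a γ)) ∧
      IsClassNF hq2 hS hne I D M y (restrictT A (bot_le : (⊥ : Subgroup G) ≤ H) q M ∘ a) := by
  obtain ⟨a, ha⟩ := (d.small_trunc hA hg M).exists_isNF
    (Φ := D.frame hq2 I hS hne) (φ := toTRing A H q M)
  refine ⟨a, ha.1, isClassNF_of_rep hq2 hS hne I D hA d ?_⟩
  have := ha.map (restrictT A (bot_le : (⊥ : Subgroup G) ≤ H) q M)
  rwa [restrictT_comp, mapPair_restrictT bot_le hg] at this

end Frame

end FLTA.BadRed.Ordinary

end
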