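import Mathlib
import Fermat.Prelude.Def_ModularCurve_LaurentCoeff

/-!
# Normal forms of pairs of Laurent series modulo sections and power series

A `Frame` over `W` is a set `Γ` of gaps together with sections `s γ`, one for each non-gap polar
position `γ`, whose span with `1` is closed under products.  Over a ring `R` with a nilpotent
ideal `I`, every pair congruent to `1` modulo `I` is, up to `Triv = (sections) * (power series)`,
equal to exactly one normal form `1 + ∑ a γ t ^ γ` over the gaps.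
-/

set_option autoImplicit false

noncomputable section

open ModularCurve

namespace FLTA.BadRed.Ordinary

/-- Pairs of Laurent series. -/
abbrev LPair (R : Type*) [CommRing R] := Fin 2 → LaurentSeries R

section Basic

variable {R S : Type*} [CommRing R] [CommRing S]

/-- Coefficientwise map of pairs. -/
def mapPair (φ : R →+* S) : LPair R →+* LPair S :=
  RingHom.pi fun i => (coeffMap φ).comp (Pi.evalRingHom _ i)

@[simp]
theorem mapPair_coeff (φ : R →+* S) (z : LPair R) (i : Fin 2) (j : ℤ) :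
    (mapPair φ z i).coeff j = φ ((z i).coeff j) := rfl

theorem mapPair_smul (φ : R →+* S) (c : R) (z : LPair R) :
    mapPair φ (c • z) = φ c • mapPair φ z := by
  funext i
  ext j
  simp

theorem lsmul_mul (c : R) (x y : LPair R) : (c • x) * y = c • (x * y) := by
  funext i
  show c • x i * y i = c • (x i * y i)
  rw [← HahnSeries.C_mul_eq_smul, ← HahnSeries.C_mul_eq_smul, mul_assoc]

theorem lmul_smul (c : R) (x y : LPair R) : x * (c • y) = c • (x * y) := by
  rw [mul_comm, lsmul_mul, mul_comm]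

/-- The coefficient at a position. -/
def cf (z : LPair R) (γ : Fin 2 × ℤ) : R := (z γ.1).coeff γ.2

theorem cf_add (z z' : LPair R) (γ : Fin 2 × ℤ) : cf (z + z') γ = cf z γ + cf z' γ := rfl

theorem cf_sub (z z' : LPair R) (γ : Fin 2 × ℤ) : cf (z - z') γ = cf z γ - cf z' γ := rfl

theorem cf_smul (c : R) (z : LPair R) (γ : Fin 2 × ℤ) : cf (c • z) γ = c * cf z γ := rfl

theorem cf_zero (γ : Fin 2 × ℤ) : cf (0 : LPair R) γ = 0 := rfl

theorem cf_sum {ι : Type*} (s : Finset ι) (f : ι → LPair R) (γ : Fin 2 × ℤ) :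
    cf (∑ x ∈ s, f x) γ = ∑ x ∈ s, cf (f x) γ := by
  simp [cf, Finset.sum_apply]

theorem cf_one_of_ne {γ : Fin 2 × ℤ} (h : γ.2 ≠ 0) : cf (1 : LPair R) γ = 0 := by
  simp [cf, h]

theorem cf_mapPair (φ : R →+* S) (z : LPair R) (γ : Fin 2 × ℤ) :
    cf (mapPair φ z) γ = φ (cf z γ) := rfl

theorem ext_cf {z z' : LPair R} (h : ∀ γ, cf z γ = cf z' γ) : z = z' :=
  funext fun i => HahnSeries.ext (funext fun j => h (i, j))

/-- All coefficients lie in `J`. -/
def CoeffIn (J : Ideal R) (z : LPair R) : Prop := ∀ γ, cf z γ ∈ J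

namespace CoeffIn

variable {J J' : Ideal R} {z z' : LPair R}

theorem add (h : CoeffIn J z) (h' : CoeffIn J z') : CoeffIn J (z + z') :=
  fun γ => J.add_mem (h γ) (h' γ)

theorem sub (h : CoeffIn J z) (h' : CoeffIn J z') : CoeffIn J (z - z') :=
  fun γ => J.sub_mem (h γ) (h' γ)

theorem neg (h : CoeffIn J z) : CoeffIn J (-z) := fun γ => J.neg_mem (h γ)

theorem zero : CoeffIn J (0 : LPair R) := fun _ => J.zero_mem

theorem mono (h : CoeffIn J z) (hle : J ≤ J') : CoeffIn J' z := fun γ => hle (h γ)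

theorem mul (h : CoeffIn J z) (h' : CoeffIn J' z') : CoeffIn (J * J') (z * z') := fun γ => by
  show ((z γ.1) * (z' γ.1)).coeff γ.2 ∈ J * J'
  rw [HahnSeries.coeff_mul]
  exact Ideal.sum_mem _ fun x _ => Ideal.mul_mem_mul (h (γ.1, x.1)) (h' (γ.1, x.2))

theorem top : CoeffIn (⊤ : Ideal R) z := fun _ => Submodule.mem_top

theorem mul_right (h : CoeffIn J z) (w : LPair R) : CoeffIn J (z * w) := by
  simpa using h.mul (top (z := w))

theorem pow {I : Ideal R} (h : CoeffIn I z) : ∀ n : ℕ, CoeffIn (I ^ n) (z ^ n)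
  | 0 => by simpa using (top (z := (1 : LPair R)))
  | n + 1 => by simpa [pow_succ] using (pow h n).mul h

theorem eq_zero (h : CoeffIn ⊥ z) : z = 0 :=
  ext_cf fun γ => by simpa [cf_zero] using h γ

theorem map {φ : R →+* S} {J' : Ideal S} (h : CoeffIn J z) (hle : J.map φ ≤ J') :
    CoeffIn J' (mapPair φ z) := fun γ => hle (Ideal.mem_map_of_mem φ (h γ))

end CoeffIn

theorem mem_span_coeffIn {J : Ideal R} {V : Submodule R (LPair R)} {v : LPair R}
    (hv : v ∈ J • V) : CoeffIn J v := by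
  refine Submodule.smul_induction_on hv ?_ ?_
  · exact fun r hr x _ γ => J.mul_mem_right _ hr
  · exact fun x y hx hy => hx.add hy

/-- No polar part. -/
def NoPole (z : LPair R) : Prop := ∀ γ : Fin 2 × ℤ, γ.2 < 0 → cf z γ = 0

theorem NoPole.add {z z' : LPair R} (h : NoPole z) (h' : NoPole z') : NoPole (z + z') :=
  fun γ hγ => by rw [cf_add, h γ hγ, h' γ hγ, add_zero]

theorem NoPole.neg {z : LPair R} (h : NoPole z) : NoPole (-z) := fun γ hγ => by
  show -(cf z γ) = 0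
  rw [h γ hγ, neg_zero]

theorem NoPole.mul {z z' : LPair R} (h : NoPole z) (h' : NoPole z') : NoPole (z * z') :=
  fun γ hγ => by
    show ((z γ.1) * (z' γ.1)).coeff γ.2 = 0
    rw [HahnSeries.coeff_mul]
    refine Finset.sum_eq_zero fun x hx => ?_
    obtain ⟨-, -, hx3⟩ := Finset.mem_addAntidiagonal.mp hx
    rcases lt_or_ge x.1 0 with h1 | h1
    · rw [show (z γ.1).coeff x.1 = 0 from h (γ.1, x.1) h1, zero_mul]
    · have h2 : x.2 < 0 := by omega
      rw [show (z' γ.1).coeff x.2 = 0 from h' (γ.1, x.2) h2, mul_zero]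

theorem NoPole.map {φ : R →+* S} {z : LPair R} (h : NoPole z) : NoPole (mapPair φ z) :=
  fun γ hγ => by rw [cf_mapPair, h γ hγ, map_zero]

/-- A nilpotent element of a nonunital subring has a quasi-inverse in it. -/
theorem exists_quasi_inverse {L : Type*} [CommRing L] (P : L → Prop) (h0 : P 0)
    (hadd : ∀ a b, P a → P b → P (a + b)) (hneg : ∀ a, P a → P (-a))
    (hmul : ∀ a b, P a → P b → P (a * b)) {x : L} (hx : P x) {n : ℕ} (hn : x ^ n = 0) :
    ∃ y, P y ∧ (1 + x) * (1 + y) = 1 := by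
  have hpow : ∀ i : ℕ, P ((-x) ^ (i + 1)) := fun i => by
    induction i with
    | zero => simpa using hneg x hx
    | succ i ih => rw [pow_succ]; exact hmul _ _ ih (hneg x hx)
  refine ⟨∑ i ∈ Finset.range n, (-x) ^ (i + 1), ?_, ?_⟩
  · exact Finset.sum_induction _ P hadd h0 fun i _ => hpow i
  · have h1 : 1 + ∑ i ∈ Finset.range n, (-x) ^ (i + 1) = ∑ i ∈ Finset.range (n + 1), (-x) ^ i := by
      rw [Finset.sum_range_succ' _ n, pow_zero, add_comm]
    have h2 := mul_neg_geom_sum (-x) (n + 1)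
    rw [sub_neg_eq_add] at h2
    rw [h1, h2, neg_pow, pow_succ x, hn, zero_mul, mul_zero, sub_zero]

end Basic

/-- Sections at the non-gap polar positions, closed under products. -/
structure Frame (W : Type*) [CommRing W] where
  /-- the gaps -/
  Γ : Finset (Fin 2 × ℤ)
  neg : ∀ γ ∈ Γ, γ.2 < 0
  /-- the sections -/
  s : Fin 2 × ℤ → LPair W
  s_coeff : ∀ γ γ', γ.2 < 0 → γ ∉ Γ → γ'.2 < 0 → γ' ∉ Γ →
    cf (s γ) γ' = if γ' = γ then 1 else 0
  mul_mem : ∀ γ γ', γ.2 < 0 → γ ∉ Γ → γ'.2 < 0 → γ' ∉ Γ →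
    s γ * s γ' ∈ Submodule.span W (insert 1 (s '' {δ | δ.2 < 0 ∧ δ ∉ Γ}))

namespace Frame

variable {W : Type*} [CommRing W] (Φ : Frame W) {R : Type*} [CommRing R] (φ : W →+* R)

/-- The non-gap polar positions. -/
def nongap : Set (Fin 2 × ℤ) := {δ | δ.2 < 0 ∧ δ ∉ Φ.Γ}

/-- The section at a position, over `R`. -/
def sR (γ : Fin 2 × ℤ) : LPair R := mapPair φ (Φ.s γ)

theorem cf_sR {γ γ' : Fin 2 × ℤ} (h : γ ∈ Φ.nongap) (h' : γ' ∈ Φ.nongap) :
    cf (Φ.sR φ γ) γ' = if γ' = γ then 1 else 0 := by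
  rw [sR, cf_mapPair, Φ.s_coeff γ γ' h.1 h.2 h'.1 h'.2]
  split_ifs <;> simp

/-- The sections over `R`. -/
def sections : Submodule R (LPair R) := Submodule.span R (insert 1 (Φ.sR φ '' Φ.nongap))

theorem one_mem_sections : (1 : LPair R) ∈ Φ.sections φ :=
  Submodule.subset_span (Set.mem_insert _ _)

theorem sR_mem_sections {γ : Fin 2 × ℤ} (h : γ ∈ Φ.nongap) : Φ.sR φ γ ∈ Φ.sections φ :=
  Submodule.subset_span (Set.mem_insert_of_mem _ ⟨γ, h, rfl⟩)

theorem map_span_mem_sections {v : LPair W}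
    (hv : v ∈ Submodule.span W (insert 1 (Φ.s '' Φ.nongap))) :
    mapPair φ v ∈ Φ.sections φ := by
  induction hv using Submodule.span_induction with
  | mem x hx =>
    rcases hx with rfl | ⟨γ, hγ, rfl⟩
    · simpa using Φ.one_mem_sections φ
    · exact Φ.sR_mem_sections φ hγ
  | zero => simp
  | add x y _ _ hx hy => simpa using add_mem hx hy
  | smul c x _ hx => rw [mapPair_smul]; exact Submodule.smul_mem _ _ hx

theorem mul_mem_sections {u v : LPair R} (hu : u ∈ Φ.sections φ) (hv : v ∈ Φ.sections φ) :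
    u * v ∈ Φ.sections φ := by
  induction hu using Submodule.span_induction with
  | zero => simp
  | add x y _ _ hx hy => simpa [add_mul] using add_mem hx hy
  | smul c x _ hx => rw [lsmul_mul]; exact Submodule.smul_mem _ _ hx
  | mem x hx =>
    induction hv using Submodule.span_induction with
    | zero => simp
    | add y y' _ _ hy hy' => simpa [mul_add] using add_mem hy hy'
    | smul c y _ hy => rw [lmul_smul]; exact Submodule.smul_mem _ _ hy
    | mem y hy =>
      rcases hx with rfl | ⟨γ, hγ, rfl⟩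
      · rw [one_mul]; exact Submodule.subset_span hy
      rcases hy with rfl | ⟨γ', hγ', rfl⟩
      · rw [mul_one]; exact Φ.sR_mem_sections φ hγ
      · rw [sR, sR, ← map_mul]
        exact Φ.map_span_mem_sections φ (Φ.mul_mem γ γ' hγ.1 hγ.2 hγ'.1 hγ'.2)

/-- A section is determined by its constant and its non-gap coefficients. -/
theorem exists_expand {v : LPair R} (hv : v ∈ Φ.sections φ) :
    ∃ (c : R) (l : (Fin 2 × ℤ) →₀ R), ↑l.support ⊆ Φ.nongap ∧
      v = c • 1 + ∑ γ ∈ l.support, l γ • Φ.sR φ γ ∧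
      ∀ γ ∈ Φ.nongap, cf v γ = l γ := by
  classical
  rw [sections, Submodule.mem_span_insert] at hv
  obtain ⟨c, z, hz, rfl⟩ := hv
  obtain ⟨l, hl, rfl⟩ := (Finsupp.mem_span_image_iff_linearCombination R).mp hz
  rw [Finsupp.mem_supported] at hl
  refine ⟨c, l, hl, by rw [Finsupp.linearCombination_apply, Finsupp.sum], fun γ hγ => ?_⟩
  rw [cf_add, cf_smul, cf_one_of_ne hγ.1.ne, mul_zero, zero_add, Finsupp.linearCombination_apply,
    Finsupp.sum, cf_sum]
  rw [Finset.sum_eq_single γ]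
  · rw [cf_smul, Φ.cf_sR φ hγ hγ, if_pos rfl, mul_one]
  · intro δ hδ hne
    rw [cf_smul, Φ.cf_sR φ (hl hδ) hγ, if_neg (Ne.symm hne), mul_zero]
  · intro h
    simp [Finsupp.notMem_support_iff.mp h, cf_zero]

/-- If the non-gap coefficients lie in `J`, the section is a constant plus a section in `J`. -/
theorem exists_const_add {J : Ideal R} {v : LPair R} (hv : v ∈ Φ.sections φ)
    (h : ∀ γ ∈ Φ.nongap, cf v γ ∈ J) : ∃ c : R, v - c • 1 ∈ J • Φ.sections φ := by
  obtain ⟨c, l, hl, rfl, hc⟩ := Φ.exists_expand φ hv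
  refine ⟨c, ?_⟩
  rw [add_sub_cancel_left]
  exact Submodule.sum_mem _ fun γ hγ => Submodule.smul_mem_smul
    (by rw [← hc γ (hl hγ)]; exact h γ (hl hγ)) (Φ.sR_mem_sections φ (hl hγ))

/-- A normal form. -/
def nf (a : Φ.Γ → R) : LPair R :=
  1 + ∑ γ : Φ.Γ, Pi.single (γ : Fin 2 × ℤ).1 (HahnSeries.single (γ : Fin 2 × ℤ).2 (a γ))

theorem cf_piSingle (γ δ : Fin 2 × ℤ) (r : R) :
    cf (Pi.single γ.1 (HahnSeries.single γ.2 r) : LPair R) δ = if δ = γ then r else 0 := by
  obtain ⟨i, j⟩ := γ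
  obtain ⟨i', j'⟩ := δ
  rcases eq_or_ne i' i with rfl | hi
  · rcases eq_or_ne j' j with rfl | hj
    · simp [cf]
    · simp [cf, hj]
  · simp [cf, hi]

theorem cf_nf_sub_one (a : Φ.Γ → R) (δ : Fin 2 × ℤ) :
    cf (Φ.nf a - 1) δ = if h : δ ∈ Φ.Γ then a ⟨δ, h⟩ else 0 := by
  classical
  rw [nf, add_sub_cancel_left, cf_sum]
  simp only [cf_piSingle]
  split_ifs with h
  · rw [Finset.sum_eq_single (⟨δ, h⟩ : Φ.Γ)]
    · simp
    · intro γ _ hne
      rw [if_neg fun e => hne (Subtype.ext e.symm)]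
    · simp
  · exact Finset.sum_eq_zero fun γ _ => if_neg (fun e => h (by rw [e]; exact γ.2))

theorem coeffIn_nf_sub_one {J : Ideal R} {a : Φ.Γ → R} (ha : ∀ γ, a γ ∈ J) :
    CoeffIn J (Φ.nf a - 1) := fun δ => by
  rw [cf_nf_sub_one]
  split_ifs
  · exact ha _
  · exact J.zero_mem

/-- Products of sections and power series congruent to `1`. -/
def Triv (I : Ideal R) (t : LPair R) : Prop :=
  ∃ β υ : LPair R, β ∈ I • Φ.sections φ ∧ NoPole υ ∧ CoeffIn I υ ∧ t = (1 + β) * (1 + υ)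

variable {Φ φ} {I : Ideal R}

theorem sq_smul_sections {β β' : LPair R} (hβ : β ∈ I • Φ.sections φ)
    (hβ' : β' ∈ I • Φ.sections φ) : β * β' ∈ I • Φ.sections φ := by
  refine Submodule.smul_induction_on hβ (fun r hr x hx => ?_) (fun x y hx hy => ?_)
  · refine Submodule.smul_induction_on hβ' (fun r' _ y hy => ?_) (fun y y' hy hy' => ?_)
    · rw [lsmul_mul, lmul_smul, smul_smul]
      exact Submodule.smul_mem_smul (I.mul_mem_right r' hr) (Φ.mul_mem_sections φ hx hy)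
    · rw [mul_add]; exact add_mem hy hy'
  · rw [add_mul]; exact add_mem hx hy

theorem Triv.coeffIn_sub_one {t : LPair R} (h : Φ.Triv φ I t) : CoeffIn I (t - 1) := by
  obtain ⟨β, υ, hβ, -, hυ, rfl⟩ := h
  have hβ' := mem_span_coeffIn hβ
  rw [show (1 + β) * (1 + υ) - 1 = β + υ + β * υ by ring]
  exact (hβ'.add hυ).add (hβ'.mul_right υ)

theorem Triv.mul {t t' : LPair R} (h : Φ.Triv φ I t) (h' : Φ.Triv φ I t') :
    Φ.Triv φ I (t * t') := by
  obtain ⟨β, υ, hβ, hυ, hυI, rfl⟩ := h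
  obtain ⟨β', υ', hβ', hυ', hυI', rfl⟩ := h'
  refine ⟨β + β' + β * β', υ + υ' + υ * υ', add_mem (add_mem hβ hβ') (sq_smul_sections hβ hβ'),
    (hυ.add hυ').add (hυ.mul hυ'), (hυI.add hυI').add (hυI.mul_right υ'), by ring⟩

theorem triv_one_add_sections {β : LPair R} (hβ : β ∈ I • Φ.sections φ) : Φ.Triv φ I (1 + β) :=
  ⟨β, 0, hβ, fun _ _ => rfl, CoeffIn.zero, by simp⟩

theorem triv_one_add_noPole {υ : LPair R} (h : NoPole υ) (hI : CoeffIn I υ) :
    Φ.Triv φ I (1 + υ) :=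
  ⟨0, υ, Submodule.zero_mem _, h, hI, by simp⟩

theorem triv_one : Φ.Triv φ I 1 := by
  simpa using triv_one_add_sections (Φ := Φ) (φ := φ) (I := I) (Submodule.zero_mem _)

theorem pow_eq_zero_of_coeffIn {N : ℕ} (hN : I ^ N = ⊥) {z : LPair R} (hz : CoeffIn I z) :
    z ^ N = 0 :=
  CoeffIn.eq_zero (hN ▸ hz.pow N)

theorem Triv.exists_inv {N : ℕ} (hN : I ^ N = ⊥) {t : LPair R} (h : Φ.Triv φ I t) :
    ∃ t', Φ.Triv φ I t' ∧ t * t' = 1 := by
  obtain ⟨β, υ, hβ, hυ, hυI, rfl⟩ := h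
  obtain ⟨β', hβ', eβ⟩ := exists_quasi_inverse (fun z => z ∈ I • Φ.sections φ)
    (Submodule.zero_mem _) (fun _ _ => add_mem) (fun _ => neg_mem)
    (fun _ _ => sq_smul_sections) hβ (pow_eq_zero_of_coeffIn hN (mem_span_coeffIn hβ))
  obtain ⟨υ', ⟨hυ', hυI'⟩, eυ⟩ := exists_quasi_inverse (fun z => NoPole z ∧ CoeffIn I z)
    ⟨fun _ _ => rfl, CoeffIn.zero⟩ (fun _ _ h h' => ⟨h.1.add h'.1, h.2.add h'.2⟩)
    (fun _ h => ⟨h.1.neg, h.2.neg⟩) (fun _ _ h h' => ⟨h.1.mul h'.1, h.2.mul_right _⟩)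
    ⟨hυ, hυI⟩ (pow_eq_zero_of_coeffIn hN hυI)
  refine ⟨_, ⟨β', υ', hβ', hυ', hυI', rfl⟩, ?_⟩
  rw [mul_mul_mul_comm, eβ, eυ, one_mul]

/-- **Uniqueness of normal forms.** -/
theorem nf_unique {N : ℕ} (hN : I ^ N = ⊥) {a a' : Φ.Γ → R} (ha : ∀ γ, a γ ∈ I)
    (ha' : ∀ γ, a' γ ∈ I) {t : LPair R} (ht : Φ.Triv φ I t) (e : Φ.nf a' = Φ.nf a * t) :
    a' = a := by
  classical
  obtain ⟨β, υ, hβ, hυ, hυI, htdef⟩ := ht
  set δ := Φ.nf a' - Φ.nf a with hδ
  have hδcf : ∀ γ, cf δ γ = if h : γ ∈ Φ.Γ then a' ⟨γ, h⟩ - a ⟨γ, h⟩ else 0 := fun γ => by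
    rw [hδ, show Φ.nf a' - Φ.nf a = (Φ.nf a' - 1) - (Φ.nf a - 1) by ring, cf_sub, cf_nf_sub_one,
      cf_nf_sub_one]
    split_ifs <;> simp
  set X := t - 1 with hX
  have key : X = δ - (Φ.nf a - 1) * X := by
    rw [hX, hδ, e]; ring
  have hβV : β ∈ Φ.sections φ := Submodule.smul_le_right hβ
  have step : ∀ k : ℕ, CoeffIn (I ^ k) X ∧ CoeffIn (I ^ k) δ := by
    intro k
    induction k with
    | zero => exact ⟨by simpa using CoeffIn.top, by simpa using CoeffIn.top⟩
    | succ k ih =>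
      have hXδ : CoeffIn (I ^ (k + 1)) (X - δ) := by
        rw [show X - δ = -((Φ.nf a - 1) * X) by linear_combination key, pow_succ']
        exact ((Φ.coeffIn_nf_sub_one ha).mul ih.1).neg
      have hXeq : X = β + υ + β * υ := by rw [hX, htdef]; ring
      have hng : ∀ γ ∈ Φ.nongap, cf X γ ∈ I ^ (k + 1) := fun γ hγ => by
        have h1 := hXδ γ
        rwa [cf_sub, hδcf, dif_neg hγ.2, sub_zero] at h1
      have hl : ∀ l ≤ k + 1, ∀ γ ∈ Φ.nongap, cf β γ ∈ I ^ l ∧
          cf (β * υ) γ ∈ I ^ (l + 1) := by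
        intro l
        induction l with
        | zero =>
          intro _ γ _
          refine ⟨by simp, ?_⟩
          rw [zero_add, pow_one]
          exact (mem_span_coeffIn hβ).mul_right υ γ
        | succ l ihl =>
          intro hle
          have hb : ∀ γ ∈ Φ.nongap, cf β γ ∈ I ^ (l + 1) := fun γ hγ => by
            have h1 := hng γ hγ
            rw [hXeq, cf_add, cf_add, hυ γ hγ.1, add_zero] at h1
            have h2 := (ihl (by omega) γ hγ).2
            exact ((I ^ (l + 1)).add_mem_iff_left h2).mp (Ideal.pow_le_pow_right hle h1)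
          obtain ⟨c, hc⟩ := Φ.exists_const_add φ hβV hb
          intro γ hγ
          refine ⟨hb γ hγ, ?_⟩
          rw [show β * υ = c • υ + (β - c • 1) * υ by
            rw [sub_mul, lsmul_mul, one_mul]; ring, cf_add, cf_smul, hυ γ hγ.1, mul_zero,
            zero_add, pow_succ]
          exact (mem_span_coeffIn hc).mul hυI γ
      obtain ⟨c, hc⟩ := Φ.exists_const_add φ hβV fun γ hγ => (hl (k + 1) le_rfl γ hγ).1
      have hgap : ∀ γ ∈ Φ.Γ, cf X γ ∈ I ^ (k + 1) := fun γ hγ => by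
        rw [hXeq, show β + υ + β * υ =
          c • (1 + υ) + υ + ((β - c • 1) + (β - c • 1) * υ) by
            rw [smul_add, sub_mul, lsmul_mul, one_mul]; ring]
        rw [cf_add, cf_add, cf_smul, cf_add, cf_one_of_ne (Φ.neg γ hγ).ne, hυ γ (Φ.neg γ hγ),
          add_zero, zero_add, mul_zero, zero_add]
        exact (mem_span_coeffIn hc).add ((mem_span_coeffIn hc).mul_right υ) γ
      have hδ' : CoeffIn (I ^ (k + 1)) δ := fun γ => by
        by_cases h : γ ∈ Φ.Γ
        · have h1 := hXδ γ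
          rw [cf_sub] at h1
          exact ((I ^ (k + 1)).sub_mem_iff_right (hgap γ h)).mp h1
        · rw [hδcf, dif_neg h]
          exact Submodule.zero_mem _
      refine ⟨?_, hδ'⟩
      simpa using hXδ.add hδ'
  funext γ
  have h := (step N).2 γ
  rw [hN, hδcf, dif_pos γ.2] at h
  exact sub_eq_zero.mp (by simpa using h)

/-- Normal forms of equivalent pairs agree. -/
theorem nf_unique' {N : ℕ} (hN : I ^ N = ⊥) {a a' : Φ.Γ → R} (ha : ∀ γ, a γ ∈ I)
    (ha' : ∀ γ, a' γ ∈ I) {z t t' : LPair R} (ht : Φ.Triv φ I t) (ht' : Φ.Triv φ I t')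
    (e : z = Φ.nf a * t) (e' : z = Φ.nf a' * t') : a' = a := by
  obtain ⟨s, hs, hs1⟩ := ht'.exists_inv hN
  refine nf_unique hN ha ha' (ht.mul hs) ?_
  rw [← mul_assoc, ← e, e', mul_assoc, hs1, mul_one]

variable (Φ φ)

/-- **Existence of normal forms.** -/
theorem exists_nf {N : ℕ} (hN : I ^ N = ⊥) {z : LPair R} (hz : CoeffIn I (z - 1)) :
    ∃ (a : Φ.Γ → R) (t : LPair R), (∀ γ, a γ ∈ I) ∧ Φ.Triv φ I t ∧ z = Φ.nf a * t := by
  classical
  have step : ∀ k : ℕ, ∃ (a : Φ.Γ → R) (t : LPair R), (∀ γ, a γ ∈ I) ∧ Φ.Triv φ I t ∧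
      CoeffIn (I ^ (k + 1)) (z * t - Φ.nf a) := by
    intro k
    induction k with
    | zero =>
      refine ⟨0, 1, fun _ => I.zero_mem, triv_one, ?_⟩
      rw [pow_one, mul_one, show z - Φ.nf 0 = (z - 1) - (Φ.nf 0 - 1) by ring]
      exact hz.sub (Φ.coeffIn_nf_sub_one fun _ => I.zero_mem)
    | succ k ih =>
      obtain ⟨a, t, ha, ht, hh⟩ := ih
      set h := z * t - Φ.nf a with hhdef
      obtain ⟨b, hb⟩ : ∃ b : ℤ, ∀ (i : Fin 2) (j : ℤ), (h i).coeff j ≠ 0 → b ≤ j :=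
        ⟨min (h 0).order (h 1).order, Fin.forall_fin_two.mpr
          ⟨fun j hj => (min_le_left _ _).trans (HahnSeries.order_le_of_coeff_ne_zero hj),
            fun j hj => (min_le_right _ _).trans (HahnSeries.order_le_of_coeff_ne_zero hj)⟩⟩
      set T : Finset (Fin 2 × ℤ) :=
        ((Finset.univ : Finset (Fin 2)) ×ˢ Finset.Ico b 0).filter (· ∉ Φ.Γ)
      have hT : ∀ γ ∈ T, γ ∈ Φ.nongap := fun γ hγ => by
        simp only [T, Finset.mem_filter, Finset.mem_product, Finset.mem_Ico] at hγ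
        exact ⟨hγ.1.2.2, hγ.2⟩
      set β : LPair R := ∑ γ ∈ T, cf h γ • Φ.sR φ γ with hβdef
      have hβk : β ∈ I ^ (k + 1) • Φ.sections φ :=
        Submodule.sum_mem _ fun γ hγ =>
          Submodule.smul_mem_smul (hh γ) (Φ.sR_mem_sections φ (hT γ hγ))
      have hI : I ^ (k + 1) ≤ I := Ideal.pow_le_self (by omega)
      have hβng : ∀ γ ∈ Φ.nongap, cf β γ = cf h γ := fun γ hγ => by
        rw [hβdef, cf_sum]
        rcases eq_or_ne (cf h γ) 0 with h0 | h0
        · rw [h0]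
          refine Finset.sum_eq_zero fun δ hδ => ?_
          rw [cf_smul, Φ.cf_sR φ (hT δ hδ) hγ]
          split_ifs with e
          · rw [← e, h0, zero_mul]
          · rw [mul_zero]
        · rw [Finset.sum_eq_single γ]
          · rw [cf_smul, Φ.cf_sR φ hγ hγ, if_pos rfl, mul_one]
          · intro δ hδ hne
            rw [cf_smul, Φ.cf_sR φ (hT δ hδ) hγ, if_neg (Ne.symm hne), mul_zero]
          · intro hn
            exfalso
            apply hn
            simp only [T, Finset.mem_filter, Finset.mem_product, Finset.mem_univ,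
              Finset.mem_Ico, true_and]
            exact ⟨⟨hb γ.1 γ.2 h0, hγ.1⟩, hγ.2⟩
      set r := h - β with hrdef
      have hr : CoeffIn (I ^ (k + 1)) r := hh.sub (mem_span_coeffIn hβk)
      set d : Φ.Γ → R := fun γ => cf r γ with hddef
      set υ : LPair R := r - (Φ.nf d - 1) with hυdef
      have hυ : NoPole υ := fun γ hγ => by
        rw [hυdef, cf_sub, cf_nf_sub_one]
        split_ifs with hm
        · exact sub_self _
        · rw [sub_zero, hrdef, cf_sub, hβng γ ⟨hγ, hm⟩, sub_self]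
      have hυk : CoeffIn (I ^ (k + 1)) υ := hr.sub (Φ.coeffIn_nf_sub_one fun γ => hr _)
      refine ⟨a + d, t * ((1 + -β) * (1 + -υ)), fun γ => I.add_mem (ha γ) (hI (hr _)),
        ht.mul ((triv_one_add_sections (neg_mem (Submodule.smul_mono_left hI hβk))).mul
          (triv_one_add_noPole hυ.neg (hυk.neg.mono hI))), ?_⟩
      have hnf : Φ.nf (a + d) = Φ.nf a + (Φ.nf d - 1) := by
        refine ext_cf fun γ => ?_
        rw [show Φ.nf (a + d) = (Φ.nf (a + d) - 1) + 1 by ring,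
          show Φ.nf a + (Φ.nf d - 1) = (Φ.nf a - 1) + (Φ.nf d - 1) + 1 by ring, cf_add, cf_add,
          cf_add, cf_nf_sub_one, cf_nf_sub_one, cf_nf_sub_one]
        split_ifs <;> simp
      have hzt : CoeffIn I (z * t - 1) := by
        rw [show z * t - 1 = h + (Φ.nf a - 1) by rw [hhdef]; ring]
        exact (hh.mono hI).add (Φ.coeffIn_nf_sub_one ha)
      rw [hnf, show z * (t * ((1 + -β) * (1 + -υ))) - (Φ.nf a + (Φ.nf d - 1)) =
          (z * t - 1) * (-β + -υ + β * υ) + β * υ by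
        rw [show Φ.nf d - 1 = r - υ by rw [hυdef]; ring,
          show Φ.nf a = z * t - h by rw [hhdef]; ring, hrdef]
        ring]
      refine CoeffIn.add ?_ ?_
      · rw [pow_succ']
        exact hzt.mul (((mem_span_coeffIn hβk).neg.add hυk.neg).add
          ((mem_span_coeffIn hβk).mul_right υ))
      · rw [pow_succ]
        exact (mem_span_coeffIn hβk).mul (hυk.mono hI)
  obtain ⟨a, t, ha, ht, h⟩ := step N
  obtain ⟨t', ht', he⟩ := ht.exists_inv hN
  have h0 : z * t - Φ.nf a = 0 := CoeffIn.eq_zero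
    ((h.mono (Ideal.pow_le_pow_right (Nat.le_succ N))).mono hN.le)
  refine ⟨a, t', ha, ht', ?_⟩
  rw [← sub_eq_zero.mp h0, mul_assoc, he, mul_one]

variable {Φ φ}

section Functorial

variable {S : Type*} [CommRing S] (ψ : R →+* S)

theorem mapPair_nf (a : Φ.Γ → R) : mapPair ψ (Φ.nf a) = Φ.nf (ψ ∘ a) := by
  have h : mapPair ψ (Φ.nf a - 1) = Φ.nf (ψ ∘ a) - 1 := ext_cf fun γ => by
    rw [cf_mapPair, cf_nf_sub_one, cf_nf_sub_one]
    split_ifs <;> simp
  rw [map_sub, map_one] at h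
  exact sub_left_injective h

theorem mapPair_sR (γ : Fin 2 × ℤ) : mapPair ψ (Φ.sR φ γ) = Φ.sR (ψ.comp φ) γ :=
  ext_cf fun _ => rfl

theorem mapPair_sections {v : LPair R} (hv : v ∈ Φ.sections φ) :
    mapPair ψ v ∈ Φ.sections (ψ.comp φ) := by
  induction hv using Submodule.span_induction with
  | mem x hx =>
    rcases hx with rfl | ⟨γ, hγ, rfl⟩
    · rw [map_one]; exact Φ.one_mem_sections _
    · rw [mapPair_sR]; exact Φ.sR_mem_sections _ hγ
  | zero => simp
  | add x y _ _ hx hy => simpa using add_mem hx hy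
  | smul c x _ hx => rw [mapPair_smul]; exact Submodule.smul_mem _ _ hx

theorem Triv.map {J : Ideal S} (hJ : I.map ψ ≤ J) {t : LPair R} (h : Φ.Triv φ I t) :
    Φ.Triv (ψ.comp φ) J (mapPair ψ t) := by
  obtain ⟨β, υ, hβ, hυ, hυI, rfl⟩ := h
  refine ⟨mapPair ψ β, mapPair ψ υ, ?_, hυ.map, hυI.map hJ, by simp⟩
  clear hυI
  refine Submodule.smul_induction_on hβ (fun r hr x hx => ?_) (fun x y hx hy => ?_)
  · rw [mapPair_smul]
    exact Submodule.smul_mem_smul (hJ (Ideal.mem_map_of_mem ψ hr)) (mapPair_sections ψ hx)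
  · simpa using add_mem hx hy

/-- Addition of normal forms is universal. -/
theorem exists_universal {N : ℕ} (hN : I ^ N = ⊥) {a b : Φ.Γ → R} (ha : ∀ γ, a γ ∈ I)
    (hb : ∀ γ, b γ ∈ I) :
    ∃ c : Φ.Γ → R, (∀ γ, c γ ∈ I) ∧ ∀ (S : Type*) [CommRing S] (ψ : R →+* S) (J : Ideal S),
      I.map ψ ≤ J → ∃ t, Φ.Triv (ψ.comp φ) J t ∧
        Φ.nf (ψ ∘ a) * Φ.nf (ψ ∘ b) = Φ.nf (ψ ∘ c) * t := by
  have h1 : CoeffIn I (Φ.nf a * Φ.nf b - 1) := by
    rw [show Φ.nf a * Φ.nf b - 1 = (Φ.nf a - 1) * Φ.nf b + (Φ.nf b - 1) by ring]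
    exact ((Φ.coeffIn_nf_sub_one ha).mul_right _).add (Φ.coeffIn_nf_sub_one hb)
  obtain ⟨c, t, hc, ht, e⟩ := Φ.exists_nf φ hN h1
  refine ⟨c, hc, fun S _ ψ J hJ => ⟨mapPair ψ t, ht.map ψ hJ, ?_⟩⟩
  have := congrArg (mapPair ψ) e
  rwa [map_mul, map_mul, mapPair_nf, mapPair_nf, mapPair_nf] at this

end Functorial

end Frame

end FLTA.BadRed.Ordinary

end
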