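import Mathlib
import Fermat.Prelude.Def_GaloisRep_LocalConditions

/-!
# Ordinary lines can be patched from points

A two dimensional representation over a local ring `T` which, at a jointly injective family of
points `T → K i`, has a stable line with trivial inertia on the quotient, is ordinary as soon as
the determinant of some inertia element is not congruent to `1`.
-/

set_option autoImplicit false

noncomputable section

open scoped TensorProduct

namespace FLTA.BadRed.Ordinary

section Line

variable {K W : Type*} [Field K] [AddCommGroup W] [Module K W] [FiniteDimensional K W]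

/-- If `f` is trivial on `W / L` for a line `L` then `f` acts on `L` by its determinant. -/
theorem apply_eq_det_smul_of_sub_mem_line (L : Submodule K W) (hL : Module.finrank K L = 1)
    (f : Module.End K W) (hf : ∀ w, f w - w ∈ L) {v : W} (hv : v ∈ L) :
    f v = LinearMap.det f • v := by
  classical
  obtain ⟨L', hc⟩ := L.exists_isCompl
  have hfL : ∀ x ∈ L, f x ∈ L := fun x hx => by
    simpa using L.add_mem (hf x) hx
  obtain ⟨a, ha⟩ : ∃ a : K, ∀ x : L, f (x : W) = a • (x : W) := by
    obtain ⟨v0, -, hspan⟩ := finrank_eq_one_iff'.mp hL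
    obtain ⟨a, ha⟩ := hspan ⟨f v0, hfL _ v0.2⟩
    refine ⟨a, fun x => ?_⟩
    obtain ⟨b, rfl⟩ := hspan x
    have : f (v0 : W) = a • (v0 : W) := (congrArg Subtype.val ha).symm
    simp [this, smul_comm a b]
  suffices LinearMap.det f = a by rw [this]; exact ha ⟨v, hv⟩
  have hquot : L.mapQ L f (fun x hx => hfL x hx) = LinearMap.id :=
    Submodule.linearMap_qext _ (LinearMap.ext fun w => by
      simpa [Submodule.Quotient.eq] using hf w)
  have hres : f.restrict (fun x hx => hfL x hx) = a • LinearMap.id (R := K) (M := L) :=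
    LinearMap.ext fun x => Subtype.ext (ha x)
  rw [LinearMap.det_eq_det_mul_det L f (fun x hx => hfL x hx), hquot, hres, LinearMap.det_id,
    LinearMap.det_smul, LinearMap.det_id, hL]
  simp

end Line

section Points

variable {T : Type*} [CommRing T] [IsLocalRing T] {V : Type*} [AddCommGroup V] [Module T V]
  [Module.Free T V] [Module.Finite T V]

/-- The eigenline of `s` for its determinant, when this is not congruent to `1`. -/
theorem exists_basis_eigen (hV : Module.finrank T V = 2) (s : Module.End T V)
    (hc0 : IsUnit (LinearMap.det s)) (hc : IsUnit (LinearMap.det s - 1))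
    (hquad : (s - 1) * (s - LinearMap.det s • 1) = 0) :
    ∃ b : Module.Basis (Fin 2) T V,
      s (b 0) = LinearMap.det s • b 0 ∧ s (b 1) = b 1 ∧
        ∀ v, s v - v ∈ Submodule.span T {b 0} := by
  classical
  set c := LinearMap.det s with hcdef
  obtain ⟨u, hu⟩ := hc
  set e : Module.End T V := (↑u⁻¹ : T) • (s - 1) with he
  have hquad' : ∀ v, s (s v - v) = c • (s v - v) := by
    intro v
    have h1 := LinearMap.congr_fun hquad v
    simp only [Module.End.mul_apply, LinearMap.sub_apply, Module.End.one_apply,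
      LinearMap.smul_apply, LinearMap.zero_apply, map_sub, map_smul] at h1
    rw [map_sub, smul_sub]
    linear_combination (norm := module) h1
  have hucancel : (↑u⁻¹ : T) * (c - 1) = 1 := by rw [← hu, Units.inv_mul]
  have hse : ∀ v, s (e v) = c • e v := by
    intro v
    simp only [he, LinearMap.smul_apply, LinearMap.sub_apply, Module.End.one_apply, map_smul,
      hquad' v]
    exact smul_comm _ _ _
  have hee : ∀ v, e (e v) = e v := by
    intro v
    have h1 : ∀ w, e w = (↑u⁻¹ : T) • (s w - w) := fun w => rfl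
    have : e (e v) = ((↑u⁻¹ : T) * (c - 1)) • e v := by
      rw [h1 (e v), hse v, mul_smul, sub_smul, one_smul]
    rw [this, hucancel, one_smul]
  have hsv : ∀ v, s v - v = (c - 1) • e v := by
    intro v
    simp only [he, LinearMap.smul_apply, LinearMap.sub_apply, Module.End.one_apply, smul_smul]
    rw [mul_comm, hucancel, one_smul]
  have hker : ∀ v ∈ LinearMap.ker e, s v = v := by
    intro v hv
    have := hsv v
    rw [LinearMap.mem_ker.mp hv, smul_zero] at this
    exact sub_eq_zero.mp this
  have hidem : IsIdempotentElem e := LinearMap.ext hee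
  have hcompl : IsCompl (LinearMap.range e) (LinearMap.ker e) :=
    LinearMap.IsIdempotentElem.isCompl hidem
  set L := LinearMap.range e
  set M := LinearMap.ker e
  have hLfin : Module.Finite T L := Module.Finite.range e
  let pM : V →ₗ[T] M := LinearMap.codRestrict M (LinearMap.id - e) fun v => by
    simp [M, hee v]
  have hMfin : Module.Finite T M := Module.Finite.of_surjective pM fun m => ⟨m, Subtype.ext (by
    have : e (m : V) = 0 := LinearMap.mem_ker.mp m.2
    simp [pM, this])⟩
  have hLproj : Module.Projective T L := Module.Projective.of_split L.subtype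
    (LinearMap.codRestrict L e fun v => ⟨v, rfl⟩) (LinearMap.ext fun x => Subtype.ext (by
      obtain ⟨w, hw⟩ := x.2
      show e (x : V) = x
      rw [← hw, hee w]))
  have hMproj : Module.Projective T M := Module.Projective.of_split M.subtype pM
    (LinearMap.ext fun x => Subtype.ext (by
      have : e (x : V) = 0 := LinearMap.mem_ker.mp x.2
      simp [pM, this]))
  haveI : Module.Free T L := Module.free_of_flat_of_isLocalRing
  haveI : Module.Free T M := Module.free_of_flat_of_isLocalRing
  let φ : (L × M) ≃ₗ[T] V := Submodule.prodEquivOfIsCompl L M hcompl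
  have hsum : Module.finrank T L + Module.finrank T M = 2 := by
    rw [← hV, ← φ.finrank_eq, Module.finrank_prod]
  have hconj : (φ.symm : V →ₗ[T] L × M) ∘ₗ s ∘ₗ (φ : L × M →ₗ[T] V) =
      (c • LinearMap.id).prodMap LinearMap.id := by
    refine LinearMap.ext fun x => ?_
    apply φ.injective
    obtain ⟨⟨l, w, rfl⟩, m⟩ := x
    simp only [LinearMap.comp_apply, LinearEquiv.coe_coe, LinearEquiv.apply_symm_apply,
      LinearMap.prodMap_apply, LinearMap.smul_apply, LinearMap.id_apply]
    simp only [φ, Submodule.coe_prodEquivOfIsCompl', Submodule.coe_smul, map_add]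
    rw [hse w, hker m.1 m.2]
  have hdet : c = c ^ Module.finrank T L := by
    have h1 := LinearMap.det_conj s φ.symm
    simp only [LinearEquiv.symm_symm] at h1
    rw [hconj, LinearMap.det_prodMap, LinearMap.det_smul, LinearMap.det_id, LinearMap.det_id,
      mul_one, mul_one] at h1
    exact h1.symm
  have hc1 : c ≠ 1 := fun h => by
    have : (u : T) = 0 := by rw [hu, h, sub_self]
    exact u.ne_zero this
  have hrank : Module.finrank T L = 1 := by
    rcases Nat.lt_trichotomy (Module.finrank T L) 1 with h | h | h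
    · rw [Nat.lt_one_iff.mp h, pow_zero] at hdet; exact absurd hdet hc1
    · exact h
    · have h2 : Module.finrank T L = 2 := by omega
      rw [h2] at hdet
      have hzero : c * (c - 1) = 0 := by linear_combination -hdet
      rw [← hu] at hzero
      exact absurd ((Units.mul_left_eq_zero u).mp hzero) hc0.ne_zero
  have hMrank : Module.finrank T M = 1 := by omega
  let bL := Module.finBasisOfFinrankEq T L hrank
  let bM := Module.finBasisOfFinrankEq T M hMrank
  let b : Module.Basis (Fin 2) T V :=
    ((bL.prod bM).map φ).reindex finSumFinEquiv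
  have hb0 : b 0 = (bL 0 : V) := by
    simp [b, φ, finSumFinEquiv, Fin.addCases]
  have hb1 : b 1 = (bM 0 : V) := by
    simp [b, φ, finSumFinEquiv, Fin.addCases]
  refine ⟨b, ?_, ?_, ?_⟩
  · rw [hb0]; obtain ⟨w, hw⟩ := (bL 0).2; rw [← hw, hse w]
  · rw [hb1]; exact hker _ (bM 0).2
  · intro v
    rw [hsv v, Submodule.mem_span_singleton, hb0]
    refine ⟨(c - 1) * bL.repr ⟨e v, v, rfl⟩ 0, ?_⟩
    have := bL.sum_repr ⟨e v, v, rfl⟩
    rw [Fin.sum_univ_one] at this
    rw [mul_smul, ← Submodule.coe_smul, this]

/-- Equality in a free module may be checked at a jointly injective family of points. -/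
theorem eq_zero_of_forall_one_tmul {ι : Type*} (K : ι → Type*) [∀ i, Field (K i)]
    [∀ i, Algebra T (K i)] (hinj : ∀ t : T, (∀ i, algebraMap T (K i) t = 0) → t = 0) {v : V}
    (hv : ∀ i, (1 : K i) ⊗ₜ[T] v = 0) : v = 0 := by
  let b := Module.Free.chooseBasis T V
  refine b.repr.map_eq_zero_iff.mp (Finsupp.ext fun j => hinj _ fun i => ?_)
  have := congrArg (fun w => (b.baseChange (K i)).repr w j) (hv i)
  simpa [Algebra.algebraMap_eq_smul_one] using this

end Points

section Galois

/-- A point at which `ρ` has an ordinary line at `P`. -/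
def HasLineAt {A : Type} [CommRing A] [IsLocalRing A] (ρ : GaloisRepAdic A) (K : Type*) [Field K]
    [Algebra A K] (P : ValuationSubring (AlgebraicClosure ℚ)) : Prop :=
  ∃ L : Submodule K (K ⊗[A] ρ.V), Module.finrank K L = 1 ∧
    (∀ σ ∈ P.decompositionSubgroup ℚ, ∀ w ∈ L, (ρ.ρ σ).baseChange K w ∈ L) ∧
    ∀ σ ∈ P.inertiaSubgroupIn ℚ, ∀ w, (ρ.ρ σ).baseChange K w - w ∈ L

/-- A representation with an ordinary line at every point of a jointly injective family is
ordinary, provided the determinant is not residually trivial on inertia. -/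
theorem isOrdinaryAt_of_points {A : Type} [CommRing A] [IsLocalRing A] (ρ : GaloisRepAdic A)
    (p : ℕ) {ι : Type*} (K : ι → Type*) [∀ i, Field (K i)] [∀ i, Algebra A (K i)]
    (hinj : ∀ t : A, (∀ i, algebraMap A (K i) t = 0) → t = 0)
    (hdet : ∀ P : ValuationSubring (AlgebraicClosure ℚ), P.LiesOverPrime p →
      ∃ σ ∈ P.inertiaSubgroupIn ℚ, IsUnit (LinearMap.det (ρ.ρ σ) - 1))
    (hline : ∀ i, ∀ P : ValuationSubring (AlgebraicClosure ℚ), P.LiesOverPrime p →
      HasLineAt ρ (K i) P) :
    ρ.IsOrdinaryAt p := by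
  intro P hP
  obtain ⟨σ₀, hσ₀, hu⟩ := hdet P hP
  set s := ρ.ρ σ₀ with hs
  set c := LinearMap.det s with hcdef
  have hc0 : IsUnit c := by
    refine IsUnit.of_mul_eq_one (LinearMap.det (ρ.ρ σ₀⁻¹)) ?_
    rw [hcdef, hs, ← map_mul, ← map_mul, mul_inv_cancel, map_one, map_one]
  -- at every point `s` is trivial on the quotient and is `c` on the line
  have hpt : ∀ i, ∀ L : Submodule (K i) (K i ⊗[A] ρ.V), Module.finrank (K i) L = 1 →
      (∀ w, s.baseChange (K i) w - w ∈ L) →
      ∀ w ∈ L, s.baseChange (K i) w = algebraMap A (K i) c • w := by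
    intro i L hL h w hw
    rw [apply_eq_det_smul_of_sub_mem_line L hL _ h hw, LinearMap.det_baseChange]
  have hquad : (s - 1) * (s - c • 1) = 0 := by
    refine LinearMap.ext fun v => eq_zero_of_forall_one_tmul K hinj fun i => ?_
    obtain ⟨L, hL, -, hI⟩ := hline i P hP
    have hmem := hI σ₀ hσ₀ ((1 : K i) ⊗ₜ v)
    rw [LinearMap.baseChange_tmul, ← TensorProduct.tmul_sub] at hmem
    have h1 := hpt i L hL (hI σ₀ hσ₀) _ hmem
    rw [LinearMap.baseChange_tmul, IsScalarTower.algebraMap_smul] at h1
    have h2 : ((s - 1) * (s - c • 1)) v = s (s v - v) - c • (s v - v) := by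
      simp only [Module.End.mul_apply, LinearMap.sub_apply, Module.End.one_apply,
        LinearMap.smul_apply, map_sub, map_smul, smul_sub]
    rw [h2, TensorProduct.tmul_sub, TensorProduct.tmul_smul, h1, sub_self]
  obtain ⟨b, hb0, -, hbI⟩ := exists_basis_eigen ρ.finrank_eq s hc0 hu hquad
  refine ⟨Submodule.span A {b 0}, ⟨b, rfl⟩, ?_, ?_⟩
  · -- `(s - 1) ρ σ` maps `b 0` to `(c - 1) ρ σ (b 0)`
    intro σ hσ v hv
    obtain ⟨a, rfl⟩ := Submodule.mem_span_singleton.mp hv
    rw [map_smul]
    refine Submodule.smul_mem _ _ ?_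
    have key : s (ρ.ρ σ (b 0)) = c • ρ.ρ σ (b 0) := by
      refine sub_eq_zero.mp (eq_zero_of_forall_one_tmul K hinj fun i => ?_)
      obtain ⟨L, hL, hD, hI⟩ := hline i P hP
      have hmem : (1 : K i) ⊗ₜ[A] b 0 ∈ L := by
        have h2 := hI σ₀ hσ₀ ((1 : K i) ⊗ₜ b 0)
        rw [LinearMap.baseChange_tmul, hb0, TensorProduct.tmul_smul] at h2
        obtain ⟨u, hu'⟩ := hu
        have h3 : ((c - 1 : A)) • ((1 : K i) ⊗ₜ[A] b 0) ∈ L := by
          have e : ((c - 1 : A)) • ((1 : K i) ⊗ₜ[A] b 0) =
              c • ((1 : K i) ⊗ₜ[A] b 0) - (1 : K i) ⊗ₜ[A] b 0 := by module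
          rw [e]; exact h2
        have h4 := L.smul_mem (algebraMap A (K i) ↑u⁻¹) h3
        rwa [IsScalarTower.algebraMap_smul, smul_smul, ← hu', Units.inv_mul, one_smul] at h4
      have h1 := hpt i L hL (hI σ₀ hσ₀) _ (hD σ hσ _ hmem)
      rw [LinearMap.baseChange_tmul, LinearMap.baseChange_tmul, IsScalarTower.algebraMap_smul] at h1
      rw [TensorProduct.tmul_sub, TensorProduct.tmul_smul, h1, sub_self]
    obtain ⟨u, hu'⟩ := hu
    have h5 := hbI (ρ.ρ σ (b 0))
    rw [key] at h5
    have h6 : (c - 1) • ρ.ρ σ (b 0) ∈ Submodule.span A {b 0} := by rwa [sub_smul, one_smul]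
    have h7 := Submodule.smul_mem _ (↑u⁻¹ : A) h6
    rwa [smul_smul, ← hu', Units.inv_mul, one_smul] at h7
  · intro σ hσ v
    -- `x := ρ σ v - v` is an eigenvector of `s` for `c`
    set x := ρ.ρ σ v - v with hx
    have key : s x = c • x := by
      refine sub_eq_zero.mp (eq_zero_of_forall_one_tmul K hinj fun i => ?_)
      obtain ⟨L, hL, -, hI⟩ := hline i P hP
      have h1 := hpt i L hL (hI σ₀ hσ₀) _ (hI σ hσ ((1 : K i) ⊗ₜ v))
      rw [LinearMap.baseChange_tmul, ← TensorProduct.tmul_sub, ← hx, LinearMap.baseChange_tmul,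
        IsScalarTower.algebraMap_smul] at h1
      rw [TensorProduct.tmul_sub, TensorProduct.tmul_smul, h1, sub_self]
    obtain ⟨u, hu'⟩ := hu
    have h5 := hbI x
    rw [key] at h5
    have h6 : (c - 1) • x ∈ Submodule.span A {b 0} := by rwa [sub_smul, one_smul]
    have h7 := Submodule.smul_mem _ (↑u⁻¹ : A) h6
    rwa [smul_smul, ← hu', Units.inv_mul, one_smul] at h7

end Galois

end FLTA.BadRed.Ordinary

end
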