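import Fermat.Agent.BadRed.Ordinary.Patch
import Fermat.Agent.BadRed.Ordinary.Residual
import Fermat.Agent.Galois.Places

/-!
# A plane in the Tate module with a residual invariant functional is ordinary
-/

set_option autoImplicit false
set_option linter.style.haveILetI false
set_option linter.unusedSectionVars false

noncomputable section

open scoped TensorProduct Matrix

namespace FLTA.BadRed.Ordinary

open FLTA.GaloisReps (piAlgebraMap piAlgebraMap_apply piAlgebraMap_injective)

local notation "Γ" => AlgebraicClosure ℚ ≃ₐ[ℚ] AlgebraicClosure ℚ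

/-- Inertia is normal in the decomposition group. -/
theorem conj_mem_inertiaSubgroupIn {K L : Type*} [Field K] [Field L] [Algebra K L]
    {P : ValuationSubring L} {d σ : L ≃ₐ[K] L}
    (hd : d ∈ P.decompositionSubgroup K) (hσ : σ ∈ P.inertiaSubgroupIn K) :
    d * σ * d⁻¹ ∈ P.inertiaSubgroupIn K := by
  unfold ValuationSubring.inertiaSubgroupIn at hσ ⊢
  obtain ⟨τ, hτ, h⟩ := Subgroup.mem_map.1 hσ
  let δ : P.decompositionSubgroup K := ⟨d, hd⟩
  refine Subgroup.mem_map.2 ⟨δ * τ * δ⁻¹, ?_, ?_⟩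
  · unfold ValuationSubring.inertiaSubgroup at hτ ⊢
    exact (MonoidHom.normal_ker _).conj_mem τ hτ δ
  · rw [← h]; simp only [map_mul, map_inv, Subgroup.coe_subtype, δ]

variable {p : ℕ} [Fact p.Prime] {r : ℕ}
  {O : Type} [CommRing O] [IsDomain O] [IsDiscreteValuationRing O] [Algebra ℤ_[p] O]
  [Module.Finite ℤ_[p] O] [Module.Free ℤ_[p] O] [CharZero O]

theorem piAlgebraMap_actO (K : Type) [Field K] [Algebra O K]
    (rho : Γ →* Matrix (Fin r) (Fin r) ℤ_[p]) (d : Γ) (v : Fin r → O) :
    (rho d).map ((algebraMap O K).comp (algebraMap ℤ_[p] O)) *ᵥ piAlgebraMap K v =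
      piAlgebraMap K (actO rho d v) := by
  funext i
  rw [piAlgebraMap_apply, actO_apply, RingHom.map_mulVec]
  simp only [Matrix.map_map]
  rfl

/-- The ordinary line of a saturated stable plane with a residual invariant functional. -/
theorem hasLineAt_of_inertiaTorsion (ρ : GaloisRepAdic O)
    (rho : Γ →* Matrix (Fin r) (Fin r) ℤ_[p]) (hpO : (p : O) ∈ IsLocalRing.maximalIdeal O)
    (f : ρ.V →ₗ[O] (Fin r → O)) (hf : Function.Injective f)
    (hsat : ∀ v, (p : O) • v ∈ LinearMap.range f → v ∈ LinearMap.range f)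
    (hequiv : ∀ σ v, f (ρ.ρ σ v) = actO rho σ (f v))
    (P : ValuationSubring (AlgebraicClosure ℚ))
    (H : InertiaTorsion rho (P.inertiaSubgroupIn ℚ))
    (lam : ρ.V →ₗ[O] IsLocalRing.ResidueField O) (hne : lam ≠ 0)
    (hinv : ∀ σ ∈ P.inertiaSubgroupIn ℚ, ∀ v, lam (ρ.ρ σ v) = lam v)
    (hram : ∃ σ ∈ P.inertiaSubgroupIn ℚ, ρ.ρ σ ≠ 1)
    (K : Type) [Field K] [Algebra O K] [IsFractionRing O K] : HasLineAt ρ K P := by
  classical
  have hΛ : ∀ σ ∈ P.decompositionSubgroup ℚ, ∀ v ∈ LinearMap.range f,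
      actO rho σ v ∈ LinearMap.range f := by
    rintro σ - _ ⟨v, rfl⟩
    exact ⟨ρ.ρ σ v, hequiv σ v⟩
  let b := Module.finBasisOfFinrankEq O ρ.V ρ.finrank_eq
  let u : Fin 2 → (Fin r → K) := fun i => piAlgebraMap K (f (b i))
  have hu : LinearIndependent K u := by
    rw [← LinearIndependent.iff_fractionRing (R := O) (K := K)]
    exact (b.linearIndependent.map' f (LinearMap.ker_eq_bot.2 hf)).map' (piAlgebraMap K)
      (LinearMap.ker_eq_bot.mpr (piAlgebraMap_injective K))
  let g : K ⊗[O] ρ.V →ₗ[K] (Fin r → K) := (b.baseChange K).constr K u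
  have hg : ∀ v, g (1 ⊗ₜ v) = piAlgebraMap K (f v) := by
    intro v
    have : (g.restrictScalars O).comp (TensorProduct.mk O K ρ.V 1) =
        (piAlgebraMap K).comp f := b.ext fun i => by
      show g (1 ⊗ₜ b i) = _
      rw [← Module.Basis.baseChange_apply, Module.Basis.constr_basis]
      rfl
    exact LinearMap.congr_fun this v
  have hgi : Function.Injective g := by
    rw [← LinearMap.ker_eq_bot]
    refine LinearMap.ker_eq_bot'.2 fun w hw => ?_
    rw [← (b.baseChange K).sum_repr w, map_sum] at hw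
    simp only [map_smul, g, Module.Basis.constr_basis] at hw
    have h0 := Fintype.linearIndependent_iff.1 hu _ hw
    rw [← (b.baseChange K).sum_repr w]
    simp [h0]
  have hgc : ∀ (c : K) (v : ρ.V), g (c ⊗ₜ v) = c • piAlgebraMap K (f v) := fun c v => by
    rw [← hg, ← map_smul, TensorProduct.smul_tmul', smul_eq_mul, mul_one]
  have hrange : LinearMap.range g = latticeSpan K (LinearMap.range f) := by
    refine le_antisymm ?_ (Submodule.span_le.2 ?_)
    · rintro _ ⟨w, rfl⟩
      induction w using TensorProduct.induction_on with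
      | zero => rw [map_zero]; exact zero_mem _
      | tmul c v =>
        rw [hgc]
        exact Submodule.smul_mem _ c (Submodule.subset_span ⟨_, ⟨v, rfl⟩, rfl⟩)
      | add x y hx hy => rw [map_add]; exact add_mem hx hy
    · rintro _ ⟨_, ⟨v, rfl⟩, rfl⟩
      exact ⟨1 ⊗ₜ v, hg v⟩
  have hrank : Module.finrank K (latticeSpan K (LinearMap.range f)) = 2 := by
    rw [← hrange, LinearMap.finrank_range_of_inj hgi, Module.finrank_baseChange, ρ.finrank_eq]
  let e := LinearEquiv.ofInjective f hf
  obtain ⟨h1, h2⟩ := H.exists_line K hpO (P.decompositionSubgroup ℚ)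
    FLTA.Galois.inertiaSubgroupIn_le_decompositionSubgroup
    (fun d hd σ hσ => conj_mem_inertiaSubgroupIn hd hσ) hΛ hsat hrank
    (lam.comp e.symm.toLinearMap)
    (fun h => hne (LinearMap.ext fun v => by simpa using LinearMap.congr_fun h (e v)))
    (fun σ hσ v => by
      obtain ⟨v, rfl⟩ := e.surjective v
      simp only [LinearMap.comp_apply, LinearEquiv.coe_coe, LinearEquiv.symm_apply_apply]
      refine (congrArg lam (e.injective ?_)).trans (hinv σ hσ v)
      rw [LinearEquiv.apply_symm_apply]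
      exact Subtype.ext (hequiv σ v).symm)
    (by
      obtain ⟨σ, hσ, hne'⟩ := hram
      by_contra hall
      push Not at hall
      exact hne' (LinearMap.ext fun v => hf (by
        rw [hequiv, hall σ hσ (f v) ⟨v, rfl⟩]; rfl)))
  have hcomm : ∀ d w, g ((ρ.ρ d).baseChange K w) =
      (rho d).map ((algebraMap O K).comp (algebraMap ℤ_[p] O)) *ᵥ g w := by
    intro d w
    induction w using TensorProduct.induction_on with
    | zero => simp only [map_zero, Matrix.mulVec_zero]
    | tmul c v =>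
      rw [LinearMap.baseChange_tmul, hgc, hgc, Matrix.mulVec_smul, hequiv, piAlgebraMap_actO]
    | add x y hx hy => simp only [map_add, Matrix.mulVec_add, hx, hy]
  refine ⟨(moveSpan K rho (P.inertiaSubgroupIn ℚ) (LinearMap.range f)).comap g, ?_, ?_, ?_⟩
  · rw [(Submodule.equivMapOfInjective g hgi _).finrank_eq, Submodule.map_comap_eq_of_le, h1]
    rw [hrange]
    exact moveSpan_le K fun σ hσ =>
      hΛ σ (FLTA.Galois.inertiaSubgroupIn_le_decompositionSubgroup hσ)
  · intro d hd w hw
    rw [Submodule.mem_comap, hcomm]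
    exact h2 d hd _ hw
  · intro σ hσ w
    induction w using TensorProduct.induction_on with
    | zero => simp only [map_zero, sub_zero, zero_mem]
    | tmul c v =>
      rw [Submodule.mem_comap, map_sub, LinearMap.baseChange_tmul, hgc, hgc, ← smul_sub,
        ← map_sub, hequiv]
      exact Submodule.smul_mem _ c
        (Submodule.subset_span ⟨_, ⟨σ, hσ, f v, ⟨v, rfl⟩, rfl⟩, rfl⟩)
    | add x y hx hy =>
      rw [map_add, add_sub_add_comm]
      exact add_mem hx hy

/-- A saturated stable plane with residual invariant functionals is ordinary. -/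
theorem isOrdinaryAt_of_inertiaTorsion (ρ : GaloisRepAdic O)
    (rho : Γ →* Matrix (Fin r) (Fin r) ℤ_[p]) (hpO : (p : O) ∈ IsLocalRing.maximalIdeal O)
    (f : ρ.V →ₗ[O] (Fin r → O)) (hf : Function.Injective f)
    (hsat : ∀ v, (p : O) • v ∈ LinearMap.range f → v ∈ LinearMap.range f)
    (hequiv : ∀ σ v, f (ρ.ρ σ v) = actO rho σ (f v))
    (hT : ∀ P : ValuationSubring (AlgebraicClosure ℚ), P.LiesOverPrime p →
      Nonempty (InertiaTorsion rho (P.inertiaSubgroupIn ℚ)))
    (hdet : ∀ P : ValuationSubring (AlgebraicClosure ℚ), P.LiesOverPrime p →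
      ∃ σ ∈ P.inertiaSubgroupIn ℚ, IsUnit (LinearMap.det (ρ.ρ σ) - 1))
    (hlam : ∀ P : ValuationSubring (AlgebraicClosure ℚ), P.LiesOverPrime p →
      ∃ lam : ρ.V →ₗ[O] IsLocalRing.ResidueField O, lam ≠ 0 ∧
        ∀ σ ∈ P.inertiaSubgroupIn ℚ, ∀ v, lam (ρ.ρ σ v) = lam v) :
    ρ.IsOrdinaryAt p := by
  refine isOrdinaryAt_of_points ρ p (fun _ : Unit => FractionRing O)
    (fun t ht => IsFractionRing.injective O (FractionRing O) ((ht ()).trans (map_zero _).symm))
    hdet fun _ P hP => ?_
  obtain ⟨H⟩ := hT P hP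
  obtain ⟨lam, hne, hinv⟩ := hlam P hP
  refine hasLineAt_of_inertiaTorsion ρ rho hpO f hf hsat hequiv P H lam hne hinv ?_ _
  obtain ⟨σ, hσ, hu⟩ := hdet P hP
  refine ⟨σ, hσ, fun h => hu.ne_zero ?_⟩
  rw [h, map_one, sub_self]

end FLTA.BadRed.Ordinary

end
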