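import Fermat.Agent.BadRed.Ordinary.Exact
import Fermat.Agent.BadRed.Ordinary.Inertia
import Fermat.Agent.BadRed.Toric.Injective
import Fermat.Agent.BadRed.Fibre.Sections

/-!
# Representing toric `q`-torsion classes by functions congruent to `1` at both cusps

For a toric class `y` with Kummer function `f`, choose `G₁` with `G₁^q f` reducing to `1`, `G₂`
with `G₂^q f` reducing to the power of a pair `H` with exact poles, and `G₃` reducing to `H`.
The function `x = G₁ G₃ / G₂` reduces to `1` at both cusps.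
-/

set_option autoImplicit false
set_option linter.unusedSectionVars false

noncomputable section

open AlgebraicCurve FLTA.Curves

namespace FLTA.BadRed.Ordinary

variable {K : Type*} [Field K] [IsAlgClosed K] [CharZero K] {A : ValuationSubring K}
  {k : Type*} [Field k] [IsAlgClosed k] {π : A →+* k}
  {q : ℕ} [NeZero q] [Fact q.Prime] [CharP k q]
  {F : Type*} [Field F] [Algebra K F] {F' : Type*} [Field F'] [Algebra K F']
  {Fk : Type*} [Field Fk] [Algebra k Fk] {g gF : ℕ} {B : BadFibre A π q F F' Fk g gF}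
  {S : Finset (Place k Fk)} {m₀ : ℕ}

theorem int_e {G : F} {z : Fin 2 → Fk} (h : B.IsRed G z) (i : Fin 2) :
    IntSeries A (B.e i G) := h.1 i

theorem red_e {G : F} {z : Fin 2 → Fk} (h : B.IsRed G z) (i : Fin 2) :
    redSeries A π (B.e i G) = B.exk (z i) := (h.2 i).symm

section Mixed

variable {D : Divisor K F} {f : F}

theorem mixed_mem (hf : BadFibre.KummerFn q D f) {N : ℕ} {G G' : F}
    (hG : G ∈ riemannRochSpace (D + B.cuspDiv N)) (hG' : G' ∈ riemannRochSpace (D + B.cuspDiv N)) :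
    G' * (G ^ (q - 1) * f) ∈ riemannRochSpace (B.cuspDiv (q * N)) := by
  have h := mul_mem_riemannRochSpace hG'
    (mul_mem_riemannRochSpace (BadFibre.pow_mem_riemannRochSpace hG (q - 1)) hf.mem)
  have e : D + B.cuspDiv N + (((q - 1 : ℕ) : ℤ) • (D + B.cuspDiv N) + -((q : ℤ) • D)) =
      B.cuspDiv (q * N) := by
    have hq := (Fact.out : q.Prime).one_le
    rw [← BadFibre.natCast_smul_cuspDiv, show (q : ℤ) = ((q - 1 : ℕ) : ℤ) + 1 by omega]
    simp only [smul_add, add_smul, one_smul]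
    abel
  exact e ▸ h

/-- Reductions of mixed products. -/
theorem isRed_mixed (hf : BadFibre.KummerFn q D f) {N : ℕ} {G G' : F}
    (hG : G ∈ riemannRochSpace (D + B.cuspDiv N)) (hG' : G' ∈ riemannRochSpace (D + B.cuspDiv N))
    {y y' : Fin 2 → Fk} (hy : B.IsRed (G ^ q * f) fun i => y i ^ q)
    (hy' : B.IsRed (G' ^ q * f) fun i => y' i ^ q) :
    B.IsRed (G' * (G ^ (q - 1) * f)) fun i => y' i * y i ^ (q - 1) := by
  have hq := (Fact.out : q.Prime).one_le
  have hpow : (G' * (G ^ (q - 1) * f)) ^ q = G' ^ q * f * (G ^ q * f) ^ (q - 1) := by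
    obtain ⟨j, hj⟩ : ∃ j, q = j + 1 := ⟨q - 1, by omega⟩
    subst hj
    simp only [Nat.add_sub_cancel]
    ring
  have hint : IntPair A (B.pair (G' * (G ^ (q - 1) * f))) := fun i =>
    intSeries_of_pow (π := π) B.R.π_surjective B.discrete (n := q) (by omega)
      (B.bddSeries_e i (mixed_mem hf hG hG')) (B.fgSeries_e i _) (by
        rw [B.pair_apply, ← map_pow, hpow, map_mul, map_pow]
        exact (hy'.1 i).mul ((hy.1 i).pow _))
  refine ⟨hint, fun i => ?_⟩
  symm
  refine redSeries_eq_of_pow (q := q) (hint i) ?_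
  rw [← map_pow, ← map_pow, hpow, map_mul (B.e i), map_pow (B.e i),
    redSeries_mul (int_e hy' i) ((int_e hy i).pow _), redSeries_pow (int_e hy i), red_e hy' i,
    red_e hy i, ← map_pow, ← map_mul, mul_pow, ← pow_mul, ← pow_mul, mul_comm q (q - 1)]

/-- Exactness of a reduction at a cusp. -/
theorem exactRed_of_mem (hq : 2 ≤ q) {N : ℕ} {G : F} (hG : G ∈ riemannRochSpace (B.cuspDiv N))
    {y : Fin 2 → Fk} (hy : B.IsRed G y) (i : Fin 2) (hne : y i ≠ 0)
    (hord : B.infk.ord (y i) = -(N : ℤ)) : ExactRed π (B.e i G) (B.exk (y i)) := by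
  have hne' : B.exk (y i) ≠ 0 := (map_ne_zero B.exk).mpr hne
  refine ExactRed.of_le (hy.1 i) (hy.2 i).symm hne' ?_
  have hG0 : G ≠ 0 := fun h => hne' (by rw [hy.2 i, h, map_zero, redSeries_zero])
  have h := (mem_riemannRochSpace_iff.mp hG (B.P i)).resolve_left hG0
  rw [B.cuspDiv_apply hq, B.ord_P i hG0] at h
  rw [← B.ord_infk _ hne, hord]
  exact h

theorem ord_infk_pow (y : Fk) (n : ℕ) : B.infk.ord (y ^ n) = n * B.infk.ord y :=
  FLTA.Curves.ord_pow _ _ _

end Mixed

/-- A representative of a toric class. -/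
structure RepData (B : BadFibre A π q F F' Fk g gF) (y : Pic0 K F) where
  /-- the divisor -/
  D : Divisor.degZero (K := K) (F := F)
  /-- the Kummer function -/
  f : F
  /-- the section reducing to `1` -/
  G₁ : F
  /-- the section with exact poles -/
  G₂ : F
  /-- the untwisted section with exact poles -/
  G₃ : F
  /-- the pole order -/
  m : ℕ
  /-- the reduction of `G₃` -/
  H : Fin 2 → Fk
  mk_eq : Pic0.mk D = y
  kummer : BadFibre.KummerFn q (D : Divisor K F) f
  mem₁ : G₁ ∈ riemannRochSpace ((D : Divisor K F) + B.cuspDiv m)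
  mem₂ : G₂ ∈ riemannRochSpace ((D : Divisor K F) + B.cuspDiv m)
  mem₃ : G₃ ∈ riemannRochSpace (B.cuspDiv m)
  red₁ : B.IsRed (G₁ ^ q * f) 1
  red₂ : B.IsRed (G₂ ^ q * f) fun i => H i ^ q
  red₃ : B.IsRed G₃ H
  exact : ∀ i, H i ≠ 0 ∧ B.infk.ord (H i) = -(m : ℤ)

namespace RepData

variable {y : Pic0 K F} (d : RepData B y)

/-- The function. -/
def x : F := d.G₁ * d.G₃ / d.G₂

theorem G₂_ne : d.G₂ ≠ 0 := fun h => by
  have := (d.red₂.2 0)
  rw [h, zero_pow (NeZero.ne q), zero_mul, map_zero, redSeries_zero, map_eq_zero] at this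
  exact pow_ne_zero q (d.exact 0).1 this

theorem G₃_ne : d.G₃ ≠ 0 := fun h => by
  have := (d.red₃.2 0)
  rw [h, map_zero, redSeries_zero, map_eq_zero] at this
  exact (d.exact 0).1 this

theorem red₁' : B.IsRed (d.G₁ ^ q * d.f) fun i => (1 : Fin 2 → Fk) i ^ q := by
  simp only [Pi.one_apply, one_pow]
  exact d.red₁

theorem f₂_mem : d.G₂ ^ q * d.f ∈ riemannRochSpace (B.cuspDiv (q * d.m)) := by
  have := mixed_mem d.kummer d.mem₂ d.mem₂
  rwa [← mul_assoc, ← pow_succ', Nat.sub_add_cancel (Fact.out : q.Prime).one_le] at this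

theorem exact₂ (i : Fin 2) :
    ExactRed π (B.e i (d.G₂ ^ q * d.f)) (B.exk (d.H i ^ q)) :=
  exactRed_of_mem (Fact.out : q.Prime).two_le d.f₂_mem d.red₂ i (pow_ne_zero _ (d.exact i).1) (by
    rw [ord_infk_pow, (d.exact i).2]
    push_cast
    ring)

theorem exact₃ (i : Fin 2) : ExactRed π (B.e i d.G₃) (B.exk (d.H i)) :=
  exactRed_of_mem (Fact.out : q.Prime).two_le d.mem₃ d.red₃ i (d.exact i).1 (d.exact i).2

/-- The effect of `G ↦ G G₃ / G₂` on sections of the twisted bundle. -/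
theorem twist_int {N : ℕ} {G : F} (hN : d.m ≤ N)
    (hG : G ∈ riemannRochSpace ((d.D : Divisor K F) + B.cuspDiv N))
    {z : Fin 2 → Fk} (hz : B.IsRed (G ^ q * d.f) fun i => z i ^ q) :
    B.IsRed (G * d.G₃ / d.G₂) z := by
  have hG₂ : d.G₂ ∈ riemannRochSpace ((d.D : Divisor K F) + B.cuspDiv N) :=
    riemannRochSpace_mono (add_le_add le_rfl (B.cuspDiv_mono hN)) d.mem₂
  have hmix := isRed_mixed d.kummer hG₂ hG d.red₂ hz
  have hq := (Fact.out : q.Prime).one_le
  have e : G * d.G₃ / d.G₂ = G * (d.G₂ ^ (q - 1) * d.f) * d.G₃ / (d.G₂ ^ q * d.f) := by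
    obtain ⟨j, rfl⟩ : ∃ j, q = j + 1 := ⟨q - 1, by omega⟩
    have := d.G₂_ne
    have := d.kummer.ne_zero
    simp only [Nat.add_sub_cancel, pow_succ]
    field_simp
  have hi := fun i => (d.exact₂ i).inv B.R.π_surjective
  have hint : IntPair A (B.pair (G * d.G₃ / d.G₂)) := fun i => by
    rw [B.pair_apply, e, map_div₀, map_mul, div_eq_mul_inv]
    exact ((hmix.1 i).mul (d.exact₃ i).int).mul (hi i).int
  refine ⟨hint, fun i => ?_⟩
  rw [e, map_div₀, map_mul, div_eq_mul_inv,
    redSeries_mul ((int_e hmix i).mul (d.exact₃ i).int) (hi i).int,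
    redSeries_mul (int_e hmix i) (d.exact₃ i).int, (hi i).red, (d.exact₃ i).red, red_e hmix i,
    ← map_inv₀, ← map_mul, ← map_mul]
  refine congrArg B.exk ?_
  have hH := (d.exact i).1
  obtain ⟨j, rfl⟩ : ∃ j, q = j + 1 := ⟨q - 1, by omega⟩
  simp only [Nat.add_sub_cancel, pow_succ]
  field_simp

theorem x_isRed : B.IsRed d.x 1 := d.twist_int le_rfl d.mem₁ d.red₁'

/-- The product of two representatives. -/
def mul {y' : Pic0 K F} (d' : RepData B y') : RepData B (y + y') where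
  D := d.D + d'.D
  f := d.f * d'.f
  G₁ := d.G₁ * d'.G₁
  G₂ := d.G₂ * d'.G₂
  G₃ := d.G₃ * d'.G₃
  m := d.m + d'.m
  H := d.H * d'.H
  mk_eq := by
    rw [show Pic0.mk (d.D + d'.D) = Pic0.mk d.D + Pic0.mk d'.D from rfl, d.mk_eq, d'.mk_eq]
  kummer := d.kummer.mul d'.kummer
  mem₁ := by
    have := mul_mem_riemannRochSpace d.mem₁ d'.mem₁
    rwa [add_add_add_comm, ← B.cuspDiv_add] at this
  mem₂ := by
    have := mul_mem_riemannRochSpace d.mem₂ d'.mem₂
    rwa [add_add_add_comm, ← B.cuspDiv_add] at this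
  mem₃ := by
    have := mul_mem_riemannRochSpace d.mem₃ d'.mem₃
    rwa [← B.cuspDiv_add] at this
  red₁ := by
    have := B.isRed_mul d.red₁ d'.red₁
    rw [mul_one] at this
    rwa [mul_pow, mul_mul_mul_comm]
  red₂ := by
    have := B.isRed_mul d.red₂ d'.red₂
    rw [mul_pow, mul_mul_mul_comm]
    convert this using 1
    funext i
    simp [mul_pow]
  red₃ := B.isRed_mul d.red₃ d'.red₃
  exact i := ⟨mul_ne_zero (d.exact i).1 (d'.exact i).1, by
    show B.infk.ord (d.H i * d'.H i) = _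
    rw [Place.ord_mul _ (d.exact i).1 (d'.exact i).1, (d.exact i).2, (d'.exact i).2]
    push_cast
    ring⟩

theorem mul_x {y' : Pic0 K F} (d' : RepData B y') : (d.mul d').x = d.x * d'.x := by
  simp only [x, mul, div_mul_div_comm]
  congr 1
  ring

variable {G : Type*} [Group G] [MulSemiringAction G K]

/-- The conjugate representative. -/
def conj (I : InertiaData B G) (σ : G) : RepData B ((I.sy σ).σ • y) where
  D := SemilinearAut.degZeroSMulHom (I.sy σ).σ d.D
  f := (I.sy σ).σ • d.f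
  G₁ := (I.sy σ).σ • d.G₁
  G₂ := (I.sy σ).σ • d.G₂
  G₃ := (I.sy σ).σ • d.G₃
  m := d.m
  H := d.H
  mk_eq := by rw [← SemilinearAut.pic0_smul_mk, d.mk_eq]
  kummer := ⟨(smul_ne_zero_iff_ne _).mpr d.kummer.ne_zero, fun P => by
    rw [SemilinearAut.coe_degZeroSMulHom, SemilinearAut.divisor_smul_apply, d.kummer.ord_eq]
    have h := SemilinearAut.ord_smul (I.sy σ).σ ((I.sy σ).σ⁻¹ • P) d.f
    rw [smul_inv_smul] at h
    exact h.symm⟩
  mem₁ := by
    have := I.smul_mem_riemannRochSpace σ d.mem₁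
    rwa [smul_add, I.smul_cuspDiv] at this
  mem₂ := by
    have := I.smul_mem_riemannRochSpace σ d.mem₂
    rwa [smul_add, I.smul_cuspDiv] at this
  mem₃ := by
    have := I.smul_mem_riemannRochSpace σ d.mem₃
    rwa [I.smul_cuspDiv] at this
  red₁ := by
    rw [← smul_pow', ← smul_mul']
    exact ⟨fun i => (I.redSeries_smul_eq σ i (d.red₁.1 i)).1, fun i =>
      (d.red₁.2 i).trans (I.redSeries_smul_eq σ i (d.red₁.1 i)).2.symm⟩
  red₂ := by
    rw [← smul_pow', ← smul_mul']
    exact ⟨fun i => (I.redSeries_smul_eq σ i (d.red₂.1 i)).1, fun i =>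
      (d.red₂.2 i).trans (I.redSeries_smul_eq σ i (d.red₂.1 i)).2.symm⟩
  red₃ := ⟨fun i => (I.redSeries_smul_eq σ i (d.red₃.1 i)).1, fun i =>
      (d.red₃.2 i).trans (I.redSeries_smul_eq σ i (d.red₃.1 i)).2.symm⟩
  exact := d.exact

theorem conj_x (I : InertiaData B G) (σ : G) : (d.conj I σ).x = (I.sy σ).σ • d.x := by
  simp only [x, conj, map_div₀, SemilinearAut.smul_def, map_mul]

end RepData

/-- Untwisted lifts of a toric class at every large level. -/
theorem exists_lift (hS : B.IsGluing S m₀) {D : Divisor K F} {f : F}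
    (hf : BadFibre.KummerFn q D f) (hD : Divisor.degree D = 0) (hred : B.ReducesToPow q f)
    {N : ℕ} (hN : BadFibre.Big S m₀ g gF N) {z : Fin 2 → Fk} (hz : z ∈ B.glued hS N 1) :
    ∃ G ∈ riemannRochSpace (D + B.cuspDiv N), B.IsRed (G ^ q * f) fun i => z i ^ q := by
  have hq := (Fact.out : q.Prime).pos
  obtain ⟨d⟩ := B.nonempty_twistData hq hf hD hred hN.genus
  obtain ⟨ζ, hζ, hd⟩ := d.exists_twist hS hq hf hD hN
  have : ExpChar k q := ExpChar.prime (Fact.out : q.Prime)
  have h1 : ζ = 1 := funext fun Q => frobenius_inj k q (by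
    rw [frobenius_def, frobenius_def, hζ Q, Pi.one_apply, one_pow])
  rw [h1] at hd
  obtain ⟨G, hG, hGy⟩ := (hd ▸ hz : z ∈ d.Ysp)
  exact ⟨G, hG, d.isY_pow hq hf hG hGy⟩

/-- Toric classes have representatives. -/
theorem exists_repData (hS : B.IsGluing S m₀) {y : Pic0 K F} (hy : B.IsToric q y) :
    ∃ d : RepData B y, B.ReducesToPow q d.f := by
  obtain ⟨D, f, hf0, hmk, hord, hred⟩ := hy
  have hf : BadFibre.KummerFn q (D : Divisor K F) f := ⟨hf0, hord⟩
  set m := m₀ + gF + (2 * g + S.card + 1) with hm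
  have hbig : BadFibre.Big S m₀ g gF m := ⟨by omega, by omega, by omega⟩
  obtain ⟨H, hH, hexact⟩ := BadFibre.exists_glued_exact hS (m := m) (by omega) 1
  obtain ⟨G₂, hG₂, hred₂⟩ := exists_lift hS hf D.2 hred hbig hH
  have hone : (fun _ : Fin 2 => (1 : Fk)) ∈ B.glued hS m 1 := by
    rw [BadFibre.mem_glued]
    refine ⟨fun i => ?_, fun Q => ?_⟩
    · rw [mem_riemannRochSpace_iff]
      refine fun v => Or.inr ?_
      classical
      rw [Place.ord_one, Finsupp.single_apply]
      split_ifs <;> simp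
    · simp [BadFibre.placeVal_one (B.rrk.deg_eq_one _)]
  obtain ⟨G₁, hG₁, hred₁⟩ := exists_lift hS hf D.2 hred hbig hone
  obtain ⟨G₃, hG₃, hred₃⟩ : H ∈ B.fibreSections m := by
    rw [B.fibreSections_eq_glued hS hbig.fibre]
    exact hH
  exact ⟨⟨D, f, G₁, G₂, G₃, m, H, hmk, hf, hG₁, hG₂, hG₃,
    by simp only [one_pow] at hred₁; exact hred₁, hred₂, hred₃, hexact⟩, hred⟩

end FLTA.BadRed.Ordinary

end
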