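import Fermat.Agent.BadRed.Ordinary.Gaps
import Fermat.Agent.BadRed.Ordinary.Inertia
import Fermat.Agent.BadRed.Ordinary.NormalForm

/-!
# The sections at the non-gap positions

For each polar position outside the gaps there is exactly one section with that polar part outside
the gaps and no constant term at `∞`; it is integral and fixed by inertia.
-/

set_option autoImplicit false
set_option linter.unusedSectionVars false

noncomputable section

open AlgebraicCurve FLTA.Curves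

namespace FLTA.BadRed.Ordinary

variable {K : Type*} [Field K] [IsAlgClosed K] [CharZero K] {A : ValuationSubring K}
  {k : Type*} [Field k] [IsAlgClosed k] {π : A →+* k}
  {q : ℕ} [NeZero q] [Fact q.Prime] [CharP k q]
  {F : Type*} [Field F] [Algebra K F] {F' : Type*} [Field F'] [Algebra K F']
  {Fk : Type*} [Field Fk] [Algebra k Fk] {g gF : ℕ} {B : BadFibre A π q F F' Fk g gF}
  {S : Finset (Place k Fk)} {m₀ : ℕ}

/-- The gaps together with their property. -/
structure GapData (B : BadFibre A π q F F' Fk g gF) (m₀ : ℕ) where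
  /-- a bound for the gaps -/
  l₀ : ℕ
  /-- the gaps -/
  Γ : Finset (Fin 2 × ℤ)
  le : m₀ ≤ l₀
  genus_le : gF ≤ l₀
  subset : Γ ⊆ poss l₀
  card : Γ.card = gF
  noPole : ∀ p ∈ B.fibreSections l₀,
    (∀ γ ∈ poss l₀, γ ∉ Γ → (B.exk (p γ.1)).coeff γ.2 = 0) →
      ∀ γ ∈ poss l₀, (B.exk (p γ.1)).coeff γ.2 = 0

theorem nonempty_gapData (hS : B.IsGluing S m₀) (hne : S.Nonempty) :
    Nonempty (GapData B m₀) := by
  obtain ⟨l₀, Γ, h1, h2, h3, h4, h5⟩ := exists_gaps hS hne
  exact ⟨⟨l₀, Γ, h1, h2, h3, h4, h5⟩⟩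

/-- Non-gap polar position. -/
def GapData.NonGap (D : GapData B m₀) (γ : Fin 2 × ℤ) : Prop := γ.2 < 0 ∧ γ ∉ D.Γ

theorem coeff_e_eq_zero_of_mem (hq : 2 ≤ q) {l : ℕ} {x : F}
    (hx : x ∈ riemannRochSpace (B.cuspDiv l)) (i : Fin 2) {j : ℤ} (hj : j < -(l : ℤ)) :
    (B.e i x).coeff j = 0 := by
  rcases eq_or_ne x 0 with rfl | h0
  · simp
  apply HahnSeries.coeff_eq_zero_of_lt_order
  have h := (mem_riemannRochSpace_iff.mp hx (B.P i)).resolve_left h0
  rw [B.cuspDiv_apply hq, B.ord_P i h0] at h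
  omega

namespace GapData

variable (D : GapData B m₀)

/-- An integral section with small coefficients off the gaps reduces to constants. -/
theorem isRed_const (hS : B.IsGluing S m₀) (hne : S.Nonempty) {l : ℕ} {x : F}
    (hx : x ∈ riemannRochSpace (B.cuspDiv l)) (hint : IntPair A (B.pair x))
    (h : ∀ γ, D.NonGap γ → redCoeff A π ((B.e γ.1 x).coeff γ.2) = 0) :
    ∃ c : k, ∀ i, redSeries A π (B.e i x) = B.exk (algebraMap k Fk c) := by
  classical
  obtain ⟨p, hp⟩ := B.exists_isRed hint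
  set m := max l D.l₀
  have hxm : x ∈ riemannRochSpace (B.cuspDiv m) :=
    riemannRochSpace_mono (B.cuspDiv_mono (le_max_left _ _)) hx
  have hpm : p ∈ B.fibreSections m := ⟨x, hxm, hp⟩
  obtain ⟨hreg, hval⟩ := (hS.mem_iff m (D.le.trans (le_max_right _ _)) p).mp hpm
  have hcf : ∀ (i : Fin 2) (j : ℤ), j < 0 → (i, j) ∉ D.Γ → (B.exk (p i)).coeff j = 0 :=
    fun i j hj hΓ => by rw [hp.2 i, redSeries_coeff]; exact h (i, j) ⟨hj, hΓ⟩
  have hlow : ∀ i (j : ℤ), j < -(D.l₀ : ℤ) → (B.exk (p i)).coeff j = 0 := fun i j hj =>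
    hcf i j (by omega) fun hΓ => by
      have := (mem_poss.mp (D.subset hΓ)).1
      simp only at this
      omega
  have hp₀ : p ∈ B.fibreSections D.l₀ :=
    (hS.mem_iff _ D.le p).mpr ⟨fun i => mem_single_of_coeff_eq_zero (hreg i) (hlow i), hval⟩
  have hzero := D.noPole p hp₀ fun γ hγ hΓ => hcf γ.1 γ.2 (mem_poss.mp hγ).2 hΓ
  obtain ⟨c, hc⟩ := exists_const_of_noPole hS hne D.le hp₀ fun i j hj => by
    by_cases hjl : -(D.l₀ : ℤ) ≤ j
    · exact hzero (i, j) (mem_poss.mpr ⟨hjl, hj⟩)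
    · exact hlow i j (not_le.mp hjl)
  exact ⟨c, fun i => by rw [← hc i, hp.2 i]⟩

/-- Integrality is detected at the non-gap positions and the constant. -/
theorem intPair_of (hS : B.IsGluing S m₀) (hne : S.Nonempty) {l : ℕ} {x : F}
    (hx : x ∈ riemannRochSpace (B.cuspDiv l))
    (h : ∀ γ, D.NonGap γ → (B.e γ.1 x).coeff γ.2 ∈ A) (h0 : (B.e 0 x).coeff 0 ∈ A) :
    IntPair A (B.pair x) := by
  rcases eq_or_ne x 0 with rfl | hx0
  · exact fun i => by simpa using IntSeries.zero
  obtain ⟨c, hc, hint, i₀, hne₀⟩ := exists_primitive_multiple (π := π) B.discrete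
    (y := B.pair x) (fun h' => B.e_ne_zero 0 hx0 (congrFun h' 0))
    (fun i => B.bddSeries_e i hx) (fun i => B.fgSeries_e i x)
  have hcinv : c⁻¹ ∈ A := by
    by_contra hci
    have hcA : c ∈ A := (A.mem_or_inv_mem c).resolve_right hci
    have hπ0 : π ⟨c, hcA⟩ = 0 := residue_eq_zero_of_inv_notMem B.R.π_surjective hcA hci
    have hred : ∀ a : K, a ∈ A → redCoeff A π (c * a) = 0 := fun a ha => by
      rw [show c * a = ((⟨c, hcA⟩ * ⟨a, ha⟩ : A) : K) from rfl, redCoeff_coe, map_mul, hπ0,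
        zero_mul]
    have hint' : IntPair A (B.pair (c • x)) := fun i => by
      rw [B.pair_apply, ← B.smul_e]; exact hint i
    obtain ⟨a, ha⟩ := D.isRed_const hS hne (Submodule.smul_mem _ c hx) hint' fun γ hγ => by
      rw [← B.smul_e]
      simpa using hred _ (h γ hγ)
    have h1 := congrArg (fun z => HahnSeries.coeff z 0) (ha 0)
    simp only [redSeries_coeff] at h1
    rw [← B.smul_e, HahnSeries.coeff_smul, smul_eq_mul, hred _ h0, AlgHom.commutes,
      ModularCurve.algebraMap_laurentSeries_eq_single, HahnSeries.coeff_single_same] at h1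
    apply hne₀
    rw [B.pair_apply, B.smul_e, ha i₀, ← h1, map_zero, map_zero]
  intro i
  have := (hint i).smul hcinv
  rwa [inv_smul_smul₀ hc] at this

/-- A section without non-gap coefficients and without constant vanishes. -/
theorem eq_zero_of (hS : B.IsGluing S m₀) (hne : S.Nonempty) {l : ℕ} {x : F}
    (hx : x ∈ riemannRochSpace (B.cuspDiv l))
    (h : ∀ γ, D.NonGap γ → (B.e γ.1 x).coeff γ.2 = 0) (h0 : (B.e 0 x).coeff 0 = 0) :
    x = 0 := by
  by_contra hx0
  obtain ⟨c, hc, hint, i₀, hne₀⟩ := exists_primitive_multiple (π := π) B.discrete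
    (y := B.pair x) (fun h' => B.e_ne_zero 0 hx0 (congrFun h' 0))
    (fun i => B.bddSeries_e i hx) (fun i => B.fgSeries_e i x)
  have hint' : IntPair A (B.pair (c • x)) := fun i => by
    rw [B.pair_apply, ← B.smul_e]; exact hint i
  have hz : redCoeff A π (0 : K) = 0 := by
    rw [show (0 : K) = ((0 : A) : K) from rfl, redCoeff_coe, map_zero]
  obtain ⟨a, ha⟩ := D.isRed_const hS hne (Submodule.smul_mem _ c hx) hint' fun γ hγ => by
    rw [← B.smul_e]
    simp [h γ hγ, hz]
  have h1 := congrArg (fun z => HahnSeries.coeff z 0) (ha 0)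
  simp only [redSeries_coeff] at h1
  rw [← B.smul_e, HahnSeries.coeff_smul, smul_eq_mul, h0, mul_zero, hz, AlgHom.commutes,
    ModularCurve.algebraMap_laurentSeries_eq_single, HahnSeries.coeff_single_same] at h1
  apply hne₀
  rw [B.pair_apply, B.smul_e, ha i₀, ← h1, map_zero, map_zero]

/-- The section at a non-gap position. -/
theorem exists_section (hq : 2 ≤ q) (hS : B.IsGluing S m₀) (hne : S.Nonempty) (γ : Fin 2 × ℤ)
    (hγ : D.NonGap γ) :
    ∃ x : F, (∃ l, x ∈ riemannRochSpace (B.cuspDiv l)) ∧ (B.e 0 x).coeff 0 = 0 ∧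
      ∀ δ, D.NonGap δ → (B.e δ.1 x).coeff δ.2 = if δ = γ then 1 else 0 := by
  classical
  set l := max D.l₀ γ.2.natAbs with hl
  have := B.rrF.finiteDimensional (B.cuspDiv l)
  let Θ : riemannRochSpace (B.cuspDiv l) →ₗ[K] (↥(poss l \ D.Γ) → K) × K :=
    { toFun := fun x => (fun δ => (B.pair (x : F) δ.1.1).coeff δ.1.2, (B.pair (x : F) 0).coeff 0)
      map_add' := fun x y => by
        simp only [Submodule.coe_add, map_add, Pi.add_apply, HahnSeries.coeff_add]
        rfl
      map_smul' := fun c x => by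
        simp only [Submodule.coe_smul, map_smul, Pi.smul_apply, HahnSeries.coeff_smul]
        rfl }
  have hinj : Function.Injective Θ := by
    rw [injective_iff_map_eq_zero]
    intro x hx
    obtain ⟨h1, h2⟩ := Prod.mk.inj hx
    refine Subtype.ext (D.eq_zero_of hS hne x.2 (fun δ hδ => ?_) h2)
    by_cases hlow : -(l : ℤ) ≤ δ.2
    · exact congrFun h1 ⟨δ, Finset.mem_sdiff.mpr ⟨mem_poss.mpr ⟨hlow, hδ.1⟩, hδ.2⟩⟩
    · exact coeff_e_eq_zero_of_mem hq x.2 δ.1 (not_le.mp hlow)
  have hsurj : Function.Surjective Θ := by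
    refine (LinearMap.injective_iff_surjective_of_finrank_eq_finrank ?_).mp hinj
    have h1 := B.finrank_cuspDiv (m := l) (D.genus_le.trans (le_max_left _ _))
    have h2 : Finset.card (poss l \ D.Γ) = 2 * l - gF := by
      rw [Finset.card_sdiff_of_subset (D.subset.trans (poss_mono (le_max_left _ _))), card_poss,
        D.card]
    rw [Module.finrank_prod, Module.finrank_pi, Module.finrank_self, Fintype.card_coe, h2]
    have := D.genus_le.trans (le_max_left D.l₀ γ.2.natAbs)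
    omega
  obtain ⟨x, hx⟩ := hsurj (fun δ => if δ.1 = γ then 1 else 0, 0)
  obtain ⟨h1, h2⟩ := Prod.mk.inj hx
  refine ⟨x, ⟨l, x.2⟩, h2, fun δ hδ => ?_⟩
  by_cases hlow : -(l : ℤ) ≤ δ.2
  · exact congrFun h1 ⟨δ, Finset.mem_sdiff.mpr ⟨mem_poss.mpr ⟨hlow, hδ.1⟩, hδ.2⟩⟩
  · rw [coeff_e_eq_zero_of_mem hq x.2 δ.1 (not_le.mp hlow), if_neg]
    rintro rfl
    have := hγ.1
    omega

end GapData

/-- Sections at the non-gap positions. -/
structure SecData (B : BadFibre A π q F F' Fk g gF) (m₀ : ℕ) extends GapData B m₀ where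
  /-- the sections -/
  sec : Fin 2 × ℤ → F
  mem : ∀ γ, ∃ l, sec γ ∈ riemannRochSpace (B.cuspDiv l)
  const : ∀ γ, (B.e 0 (sec γ)).coeff 0 = 0
  coeff : ∀ γ δ, toGapData.NonGap γ → toGapData.NonGap δ →
    (B.e δ.1 (sec γ)).coeff δ.2 = if δ = γ then 1 else 0
  int : ∀ γ, IntPair A (B.pair (sec γ))

theorem nonempty_secData (hq : 2 ≤ q) (hS : B.IsGluing S m₀) (hne : S.Nonempty) :
    Nonempty (SecData B m₀) := by
  classical
  obtain ⟨D⟩ := nonempty_gapData hS hne
  choose x hx using D.exists_section hq hS hne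
  refine ⟨{ D with
    sec := fun γ => if h : D.NonGap γ then x γ h else 0
    mem := fun γ => ?_
    const := fun γ => ?_
    coeff := fun γ δ hγ hδ => ?_
    int := fun γ => ?_ }⟩
  · split_ifs with h
    · exact (hx γ h).1
    · exact ⟨0, zero_mem _⟩
  · split_ifs with h
    · exact (hx γ h).2.1
    · simp
  · rw [dif_pos hγ]
    exact (hx γ hγ).2.2 δ hδ
  · split_ifs with h
    · obtain ⟨l, hl⟩ := (hx γ h).1
      refine D.intPair_of hS hne hl (fun δ hδ => ?_) ?_
      · rw [(hx γ h).2.2 δ hδ]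
        split_ifs
        exacts [one_mem A, zero_mem A]
      · rw [(hx γ h).2.1]; exact zero_mem A
    · exact fun i => by simpa using IntSeries.zero

namespace SecData

variable (D : SecData B m₀)

/-- A section is the combination of the basic sections given by its coefficients. -/
theorem eq_sum (hq : 2 ≤ q) (hS : B.IsGluing S m₀) (hne : S.Nonempty) {l : ℕ} {x : F}
    (hx : x ∈ riemannRochSpace (B.cuspDiv l)) :
    x = (B.e 0 x).coeff 0 • (1 : F) +
      ∑ γ ∈ poss l \ D.Γ, (B.e γ.1 x).coeff γ.2 • D.sec γ := by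
  classical
  choose L hL using D.mem
  set M := l + ∑ γ ∈ poss l \ D.Γ, L γ
  set y := x - ((B.e 0 x).coeff 0 • (1 : F) +
      ∑ γ ∈ poss l \ D.Γ, (B.e γ.1 x).coeff γ.2 • D.sec γ) with hy
  have hone : (1 : F) ∈ riemannRochSpace (B.cuspDiv M) := fun v => by
    rw [map_one, WithZero.exp]
    refine WithZero.coe_le_coe.mpr ?_
    show (0 : ℤ) ≤ B.cuspDiv M v
    simp only [BadFibre.cuspDiv, Finsupp.add_apply, Finsupp.single_apply]
    split_ifs <;> simp
  have hyM : y ∈ riemannRochSpace (B.cuspDiv M) := by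
    refine sub_mem (riemannRochSpace_mono (B.cuspDiv_mono (Nat.le_add_right _ _)) hx)
      (add_mem (Submodule.smul_mem _ _ hone) (sum_mem fun γ hγ => Submodule.smul_mem _ _ ?_))
    exact riemannRochSpace_mono (B.cuspDiv_mono
      ((Finset.single_le_sum (f := L) (fun _ _ => Nat.zero_le _) hγ).trans (Nat.le_add_left _ _)))
      (hL γ)
  have he : ∀ (i : Fin 2) (j : ℤ), (B.e i y).coeff j = (B.e i x).coeff j -
      ((B.e 0 x).coeff 0 * (B.e i (1 : F)).coeff j +
        ∑ γ ∈ poss l \ D.Γ, (B.e γ.1 x).coeff γ.2 * (B.e i (D.sec γ)).coeff j) := fun i j => by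
    simp [hy, map_sum, ← B.smul_e, HahnSeries.coeff_sum]
  have hy0 : y = 0 := by
    refine D.toGapData.eq_zero_of hS hne hyM (fun δ hδ => ?_) ?_
    · rw [he, map_one, HahnSeries.coeff_one, if_neg hδ.1.ne, mul_zero, zero_add]
      by_cases hlow : -(l : ℤ) ≤ δ.2
      · have hδm : δ ∈ poss l \ D.Γ := Finset.mem_sdiff.mpr ⟨mem_poss.mpr ⟨hlow, hδ.1⟩, hδ.2⟩
        rw [Finset.sum_eq_single δ, D.coeff δ δ hδ hδ, if_pos rfl, mul_one, sub_self]
        · intro γ hγ hne'
          rw [D.coeff γ δ ⟨(mem_poss.mp (Finset.mem_sdiff.mp hγ).1).2, (Finset.mem_sdiff.mp hγ).2⟩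
            hδ, if_neg (Ne.symm hne'), mul_zero]
        · exact fun h => absurd hδm h
      · rw [coeff_e_eq_zero_of_mem hq hx δ.1 (not_le.mp hlow), Finset.sum_eq_zero, sub_zero]
        intro γ hγ
        rw [D.coeff γ δ ⟨(mem_poss.mp (Finset.mem_sdiff.mp hγ).1).2, (Finset.mem_sdiff.mp hγ).2⟩
          hδ, if_neg, mul_zero]
        rintro rfl
        exact hlow (mem_poss.mp (Finset.mem_sdiff.mp hγ).1).1
    · rw [he, map_one, HahnSeries.coeff_one, if_pos rfl, mul_one, Finset.sum_eq_zero, add_zero,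
        sub_self]
      intro γ _
      rw [D.const, mul_zero]
  exact sub_eq_zero.mp hy0

variable {G : Type*} [Group G] [MulSemiringAction G K]

theorem coeff_sec_fixed (I : InertiaData B G) (hS : B.IsGluing S m₀) (hne : S.Nonempty)
    (γ : Fin 2 × ℤ) (hγ : D.NonGap γ) (i : Fin 2) (j : ℤ) (σ : G) :
    σ • (B.e i (D.sec γ)).coeff j = (B.e i (D.sec γ)).coeff j := by
  obtain ⟨l, hl⟩ := D.mem γ
  have hl' : (I.sy σ).σ • D.sec γ ∈ riemannRochSpace (B.cuspDiv l) :=
    I.smul_cuspDiv σ l ▸ I.smul_mem_riemannRochSpace σ hl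
  have h0 : (I.sy σ).σ • D.sec γ - D.sec γ = 0 := by
    refine D.toGapData.eq_zero_of hS hne (sub_mem hl' hl) (fun δ hδ => ?_) ?_
    · rw [map_sub, HahnSeries.coeff_sub, I.coeff_e, D.coeff γ δ hγ hδ]
      split_ifs <;> simp
    · rw [map_sub, HahnSeries.coeff_sub, I.coeff_e, D.const]
      simp
  rw [← I.coeff_e, sub_eq_zero.mp h0]

open Classical in
/-- The coefficients of a basic section, as a pair over `W`. -/
def lift (I : InertiaData B G) (hS : B.IsGluing S m₀) (hne : S.Nonempty) (γ : Fin 2 × ℤ) :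
    LPair (intFixed A G) := fun i =>
  { coeff := fun j => if h : D.NonGap γ then
      ⟨(B.e i (D.sec γ)).coeff j, D.int γ i j, D.coeff_sec_fixed I hS hne γ h i j⟩ else 0
    isPWO_support' := (B.e i (D.sec γ)).isPWO_support'.mono fun j hj h0 => hj (by
      show dite _ _ _ = _
      split_ifs with h
      · exact Subtype.ext h0
      · rfl) }

theorem cf_lift (I : InertiaData B G) (hS : B.IsGluing S m₀) (hne : S.Nonempty)
    {γ : Fin 2 × ℤ} (hγ : D.NonGap γ) (δ : Fin 2 × ℤ) :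
    ((cf (D.lift I hS hne γ) δ : intFixed A G) : K) = (B.e δ.1 (D.sec γ)).coeff δ.2 := by
  simp [cf, lift, hγ]

/-- The frame of the special fibre. -/
def frame (hq : 2 ≤ q) (I : InertiaData B G) (hS : B.IsGluing S m₀) (hne : S.Nonempty) :
    Frame (intFixed A G) where
  Γ := D.Γ
  neg γ hγ := (mem_poss.mp (D.subset hγ)).2
  s := D.lift I hS hne
  s_coeff γ δ hγ hγΓ hδ hδΓ := Subtype.ext (by
    rw [D.cf_lift I hS hne ⟨hγ, hγΓ⟩ δ, D.coeff γ δ ⟨hγ, hγΓ⟩ ⟨hδ, hδΓ⟩]
    split_ifs <;> rfl)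
  mul_mem γ γ' hγ hγΓ hγ' hγ'Γ := by
    classical
    obtain ⟨l, hl⟩ := D.mem γ
    obtain ⟨l', hl'⟩ := D.mem γ'
    set x := D.sec γ * D.sec γ' with hx
    have hxl : x ∈ riemannRochSpace (B.cuspDiv (l + l')) := by
      rw [BadFibre.cuspDiv_add]
      exact mul_mem_riemannRochSpace hl hl'
    have hcf : ∀ (i : Fin 2) (j : ℤ), (B.e i x).coeff j =
        ((cf (D.lift I hS hne γ * D.lift I hS hne γ') (i, j) : intFixed A G) : K) := by
      intro i j
      have h : ∀ (δ : Fin 2 × ℤ), D.NonGap δ → ModularCurve.coeffMap (intFixed A G).subtype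
          (D.lift I hS hne δ i) = B.e i (D.sec δ) := fun δ hδ =>
        HahnSeries.ext (funext fun j' => D.cf_lift I hS hne hδ (i, j'))
      rw [hx, map_mul, ← h γ ⟨hγ, hγΓ⟩, ← h γ' ⟨hγ', hγ'Γ⟩, ← map_mul]
      rfl
    have key : D.lift I hS hne γ * D.lift I hS hne γ' =
        cf (D.lift I hS hne γ * D.lift I hS hne γ') (0, 0) • 1 +
          ∑ δ ∈ poss (l + l') \ D.Γ,
            cf (D.lift I hS hne γ * D.lift I hS hne γ') δ • D.lift I hS hne δ := by
      refine ext_cf fun ε => Subtype.ext ?_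
      rw [cf_add, cf_smul, cf_sum]
      push_cast
      rw [← hcf ε.1 ε.2]
      conv_lhs => rw [D.eq_sum hq hS hne hxl]
      simp only [map_add, map_sum, ← B.smul_e, map_one, HahnSeries.coeff_add, HahnSeries.coeff_sum,
        HahnSeries.coeff_smul, smul_eq_mul]
      refine congrArg₂ _ ?_ (Finset.sum_congr rfl fun δ hδ => ?_)
      · rw [hcf 0 0]
        congr 1
        simp only [cf, Pi.one_apply, HahnSeries.coeff_one]
        split_ifs <;> simp
      · rw [cf_smul, Subring.coe_mul, ← hcf δ.1 δ.2, D.cf_lift I hS hne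
          ⟨(mem_poss.mp (Finset.mem_sdiff.mp hδ).1).2, (Finset.mem_sdiff.mp hδ).2⟩ ε]
    rw [key]
    refine add_mem (Submodule.smul_mem _ _ (Submodule.subset_span (Set.mem_insert _ _)))
      (sum_mem fun δ hδ => Submodule.smul_mem _ _ (Submodule.subset_span
        (Set.mem_insert_of_mem _ ⟨δ, ?_, rfl⟩)))
    exact ⟨(mem_poss.mp (Finset.mem_sdiff.mp hδ).1).2, (Finset.mem_sdiff.mp hδ).2⟩

end SecData

end FLTA.BadRed.Ordinary

end
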