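import Fermat.Agent.BadRed.Ordinary.Descent

/-!
# A class with trivial truncations at every level is zero
-/

set_option autoImplicit false
set_option linter.unusedSectionVars false

noncomputable section

open AlgebraicCurve FLTA.Curves

namespace FLTA.BadRed.Ordinary

variable {K : Type*} [Field K] [IsAlgClosed K] [CharZero K] {A : ValuationSubring K}
  {k : Type*} [Field k] [IsAlgClosed k] {π : A →+* k}
  {q : ℕ} [NeZero q] [Fact q.Prime] [CharP k q]
  {F : Type*} [Field F] [Algebra K F] {F' : Type*} [Field F'] [Algebra K F']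
  {Fk : Type*} [Field Fk] [Algebra k Fk] {g gF : ℕ} {B : BadFibre A π q F F' Fk g gF}
  {S : Finset (Place k Fk)} {m₀ : ℕ} {G : Type*} [Group G] [MulSemiringAction G K]

theorem mk_q_pow_eq_zero {H : Subgroup G} (hA : RankOneAt A q) {M : ℕ} (hM : 0 < M)
    {a : intFixed A H} (ha : IsNilpotent (Ideal.Quotient.mk (qIdeal A H q M) a)) :
    redCoeff A π (a : K) = 0 := by
  obtain ⟨N, hN⟩ := ha
  rw [← map_pow, mk_eq_zero_iff hA.ne_zero] at hN
  obtain ⟨b, hb, e⟩ := hN
  rw [SubmonoidClass.coe_pow] at e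
  have h1 : redCoeff A π ((a : K) ^ N) = redCoeff A π (a : K) ^ N := by
    rw [show (a : K) ^ N = (((⟨(a : K), a.2.1⟩ : A) ^ N : A) : K) from rfl, redCoeff_coe, map_pow,
      ← redCoeff_coe]
  have h2 : redCoeff A π ((q : K) ^ M * b) = 0 := by
    rw [redCoeff_mul (pow_mem (natCast_mem A q) M) hb]
    obtain ⟨M', rfl⟩ : ∃ M', M = M' + 1 := ⟨M - 1, by omega⟩
    rw [pow_succ, redCoeff_mul (pow_mem (natCast_mem A q) M') (natCast_mem A q),
      redCoeff_natCast_q, mul_zero, zero_mul]
  rw [e, h2] at h1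
  exact eq_zero_of_pow_eq_zero h1.symm

theorem intPair_isRed_add {x y : F} {p r : Fin 2 → Fk} (hx : B.IsRed x p) (hy : B.IsRed y r) :
    B.IsRed (x + y) (p + r) := B.isRed_add hx hy

section Frame

variable (hq2 : 2 ≤ q) (hS : B.IsGluing S m₀) (hne : S.Nonempty) (I : InertiaData B G)
  (D : SecData B m₀) (hA : RankOneAt A q)

include hq2 hS hne I hA

/-- Sections over the truncated ring lift. -/
theorem exists_lift_sections {H : Subgroup G} {M : ℕ} {v : LPair (TRing A H q M)}
    (hv : v ∈ (D.frame hq2 I hS hne).sections (toTRing A H q M)) :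
    ∃ (x : F) (l : ℕ), x ∈ riemannRochSpace (B.cuspDiv l) ∧ Good B H x ∧
      trunc B H M x = v := by
  induction hv using Submodule.span_induction with
  | mem v hv =>
    rcases hv with rfl | ⟨γ, hγ, rfl⟩
    · refine ⟨1, 0, ?_, good_one, trunc_one⟩
      rw [mem_riemannRochSpace_iff]
      refine fun w => Or.inr ?_
      simp [BadFibre.cuspDiv]
    · obtain ⟨l, hl⟩ := D.mem γ
      exact ⟨D.sec γ, l, hl, good_sec hq2 hS hne I D hγ, trunc_sec hq2 hS hne I D hγ⟩
  | zero => exact ⟨0, 0, zero_mem _, good_zero, trunc_zero⟩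
  | add v w _ _ hv hw =>
    obtain ⟨x, l, hx, hgx, rfl⟩ := hv
    obtain ⟨x', l', hx', hgx', rfl⟩ := hw
    exact ⟨x + x', max l l', add_mem
      (riemannRochSpace_mono (B.cuspDiv_mono (le_max_left _ _)) hx)
      (riemannRochSpace_mono (B.cuspDiv_mono (le_max_right _ _)) hx'), hgx.add hgx',
      trunc_add hgx hgx'⟩
  | smul r v _ hv =>
    obtain ⟨x, l, hx, hgx, rfl⟩ := hv
    obtain ⟨a, rfl⟩ := Ideal.Quotient.mk_surjective r
    exact ⟨(a : K) • x, l, Submodule.smul_mem _ _ hx, hgx.smul a.2, trunc_smul hgx a.2⟩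

/-- Nilpotent sections lift to sections with zero reduction. -/
theorem exists_lift_small {H : Subgroup G} {M : ℕ} (hM : 0 < M)
    {J : Ideal (TRing A H q M)} (hJ : IsNilpotent J) {v : LPair (TRing A H q M)}
    (hv : v ∈ J • (D.frame hq2 I hS hne).sections (toTRing A H q M)) :
    ∃ (x : F) (l : ℕ), x ∈ riemannRochSpace (B.cuspDiv l) ∧ Good B H x ∧ B.IsRed x 0 ∧
      trunc B H M x = v := by
  refine Submodule.smul_induction_on hv (fun r hr w hw => ?_) fun v w hv hw => ?_
  · obtain ⟨x, l, hx, hgx, rfl⟩ := exists_lift_sections hq2 hS hne I D hA hw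
    obtain ⟨a, rfl⟩ := Ideal.Quotient.mk_surjective r
    have ha : redCoeff A π (a : K) = 0 := by
      obtain ⟨N, hN⟩ := hJ
      refine mk_q_pow_eq_zero hA hM ⟨N, ?_⟩
      have := Ideal.pow_mem_pow hr N
      rw [hN] at this
      simpa using this
    refine ⟨(a : K) • x, l, Submodule.smul_mem _ _ hx, hgx.smul a.2, ⟨(hgx.smul a.2).int, fun i => ?_⟩,
      trunc_smul hgx a.2⟩
    rw [Pi.zero_apply, map_zero, ← B.smul_e,
      redSeries_smul a.2.1 (show IntSeries A (B.e i x) from hgx.int i),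
      show π ⟨(a : K), a.2.1⟩ = 0 by rw [← redCoeff_coe A π]; exact ha, zero_smul]
  · obtain ⟨x, l, hx, hgx, hrx, rfl⟩ := hv
    obtain ⟨x', l', hx', hgx', hrx', rfl⟩ := hw
    refine ⟨x + x', max l l', add_mem
      (riemannRochSpace_mono (B.cuspDiv_mono (le_max_left _ _)) hx)
      (riemannRochSpace_mono (B.cuspDiv_mono (le_max_right _ _)) hx'), hgx.add hgx', ?_,
      trunc_add hgx hgx'⟩
    simpa using intPair_isRed_add hrx hrx'

namespace RepData

variable {y : Pic0 K F} (d : RepData B y)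

/-- A trivial truncation gives a section almost without polar part. -/
theorem almost_of_trivN {M : ℕ} (hM : 0 < M)
    (h : (D.frame hq2 I hS hne).TrivN (toTRing A (⊥ : Subgroup G) q M) (trunc B ⊥ M d.x)) :
    ∃ N, d.m ≤ N ∧ d.Almost ((q : K) ^ M) N := by
  obtain ⟨J, hJ, β, υ, hβ, hυ, hυJ, htv⟩ := h
  obtain ⟨nJ, hnJ⟩ := id hJ
  obtain ⟨β', hβ', eβ⟩ := exists_quasi_inverse
    (fun z => z ∈ J • (D.frame hq2 I hS hne).sections (toTRing A (⊥ : Subgroup G) q M))
    (Submodule.zero_mem _) (fun _ _ => add_mem) (fun _ => neg_mem)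
    (fun _ _ => Frame.sq_smul_sections) hβ
    (Frame.pow_eq_zero_of_coeffIn hnJ (mem_span_coeffIn hβ))
  obtain ⟨w, l, hw, hgw, hrw', ew⟩ := exists_lift_small hq2 hS hne I D hA hM hJ hβ'
  have hg1 : Good B (⊥ : Subgroup G) (1 + w) := good_one.add hgw
  have hprod : trunc B ⊥ M (d.x * (1 + w)) = 1 + υ := by
    rw [trunc_mul d.good_x hg1, trunc_add good_one hgw, trunc_one, ew, htv, mul_right_comm, eβ,
      one_mul]
  have hr1 : B.IsRed (d.x * (1 + w)) 1 := by
    have := B.isRed_mul d.x_isRed (intPair_isRed_add B.isRed_one hrw')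
    simpa using this
  have hmem : d.G₁ * (1 + w) ∈
      riemannRochSpace ((d.D : Divisor K F) + B.cuspDiv (d.m + l)) := by
    rw [B.cuspDiv_add, ← add_assoc]
    refine mul_mem_riemannRochSpace d.mem₁ (add_mem ?_ hw)
    rw [mem_riemannRochSpace_iff]
    refine fun v => Or.inr ?_
    classical
    rw [Place.ord_one]
    simp only [BadFibre.cuspDiv, Finsupp.add_apply, Finsupp.single_apply]
    split_ifs <;> omega
  have etw : ∀ i, d.twist (d.G₁ * (1 + w)) i = B.e i (d.x * (1 + w)) := fun i => by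
    rw [twist_apply]
    congr 1
    simp only [x]
    ring
  refine ⟨d.m + l, Nat.le_add_right _ _, d.G₁ * (1 + w), hmem, fun i j hj => ?_, ?_, ?_⟩
  · rw [etw]
    have hgood := d.good_x.mul hg1
    have h0 : cf (trunc B (⊥ : Subgroup G) M (d.x * (1 + w))) (i, j) = 0 := by
      rw [hprod, cf_add, cf_one_of_ne (γ := (i, j)) hj.ne, hυ (i, j) hj, add_zero]
    rw [cf_trunc hgood] at h0
    exact (mk_eq_zero_iff hA.ne_zero).mp h0
  · rw [etw]; exact hr1.1 0 0
  · rw [etw]
    have := congrArg (fun z => HahnSeries.coeff z 0) (hr1.2 0)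
    simp only [redSeries_coeff, Pi.one_apply, map_one, HahnSeries.coeff_one, if_pos] at this
    exact this.symm

/-- **Separation.** -/
theorem exists_not_trivN (hD : B.ReducesToPow q d.f)
    (hbound : ∀ a : K, ∃ e : ℕ, (q : K) ^ e * a ∈ A) (hy : y ≠ 0) :
    ∃ M, ∀ M', M ≤ M' → ¬ (D.frame hq2 I hS hne).TrivN (toTRing A (⊥ : Subgroup G) q M')
      (trunc B ⊥ M' d.x) := by
  classical
  set N₀ := max d.m (m₀ + gF + (2 * g + S.card + 1)) with hN₀
  have hbig : BadFibre.Big S m₀ g gF N₀ :=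
    ⟨by omega, by omega, by omega⟩
  set V := riemannRochSpace ((d.D : Divisor K F) + B.cuspDiv N₀)
  have := B.rrF.finiteDimensional ((d.D : Divisor K F) + B.cuspDiv N₀)
  let polar : V →ₗ[K] (↥(poss N₀) → K) :=
    { toFun := fun x γ => (d.twist (x : F) γ.1.1).coeff γ.1.2
      map_add' := fun x x' => funext fun γ => by simp
      map_smul' := fun c x => funext fun γ => by simp }
  have hinj : Function.Injective polar := by
    rw [injective_iff_map_eq_zero]
    intro x hx
    by_contra hx0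
    have hxF : (x : F) ≠ 0 := fun h => hx0 (Subtype.ext h)
    have hxD : (x : F) ∈ riemannRochSpace (d.D : Divisor K F) := by
      rw [mem_riemannRochSpace_iff]
      intro v
      right
      have hv := (mem_riemannRochSpace_iff.mp x.2 v).resolve_left hxF
      by_cases hP : ∃ i, v = B.P i
      · obtain ⟨i, rfl⟩ := hP
        by_contra hlt
        have hneg : (d.twist (x : F) i).order < 0 := by
          rw [d.twist_order hxF i]; omega
        have hne0 : d.twist (x : F) i ≠ 0 :=
          B.e_ne_zero i (mul_ne_zero hxF (div_ne_zero d.G₃_ne d.G₂_ne))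
        refine mt HahnSeries.coeff_order_eq_zero.mp hne0 ?_
        by_cases hlow : -(N₀ : ℤ) ≤ (d.twist (x : F) i).order
        · exact congrFun hx ⟨(i, _), mem_poss.mpr ⟨hlow, hneg⟩⟩
        · exact d.twist_coeff_eq_zero x.2 i (not_le.mp hlow)
      · push Not at hP
        rw [Finsupp.add_apply, B.cuspDiv_apply_of_ne _ (hP 0) (hP 1), add_zero] at hv
        exact hv
    -- an effective divisor of degree zero vanishes
    obtain ⟨E, hE, hdeg⟩ := B.rrF.principal.exists_divisor _ hxF
    have hnn : ∀ v, 0 ≤ (E + (d.D : Divisor K F)) v := fun v => by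
      rw [Finsupp.add_apply, hE]
      have := (mem_riemannRochSpace_iff.mp hxD v).resolve_left hxF
      omega
    have hz : E + (d.D : Divisor K F) = 0 := by
      have hsum : ((E + (d.D : Divisor K F)).sum fun _ m => m) = 0 := by
        have h0 : Divisor.degree (E + (d.D : Divisor K F)) = 0 := by
          rw [map_add, hdeg, Divisor.mem_degZero.mp d.D.2, add_zero]
        rw [← h0, Divisor.degree, Finsupp.liftAddHom_apply]
        exact Finsupp.sum_congr fun v _ => by simp [B.rrF.deg_eq_one v]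
      ext v
      by_contra hv
      have hv' : v ∈ (E + (d.D : Divisor K F)).support := Finsupp.mem_support_iff.mpr hv
      rw [Finsupp.sum, Finset.sum_eq_zero_iff_of_nonneg fun w _ => hnn w] at hsum
      exact hv (by rw [hsum v hv']; rfl)
    apply hy
    rw [← d.mk_eq]
    refine (QuotientAddGroup.eq_zero_iff d.D).mpr ?_
    refine AddSubgroup.mem_addSubgroupOf.mpr ⟨(x : F)⁻¹, inv_ne_zero hxF, fun v => ?_⟩
    have := DFunLike.congr_fun hz v
    rw [Finsupp.add_apply, Finsupp.zero_apply, hE] at this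
    rw [Place.ord_inv]
    omega
  obtain ⟨L, hL⟩ := polar.exists_leftInverse_of_injective (LinearMap.ker_eq_bot.mpr hinj)
  set Λ : (↥(poss N₀) → K) → K := fun w => (d.twist ((L w : V) : F) 0).coeff 0 with hΛ
  set b : ↥(poss N₀) → K := fun γ => Λ (Pi.single γ 1) with hb
  choose e he using hbound
  set E := ∑ γ, e (b γ)
  refine ⟨E + 1, fun M hM htriv => ?_⟩
  obtain ⟨N, hmN, hN⟩ := almost_of_trivN hq2 hS hne I D hA d (by omega) htriv
  have hqA : (q : K) ^ M ∈ A := pow_mem (natCast_mem A q) M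
  have hqr : redCoeff A π ((q : K) ^ M) = 0 := by
    obtain ⟨M', rfl⟩ : ∃ M', M = M' + 1 := ⟨M - 1, by omega⟩
    rw [pow_succ, redCoeff_mul (pow_mem (natCast_mem A q) M') (natCast_mem A q),
      redCoeff_natCast_q, mul_zero]
  obtain ⟨x, hx, hpol, hc0, hc1⟩ : d.Almost ((q : K) ^ M) N₀ := by
    rcases le_total N N₀ with hle | hle
    · obtain ⟨x, hx, h'⟩ := hN
      exact ⟨x, riemannRochSpace_mono (add_le_add le_rfl (B.cuspDiv_mono hle)) hx, h'⟩
    · obtain ⟨j, rfl⟩ := Nat.exists_eq_add_of_le hle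
      exact Almost.descend d hS hD hqA hqr hbig (le_max_left _ _) j hN
  have hLx : L (polar ⟨x, hx⟩) = ⟨x, hx⟩ := LinearMap.congr_fun hL _
  have hconst : (d.twist x 0).coeff 0 =
      ∑ γ, polar ⟨x, hx⟩ γ * b γ := by
    have hlin : ∀ w, Λ w = ∑ γ, w γ * b γ := fun w => by
      conv_lhs => rw [← Finset.univ_sum_single w]
      simp only [hΛ, hb, map_sum, Submodule.coe_sum, Finset.sum_apply, HahnSeries.coeff_sum]
      refine Finset.sum_congr rfl fun γ _ => ?_
      rw [show (Pi.single γ (w γ) : ↥(poss N₀) → K) = w γ • Pi.single γ 1 by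
        rw [← Pi.single_smul, smul_eq_mul, mul_one], map_smul, Submodule.coe_smul, map_smul,
        Pi.smul_apply, HahnSeries.coeff_smul, smul_eq_mul]
    rw [← hlin, hΛ]
    simp only [hLx]
  have hsmall : redCoeff A π ((d.twist x 0).coeff 0) = 0 := by
    rw [hconst]
    suffices hs : ∀ γ, ∃ a ∈ A, polar ⟨x, hx⟩ γ * b γ = (q : K) * a by
      choose a ha ea using hs
      simp only [ea, ← Finset.mul_sum]
      rw [redCoeff_mul (natCast_mem A q) (sum_mem fun γ _ => ha γ), redCoeff_natCast_q, zero_mul]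
    intro γ
    obtain ⟨a, ha, hae⟩ := hpol γ.1.1 γ.1.2 (mem_poss.mp γ.2).2
    have hle : e (b γ) + 1 ≤ M := le_trans (Nat.succ_le_succ
      (Finset.single_le_sum (f := fun γ => e (b γ)) (fun _ _ => Nat.zero_le _)
        (Finset.mem_univ γ))) hM
    refine ⟨(q : K) ^ (M - (e (b γ) + 1)) * a * ((q : K) ^ e (b γ) * b γ),
      mul_mem (mul_mem (pow_mem (natCast_mem A q) _) ha) (he _), ?_⟩
    show (d.twist x γ.1.1).coeff γ.1.2 * b γ = _
    rw [hae]
    conv_lhs => rw [show M = (M - (e (b γ) + 1)) + e (b γ) + 1 by omega]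
    rw [pow_succ, pow_add]
    ring
  rw [hsmall] at hc1
  exact zero_ne_one hc1

end RepData

end Frame

end FLTA.BadRed.Ordinary

end
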